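import Fermat.Agent.PoitouTate.Connect.Local
import Fermat.Agent.TW.Idele.Infinite
import Fermat.Agent.TW.Idele.ClassField.Signs

/-!
# The idele cochain with differential `z`

The local solutions at the places over `T`, transported along `Γ`, and averaging at infinity give
a cochain with values in the ideles of `L` at `T ∪ ∞` whose differential is `z`; on the relations
it is a coboundary.
-/

set_option autoImplicit false
set_option linter.style.haveILetI false
set_option linter.unusedSectionVars false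

noncomputable section

open CategoryTheory groupCohomology ExtCitation
open scoped Pointwise

namespace FLTAgent.PoitouTate

open FLTAgent.TW

local notation "ℚ̄" => AlgebraicClosure ℚ
local notation "Γ" => (AlgebraicClosure ℚ ≃ₐ[ℚ] AlgebraicClosure ℚ)
local notation "𝕌" => Additive (AlgebraicClosure ℚ)ˣ
local notation "𝕁" => Additive PreIdele

variable {p : ℕ} [Fact p.Prime] {S : Finset Nat.Primes} {G : Type} [Group G]
variable {M : Rep.{0} (ZMod p) Γ} [FiniteDimensional (ZMod p) M] (lv : Level (natSet S) p G)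
variable [DistribMulAction G (DualMod M)]
  (hact : ∀ (σ : Γ) (f : DualMod M),
    lv.q σ • f = DualMod.of ((M.dualTwist (cycloChar p)).ρ σ (DualMod.val f)))

/-- A cochain with values in the ideles at `T ∪ ∞` with differential `z`. -/
structure IdeleCochain (T : Finset ℕ) (L : IntermediateField ℚ ℚ̄) (z : Γ × Γ → M) where
  /-- The cochain. -/
  Y : Γ → (Coh.Free G (DualMod M) →+ 𝕁)
  /-- Its splitting on the relations. -/
  W : Coh.Rel G (DualMod M) →+ 𝕁
  Y_mem : ∀ σ x, Additive.toMul (Y σ x) ∈ locIdeles T L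
  W_mem : ∀ r, Additive.toMul (W r) ∈ locIdeles T L
  Y_const : ∀ σ, ∀ s ∈ L.fixingSubgroup, Y (σ * s) = Y σ
  cocycle : ∀ σ τ, lv.dC Y σ τ = (prinA T).comp (kapF M G (z (σ, τ)))
  Y_rel : ∀ σ, (Y σ).comp (Coh.Rel G (DualMod M)).subtype = lv.conj σ W - W
  Y_unit : ∀ σ x (A : Place), ¬ A.Over (natSet S) → (Additive.toMul (Y σ x)).fin A ∈ A.1.unitGroup
  W_unit : ∀ r (A : Place), ¬ A.Over (natSet S) → (Additive.toMul (W r)).fin A ∈ A.1.unitGroup

/-! ### Components of a homomorphism into pre-ideles -/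

section Components

variable {X : Type} [AddCommGroup X]

/-- The component at a place. -/
def finC (x : Place) : (X →+ 𝕁) →+ (X →+ 𝕌) :=
  AddMonoidHom.compHom (finHom x).toAdditive

/-- The component at an embedding. -/
def infC (ι : Emb) : (X →+ 𝕁) →+ (X →+ Additive ℂˣ) :=
  AddMonoidHom.compHom (infHom ι).toAdditive

/-- An embedding on units. -/
def embA (ι : Emb) : 𝕌 →+ Additive ℂˣ := (Units.map (ι : ℚ̄ →* ℂ)).toAdditive

/-- A homomorphism into pre-ideles from its components. -/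
def ofComps (f : Place → (X →+ 𝕌)) (i : Emb → (X →+ Additive ℂˣ)) : X →+ 𝕁 :=
  AddMonoidHom.mk' (fun n => Additive.ofMul
      (⟨fun x => Additive.toMul (f x n), fun ι => Additive.toMul (i ι n)⟩ : PreIdele)) fun n n' => by
    simp only [map_add, toMul_add]
    rfl

theorem finC_ofComps (f : Place → (X →+ 𝕌)) (i : Emb → (X →+ Additive ℂˣ)) (x : Place) :
    finC x (ofComps f i) = f x := AddMonoidHom.ext fun _ => rfl

theorem infC_ofComps (f : Place → (X →+ 𝕌)) (i : Emb → (X →+ Additive ℂˣ)) (ι : Emb) :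
    infC ι (ofComps f i) = i ι := AddMonoidHom.ext fun _ => rfl

theorem hom_ext_comps {φ ψ : X →+ 𝕁} (hf : ∀ x, finC x φ = finC x ψ)
    (hi : ∀ ι, infC ι φ = infC ι ψ) : φ = ψ :=
  AddMonoidHom.ext fun n => Additive.toMul.injective (PreIdele.ext
    (funext fun x => congrArg Additive.toMul (DFunLike.congr_fun (hf x) n))
    (funext fun ι => congrArg Additive.toMul (DFunLike.congr_fun (hi ι) n)))

theorem finC_prinA_pos {T : Finset ℕ} {x : Place} (hx : x.Over T) (φ : X →+ 𝕌) :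
    finC x ((prinA T).comp φ) = φ :=
  AddMonoidHom.ext fun _ => congrArg Additive.ofMul (truncT_fin_pos hx _)

theorem finC_prinA_neg {T : Finset ℕ} {x : Place} (hx : ¬ x.Over T) (φ : X →+ 𝕌) :
    finC x ((prinA T).comp φ) = 0 :=
  AddMonoidHom.ext fun _ => congrArg Additive.ofMul (truncT_fin_neg hx _)

theorem infC_prinA (T : Finset ℕ) (ι : Emb) (φ : X →+ 𝕌) :
    infC ι ((prinA T).comp φ) = (embA ι).comp φ :=
  AddMonoidHom.ext fun _ => congrArg Additive.ofMul (truncT_inf (T := T) _ ι)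

end Components

section ConjComponents

omit [FiniteDimensional (ZMod p) M] [DistribMulAction G (DualMod M)]

variable {X : Type} [AddCommGroup X] [DistribMulAction G X]

theorem finC_conj (g : Γ) (φ : X →+ 𝕁) (x : Place) :
    finC x (lv.conj g φ) = lv.conj g (finC (g⁻¹ • x) φ) :=
  AddMonoidHom.ext fun _ => congrArg Additive.ofMul (Units.ext rfl)

theorem infC_conj (g : Γ) (φ : X →+ 𝕁) (ι : Emb) :
    infC ι (lv.conj g φ) =
      (infC (ι.twist g) φ).comp (DistribSMul.toAddMonoidHom X (lv.q g)⁻¹) :=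
  AddMonoidHom.ext fun _ => rfl

theorem embA_conj (g : Γ) (φ : X →+ 𝕌) (ι : Emb) :
    ((embA (ι.twist g)).comp φ).comp (DistribSMul.toAddMonoidHom X (lv.q g)⁻¹) =
      (embA ι).comp (lv.conj g φ) :=
  AddMonoidHom.ext fun _ => congrArg Additive.ofMul (Units.ext rfl)

theorem smul_eq_self_of_conj {φ : X →+ 𝕁} {s : Γ} (hs : lv.q s = 1) (h : lv.conj s φ = φ)
    (n : X) : s • Additive.toMul (φ n) = Additive.toMul (φ n) := by
  have h1 := DFunLike.congr_fun h n
  rw [lv.conj_apply, hs, inv_one, one_smul] at h1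
  exact congrArg Additive.toMul h1

end ConjComponents

/-! ### Transporters -/

/-- Transporters from one place over each prime, constant modulo `Γ_L` on the orbits of `Γ_L`. -/
theorem exists_transporter (L : IntermediateField ℚ ℚ̄) [FiniteDimensional ℚ L] (T : Finset ℕ)
    (b : ℕ → Place) (hb : ∀ r ∈ T, (b r).1.LiesOverPrime r) :
    ∃ u : Place → Γ, (∀ x : Place, x.Over T → u x • b x.char = x) ∧
      ∀ s ∈ L.fixingSubgroup, ∀ x, u (s • x) * (u x)⁻¹ ∈ L.fixingSubgroup := by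
  classical
  choose t ht htx using fun x : Place => exists_smul_placeRep (F := L) x
  let g : Place → Γ := fun R => if h : ∃ σ : Γ, σ • b R.char = R then h.choose else 1
  refine ⟨fun x => t x * g (placeRep L x), fun x hx => ?_, fun s hs x => ?_⟩
  · have hc : (placeRep L x).char = x.char := by
      conv_rhs => rw [← htx x, Place.char_smul]
    have hR : ∃ σ : Γ, σ • b (placeRep L x).char = placeRep L x := by
      obtain ⟨σ, hσ⟩ := GalCommon.exists_smul_eq_of_liesOverPrime x.prime_char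
        (hb _ (x.over_iff.mp hx)) (hc ▸ (placeRep L x).liesOver_char)
      exact ⟨σ, Subtype.ext (by rw [Place.coe_smul, hc, hσ])⟩
    have h1 : hR.choose • b x.char = placeRep L x :=
      (congrArg (fun r => hR.choose • b r) hc.symm).trans hR.choose_spec
    show (t x * g (placeRep L x)) • b x.char = x
    simp only [g, dif_pos hR]
    rw [mul_smul, h1, htx]
  · show t (s • x) * g (placeRep L (s • x)) * (t x * g (placeRep L x))⁻¹ ∈ _
    rw [placeRep_smul hs, mul_inv_rev, mul_assoc, mul_inv_cancel_left]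
    exact mul_mem (ht _) (inv_mem (ht x))

include hact in
/-- The components at the finite places. -/
theorem exists_finPart {T : Finset ℕ} (hT : ∀ r ∈ T, r.Prime)
    (hp2 : p ≠ 2) {L : IntermediateField ℚ ℚ̄} (hL : IdeleSetting (natSet S) p L)
    (hle : lv.field ≤ L) {z : Γ × Γ → M} (hz : z ∈ levelCocyclesS₂ S M)
    (hsha : continuousH2Sπ S M ⟨z, hz⟩ ∈ sha₂ S M) (hz1 : z (1, 1) = 0)
    (hzL : ∀ g g' s s', s ∈ L.fixingSubgroup → s' ∈ L.fixingSubgroup →
      z (g * s, g' * s') = z (g, g')) :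
    ∃ (Y : Γ → Place → (Coh.Free G (DualMod M) →+ 𝕌))
      (W : Place → (Coh.Rel G (DualMod M) →+ 𝕌)),
      (∀ g x, ¬ x.Over T → Y g x = 0) ∧ (∀ x, ¬ x.Over T → W x = 0) ∧
      (∀ g g' x, x.Over T →
        lv.conj g (Y g' (g⁻¹ • x)) - Y (g * g') x + Y g x = kapF M G (z (g, g'))) ∧
      (∀ g, ∀ s ∈ L.fixingSubgroup, ∀ x, Y (g * s) x = Y g x) ∧
      (∀ g, ∀ s ∈ L.fixingSubgroup, ∀ x, lv.conj s (Y g (s⁻¹ • x)) = Y g x) ∧
      (∀ s ∈ L.fixingSubgroup, ∀ x, lv.conj s (W (s⁻¹ • x)) = W x) ∧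
      (∀ g x, (Y g x).comp (Coh.Rel G (DualMod M)).subtype =
        lv.conj g (W (g⁻¹ • x)) - W x) ∧
      (∀ g (x : Place), ¬ x.Over (natSet S) → ∀ n, Additive.toMul (Y g x n) ∈ x.1.unitGroup) ∧
      (∀ (x : Place), ¬ x.Over (natSet S) → ∀ r, Additive.toMul (W x r) ∈ x.1.unitGroup) := by
  classical
  haveI := hL.finite
  haveI := setting_normal hL
  haveI : L.fixingSubgroup.Normal := TW.normal_fixingSubgroup
  have hloc : ∀ r : ℕ, ∃ (A : Place) (y : Γ → (Coh.Free G (DualMod M) →+ 𝕌))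
      (w : Coh.Rel G (DualMod M) →+ 𝕌), r ∈ T → A.1.LiesOverPrime r ∧
        ∃ ls : LocalSol lv L z A, ls.y = y ∧ ls.u = w := fun r => by
    by_cases hr : r ∈ T
    · obtain ⟨A, hA, ⟨ls⟩⟩ := exists_localSol lv hact hp2 hL hle hz hsha hz1 hzL (hT r hr)
      exact ⟨A, ls.y, ls.u, fun _ => ⟨hA, ls, rfl, rfl⟩⟩
    · obtain ⟨A, hA⟩ := GalCommon.exists_liesOverPrime Nat.prime_two
      exact ⟨⟨A, 2, Nat.prime_two, hA⟩, 0, 0, fun h => absurd h hr⟩
  choose b y w hbyw using hloc
  have hls : ∀ x : Place, x.Over T → ∃ ls : LocalSol lv L z (b x.char),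
      ls.y = y x.char ∧ ls.u = w x.char := fun x hx => (hbyw _ (x.over_iff.mp hx)).2
  obtain ⟨u, hub, hu⟩ := exists_transporter L T b fun r hr => (hbyw r hr).1
  -- congruences modulo `Γ_L`
  let π : Γ →* Γ ⧸ L.fixingSubgroup := QuotientGroup.mk' L.fixingSubgroup
  have hπ1 : ∀ {a : Γ}, π a = 1 ↔ a ∈ L.fixingSubgroup := fun {a} => QuotientGroup.eq_one_iff a
  have hπu : ∀ s x, π s = 1 → π (u (s • x)) = π (u x) := fun s x hs => by
    have h := hπ1.mpr (hu s (hπ1.mp hs) x)
    rwa [map_mul, map_inv, _root_.mul_inv_eq_one] at h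
  have hzc : ∀ g g' h h', π g = π g' → π h = π h' → z (g, h) = z (g', h') := fun g g' h h' e e' => by
    have h1 := hzL g h (g⁻¹ * g') (h⁻¹ * h') (hπ1.mp (by rw [map_mul, map_inv, e, inv_mul_cancel]))
      (hπ1.mp (by rw [map_mul, map_inv, e', inv_mul_cancel]))
    rwa [mul_inv_cancel_left, mul_inv_cancel_left, eq_comm] at h1
  have hq : ∀ s, π s = 1 → lv.q s = 1 := fun s hs =>
    lv.mem_fix_field.mp (IntermediateField.fixingSubgroup_le hle (hπ1.mp hs))
  have hρ : ∀ s, π s = 1 → ∀ m, M.ρ s m = m := fun s hs m =>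
    rho_eq_self lv hact hle (hπ1.mp hs) m
  have hbc : ∀ (x : Place) (g : Γ), b (g • x).char = b x.char := fun x g => by
    rw [Place.char_smul]
  let v : Γ → Place → Γ := fun g x => u (g⁻¹ • x)
  let k : Γ → Place → Γ := fun g x => (u x)⁻¹ * (g * v g x)
  have hk : ∀ g x, x.Over T → k g x • b x.char = b x.char := fun g x hx => by
    have h1 := hub _ (hx.smul g⁻¹)
    rw [hbc] at h1
    show ((u x)⁻¹ * (g * u (g⁻¹ • x))) • b x.char = b x.char
    rw [mul_smul, mul_smul, h1, smul_inv_smul, inv_smul_eq_iff, hub x hx]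
  have hyc : ∀ (x : Place), x.Over T → ∀ a a', a • b x.char = b x.char → a' • b x.char = b x.char →
      π a = π a' → y x.char a = y x.char a' := fun x hx a a' ha ha' e => by
    obtain ⟨ls, hy, -⟩ := hls x hx
    rw [← hy, ← ls.y_const a ha (a⁻¹ * a')
      (hπ1.mp (by rw [map_mul, map_inv, e, inv_mul_cancel]))
      (by rw [mul_smul, ha', inv_smul_eq_iff, ha]), mul_inv_cancel_left]
  let Y : Γ → Place → (Coh.Free G (DualMod M) →+ 𝕌) := fun g x =>
    if x.Over T then lv.conj (u x) (y x.char (k g x)) +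
      kapF M G (z (g, v g x) - z (u x, k g x)) else 0
  let W : Place → (Coh.Rel G (DualMod M) →+ 𝕌) := fun x =>
    if x.Over T then lv.conj (u x) (w x.char) else 0
  have hY1 : ∀ g x, x.Over T → Y g x = lv.conj (u x) (y x.char (k g x)) +
      kapF M G (z (g, v g x) - z (u x, k g x)) := fun g x hx => if_pos hx
  have hW1 : ∀ x, x.Over T → W x = lv.conj (u x) (w x.char) := fun x hx => if_pos hx
  have hY0 : ∀ g x, ¬ x.Over T → Y g x = 0 := fun g x hx => if_neg hx
  have hW0 : ∀ x, ¬ x.Over T → W x = 0 := fun x hx => if_neg hx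
  have hnot : ∀ (g : Γ) {x : Place}, ¬ x.Over T → ¬ (g⁻¹ • x).Over T := fun g x hx h =>
    hx (Place.over_smul_iff.mp h)
  -- the transporters at a translate by an element of `Γ_L`
  have hshift : ∀ s x, π s = 1 → x.Over T → ∃ t, π t = 1 ∧ t • b x.char = b x.char ∧
      s * u (s⁻¹ • x) = u x * t := fun s x hs hx => by
    refine ⟨(u x)⁻¹ * (s * u (s⁻¹ • x)), ?_, ?_, (mul_inv_cancel_left _ _).symm⟩
    · rw [map_mul, map_inv, map_mul, hπu _ _ (by rw [map_inv, hs, inv_one]), hs, one_mul,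
        inv_mul_cancel]
    · have h1 := hub _ (hx.smul s⁻¹)
      rw [hbc] at h1
      rw [mul_smul, mul_smul, h1, smul_inv_smul, inv_smul_eq_iff, hub x hx]
  refine ⟨Y, W, hY0, hW0, fun g g' x hx => ?_, fun g s hs x => ?_, fun g s hs x => ?_,
    fun s hs x => ?_, fun g x => ?_, fun g x hxS n => ?_, fun x hxS r => ?_⟩
  · -- the differential
    obtain ⟨ls, hy, -⟩ := hls x hx
    have hx' := hx.smul g⁻¹
    set uu := u x with huu
    set v₁ := u (g⁻¹ • x) with hv₁
    set w₁ := u ((g * g')⁻¹ • x) with hw₁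
    set a := uu⁻¹ * (g * v₁) with ha
    set a' := v₁⁻¹ * (g' * w₁) with ha'
    have hw' : u (g'⁻¹ • g⁻¹ • x) = w₁ := by rw [hw₁, mul_inv_rev, mul_smul]
    have e1 : g * v₁ = uu * a := by rw [ha, mul_inv_cancel_left]
    have e2 : g' * w₁ = v₁ * a' := by rw [ha', mul_inv_cancel_left]
    have e3 : uu⁻¹ * (g * g' * w₁) = a * a' := by rw [ha, ha']; group
    have hA : a • b x.char = b x.char := hk g x hx
    have hA' : a' • b x.char = b x.char := by
      have := hk g' (g⁻¹ • x) hx'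
      simp only [k, v, hw', hbc] at this
      exact this
    have h1 := congrArg (lv.conj uu) (ls.cocycle a a' hA hA')
    rw [hy, Level.dC, map_add, lv.conj_sub, ← lv.conj_mul, conj_kapF lv hact] at h1
    have hc := (mem_cocycles₂_iff z).mp hz.1
    have c1 := hc uu a a'
    have c2 := hc g v₁ a'
    have c3 := hc g g' w₁
    rw [e1, ← e2] at c2
    rw [hY1 g x hx, hY1 _ x hx, hY1 g' _ hx']
    simp only [k, v, hw', Place.char_smul, ← huu, ← hv₁, ← hw₁, ← ha, ← ha', e3]
    rw [map_add, conj_kapF lv hact, ← lv.conj_mul, e1, map_sub]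
    have hM : M.ρ uu (z (a, a')) + ((M.ρ g (z (g', w₁)) - M.ρ g (z (v₁, a'))) -
        (z (g * g', w₁) - z (uu, a * a')) + (z (g, v₁) - z (uu, a))) = z (g, g') := by
      rw [eq_sub_of_add_eq c1.symm, eq_sub_of_add_eq c2.symm, eq_sub_of_add_eq c3.symm]
      abel
    conv_rhs => rw [← hM]
    simp only [map_add, map_sub] at h1 ⊢
    rw [← h1]
    abel
  · -- right translation
    have hs' : π s = 1 := hπ1.mpr hs
    by_cases hx : x.Over T
    · have hv' : π (v (g * s) x) = π (v g x) := by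
        show π (u ((g * s)⁻¹ • x)) = _
        rw [mul_inv_rev, mul_smul]
        exact hπu _ _ (by rw [map_inv, hs', inv_one])
      have hg' : π (g * s) = π g := by rw [map_mul, hs', mul_one]
      have hk' : π (k (g * s) x) = π (k g x) := by
        show π (_ * (_ * _)) = π (_ * (_ * _))
        rw [map_mul, map_mul _ (g * s), hv', hg', ← map_mul, ← map_mul]
      rw [hY1 _ x hx, hY1 _ x hx, hyc x hx _ _ (hk _ x hx) (hk _ x hx) hk',
        hzc _ _ _ _ hg' hv', hzc _ _ _ _ (rfl : π (u x) = _) hk']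
    · rw [hY0 _ x hx, hY0 _ x hx]
  · -- invariance
    have hs' : π s = 1 := hπ1.mpr hs
    by_cases hx : x.Over T
    · obtain ⟨ls, hy, -⟩ := hls x hx
      obtain ⟨t, ht, htb, hst⟩ := hshift s x hs' hx
      have hx' := hx.smul s⁻¹
      have hu' : π (u (s⁻¹ • x)) = π (u x) := hπu _ _ (by rw [map_inv, hs', inv_one])
      have hv' : π (v g (s⁻¹ • x)) = π (v g x) := by
        show π (u (g⁻¹ • s⁻¹ • x)) = π (u (g⁻¹ • x))
        have h1 : g⁻¹ • s⁻¹ • x = (g⁻¹ * s⁻¹ * g) • g⁻¹ • x := by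
          simp only [mul_smul, smul_inv_smul]
        rw [h1]
        exact hπu _ _ (by simp [map_mul, map_inv, hs'])
      have hk' : π (k g (s⁻¹ • x)) = π (k g x) := by
        show π (_ * (_ * _)) = π (_ * (_ * _))
        rw [map_mul, map_mul, map_inv, hu', hv', ← map_inv, ← map_mul, ← map_mul]
      have hkb : k g (s⁻¹ • x) • b x.char = b x.char := by
        have := hk g _ hx'
        rwa [hbc] at this
      rw [hY1 _ x hx, hY1 _ _ hx', map_add, ← lv.conj_mul, hst, lv.conj_mul, Place.char_smul,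
        hyc x hx _ _ hkb (hk _ x hx) hk', lv.conj_eq_self (hq t ht) (fun n => by
          rw [← hy]; exact ls.y_fixed _ (hk _ x hx) t (hπ1.mp ht) htb n),
        conj_kapF lv hact, hρ s hs', hzc _ _ _ _ (rfl : π g = _) hv', hzc _ _ _ _ hu' hk']
    · rw [hY0 _ x hx, hY0 _ _ (hnot s hx), map_zero]
  · have hs' : π s = 1 := hπ1.mpr hs
    by_cases hx : x.Over T
    · obtain ⟨ls, -, hw⟩ := hls x hx
      obtain ⟨t, ht, htb, hst⟩ := hshift s x hs' hx
      rw [hW1 x hx, hW1 _ (hx.smul s⁻¹), ← lv.conj_mul, hst, lv.conj_mul, Place.char_smul,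
        lv.conj_eq_self (hq t ht) fun r => by rw [← hw]; exact ls.u_fixed t (hπ1.mp ht) htb r]
    · rw [hW0 _ hx, hW0 _ (hnot s hx), map_zero]
  · -- on the relations
    by_cases hx : x.Over T
    · obtain ⟨ls, hy, hw⟩ := hls x hx
      have h1 : (y x.char (k g x)).comp (Coh.Rel G (DualMod M)).subtype =
          lv.conj (k g x) (w x.char) - w x.char := AddMonoidHom.ext fun r => by
        rw [← hy, ← hw]
        exact ls.y_rel _ (hk g x hx) r
      have h2 : (kapF M G (z (g, v g x) - z (u x, k g x))).comp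
          (Coh.Rel G (DualMod M)).subtype = 0 := AddMonoidHom.ext fun r => kapF_rel _ r
      rw [hY1 g x hx, hW1 x hx, hW1 _ (hx.smul g⁻¹), AddMonoidHom.add_comp, h2, add_zero,
        ← lv.conj_comp_eqHom Coh.subtype_mem_eqHom, h1, lv.conj_sub, ← lv.conj_mul, ← lv.conj_mul,
        Place.char_smul]
      simp only [k, v, mul_inv_cancel_left]
    · rw [hY0 _ x hx, hW0 _ hx, hW0 _ (hnot g hx), map_zero]
      exact AddMonoidHom.ext fun r => by simp
  · by_cases hx : x.Over T
    · obtain ⟨ls, hy, -⟩ := hls x hx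
      have hbS : ¬ (b x.char).Over (natSet S) := fun h => hxS (by
        rw [← hub x hx]; exact h.smul _)
      rw [hY1 g x hx, AddMonoidHom.add_apply, toMul_add]
      refine mul_mem ?_ ((kapF_mem_tUnits lv le_rfl _ n).2 x hxS)
      rw [lv.conj_apply, toMul_actA]
      conv => arg 1; rw [← hub x hx, Place.coe_smul]
      refine unitGroup_smul.mpr ?_
      rw [← hy]
      exact ls.y_unit hbS _ (hk g x hx) _
    · rw [hY0 _ x hx, AddMonoidHom.zero_apply, toMul_zero]
      exact one_mem _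
  · by_cases hx : x.Over T
    · obtain ⟨ls, -, hw⟩ := hls x hx
      have hbS : ¬ (b x.char).Over (natSet S) := fun h => hxS (by
        rw [← hub x hx]; exact h.smul _)
      rw [hW1 x hx, lv.conj_apply, toMul_actA]
      conv => arg 1; rw [← hub x hx, Place.coe_smul]
      refine unitGroup_smul.mpr ?_
      rw [← hw]
      exact ls.u_unit hbS _
    · rw [hW0 _ hx, AddMonoidHom.zero_apply, toMul_zero]
      exact one_mem _

omit [FiniteDimensional (ZMod p) M] [DistribMulAction G (DualMod M)] in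
/-- The values at the embeddings, averaged over complex conjugation. -/
theorem exists_infPart (hp2 : p ≠ 2) {L : IntermediateField ℚ ℚ̄} [Normal ℚ L]
    {z : Γ × Γ → M} (hz : z ∈ cocycles₂ M)
    (hzL : ∀ g g' s s', s ∈ L.fixingSubgroup → s' ∈ L.fixingSubgroup →
      z (g * s, g' * s') = z (g, g')) :
    ∃ m : Γ → Emb → M, (∀ g g' ι, M.ρ g (m g' (ι.twist g)) - m (g * g') ι + m g ι = z (g, g')) ∧
      (∀ g, ∀ s ∈ L.fixingSubgroup, ∀ ι, m (g * s) ι = m g ι) ∧
      (∀ g, ∀ s ∈ L.fixingSubgroup, ∀ ι : Emb, m g (ι.twist s) = m g ι) ∧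
      ∀ g (ι : Emb), m g ι.conj = m g ι := by
  haveI : L.fixingSubgroup.Normal := TW.normal_fixingSubgroup
  let π : Γ →* Γ ⧸ L.fixingSubgroup := QuotientGroup.mk' L.fixingSubgroup
  have hπ1 : ∀ {a : Γ}, π a = 1 ↔ a ∈ L.fixingSubgroup := fun {a} => QuotientGroup.eq_one_iff a
  have hzc : ∀ g g' h h', π g = π g' → π h = π h' → z (g, h) = z (g', h') := fun g g' h h' e e' => by
    have h1 := hzL g h (g⁻¹ * g') (h⁻¹ * h') (hπ1.mp (by rw [map_mul, map_inv, e, inv_mul_cancel]))
      (hπ1.mp (by rw [map_mul, map_inv, e', inv_mul_cancel]))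
    rwa [mul_inv_cancel_left, mul_inv_cancel_left, eq_comm] at h1
  haveI := EllP.qbarIsAlgebraic
  let ι₀ : Emb := (IsAlgClosed.lift : ℚ̄ →ₐ[ℚ] ℂ).toRingHom
  obtain ⟨c, hc⟩ := exists_emb_comp_eq ι₀ ι₀.conj
  choose e he using fun ι => exists_emb_comp_eq ι₀ ι
  have hc' : ι₀.twist c = ι₀.conj := hc
  have he' : ∀ ι, ι₀.twist (e ι) = ι := he
  have hcc : c * c = 1 := ι₀.twist_injective (by
    rw [← Emb.twist_mul, hc', Emb.conj_twist, hc', Emb.conj_conj, Emb.twist_one])
  have hci : c⁻¹ = c := inv_eq_of_mul_eq_one_right hcc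
  have het : ∀ (ι : Emb) g, e (ι.twist g) = e ι * g := fun ι g => ι₀.twist_injective (by
    rw [he', ← Emb.twist_mul, he'])
  have hec : ∀ ι : Emb, e ι.conj = c * e ι := fun ι => ι₀.twist_injective (by
    rw [he', ← Emb.twist_mul, hc', Emb.conj_twist, he'])
  have h2 : (2 : ZMod p) ≠ 0 := by
    intro h
    have := (ZMod.natCast_eq_zero_iff 2 p).mp (by exact_mod_cast h)
    exact hp2 ((Nat.prime_dvd_prime_iff_eq (Fact.out : p.Prime) Nat.prime_two).mp this)
  let f : Γ → Γ → M := fun g a => z (g, g⁻¹ * a)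
  have hf : ∀ g g' a, M.ρ g (f g' (g⁻¹ * a)) - f (g * g') a + f g a = z (g, g') := fun g g' a => by
    have h := (mem_cocycles₂_iff z).mp hz g g' ((g * g')⁻¹ * a)
    rw [show g' * ((g * g')⁻¹ * a) = g⁻¹ * a by group] at h
    show M.ρ g (z (g', g'⁻¹ * (g⁻¹ * a))) - _ + z (g, g⁻¹ * a) = _
    rw [show g'⁻¹ * (g⁻¹ * a) = (g * g')⁻¹ * a by group, eq_sub_of_add_eq h.symm]
    show _ - z (g * g', (g * g')⁻¹ * a) + _ = _
    abel
  have hfs : ∀ g s a, π s = 1 → f (g * s) a = f g a := fun g s a hs =>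
    hzc _ _ _ _ (by rw [map_mul, hs, mul_one]) (by simp [map_mul, map_inv, hs])
  let F : Γ → Γ → M := fun g a => f g a + f g (a * c)
  refine ⟨fun g ι => (2 : ZMod p)⁻¹ • F g (e ι)⁻¹, fun g g' ι => ?_, fun g s hs ι => ?_,
    fun g s hs ι => ?_, fun g ι => ?_⟩
  · show M.ρ g ((2 : ZMod p)⁻¹ • F g' (e (ι.twist g))⁻¹) - _ + _ = _
    rw [map_smul, ← smul_sub, ← smul_add, het, mul_inv_rev]
    have h1 : M.ρ g (F g' (g⁻¹ * (e ι)⁻¹)) - F (g * g') (e ι)⁻¹ + F g (e ι)⁻¹ =
        z (g, g') + z (g, g') := by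
      show M.ρ g (f g' _ + f g' _) - (_ + _) + (_ + _) = _
      rw [mul_assoc]
      nth_rw 1 [← hf g g' (e ι)⁻¹]
      rw [← hf g g' ((e ι)⁻¹ * c), map_add]
      abel
    rw [h1, ← two_smul (ZMod p) (z (g, g')), smul_smul, inv_mul_cancel₀ h2, one_smul]
  · have hs' : π s = 1 := hπ1.mpr hs
    show _ • (_ + _) = _ • (_ + _)
    rw [hfs _ _ _ hs', hfs _ _ _ hs']
  · have hs' : π s = 1 := hπ1.mpr hs
    show (2 : ZMod p)⁻¹ • F g (e (ι.twist s))⁻¹ = _
    rw [het, mul_inv_rev]
    show _ • (_ + _) = _ • (_ + _)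
    congr 2
    · exact hzc _ _ _ _ rfl (by simp [map_mul, map_inv, hs'])
    · exact hzc _ _ _ _ rfl (by simp [map_mul, map_inv, hs'])
  · show (2 : ZMod p)⁻¹ • F g (e ι.conj)⁻¹ = _
    rw [hec, mul_inv_rev, hci]
    show _ • (_ + _) = _ • (_ + _)
    rw [mul_assoc, hcc, mul_one, add_comm]

include hact in
/-- Idele cochains exist. -/
theorem exists_ideleCochain {T : Finset ℕ} (hST : natSet S ⊆ T) (hT : ∀ r ∈ T, r.Prime)
    (hp2 : p ≠ 2) {L : IntermediateField ℚ ℚ̄} (hL : IdeleSetting (natSet S) p L)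
    (hle : lv.field ≤ L) {z : Γ × Γ → M} (hz : z ∈ levelCocyclesS₂ S M)
    (hsha : continuousH2Sπ S M ⟨z, hz⟩ ∈ sha₂ S M) (hz1 : z (1, 1) = 0)
    (hzL : ∀ g g' s s', s ∈ L.fixingSubgroup → s' ∈ L.fixingSubgroup →
      z (g * s, g' * s') = z (g, g')) :
    Nonempty (IdeleCochain lv T L z) := by
  classical
  haveI := setting_normal hL
  obtain ⟨YF, WF, hY0, hW0, hYd, hYc, hYf, hWf, hYr, hYu, hWu⟩ :=
    exists_finPart lv hact hT hp2 hL hle hz hsha hz1 hzL
  obtain ⟨m, hmd, hmc, hmt, hmj⟩ := exists_infPart (M := M) hp2 hz.1 hzL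
  let Y : Γ → (Coh.Free G (DualMod M) →+ 𝕁) := fun g =>
    ofComps (YF g) fun ι => (embA ι).comp (kapF M G (m g ι))
  let W : Coh.Rel G (DualMod M) →+ 𝕁 := ofComps WF fun _ => 0
  have hq : ∀ s ∈ L.fixingSubgroup, lv.q s = 1 := fun s hs =>
    lv.mem_fix_field.mp (IntermediateField.fixingSubgroup_le hle hs)
  have hfixY : ∀ g, ∀ s ∈ L.fixingSubgroup, lv.conj s (Y g) = Y g := fun g s hs =>
    hom_ext_comps (fun x => by rw [finC_conj, finC_ofComps, finC_ofComps, hYf g s hs])
      fun ι => by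
        rw [infC_conj, infC_ofComps, infC_ofComps, embA_conj, conj_kapF lv hact, hmt g s hs,
          rho_eq_self lv hact hle hs]
  have hfixW : ∀ s ∈ L.fixingSubgroup, lv.conj s W = W := fun s hs =>
    hom_ext_comps (fun x => by rw [finC_conj, finC_ofComps, finC_ofComps, hWf s hs])
      fun ι => by rw [infC_conj, infC_ofComps, infC_ofComps, AddMonoidHom.zero_comp]
  refine ⟨⟨Y, W, fun σ n => ⟨⟨fun s hs => smul_eq_self_of_conj lv (hq s hs) (hfixY σ s hs) n,
    fun ι => ?_, T, fun A hA => ?_⟩, fun A hA => ?_⟩,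
    fun r => ⟨⟨fun s hs => smul_eq_self_of_conj lv (hq s hs) (hfixW s hs) r,
    fun ι => ?_, T, fun A hA => ?_⟩, fun A hA => ?_⟩,
    fun σ s hs => ?_, fun σ τ => ?_, fun σ => ?_, fun σ n A hA => hYu σ A hA n,
    fun r A hA => hWu A hA r⟩⟩
  · show Additive.toMul ((embA ι.conj).comp (kapF M G (m σ ι.conj)) n) = _
    rw [hmj]
    exact Units.ext rfl
  · show Additive.toMul (YF σ A n) ∈ _
    rw [hY0 σ A hA, AddMonoidHom.zero_apply, toMul_zero]
    exact one_mem _
  · show Additive.toMul (YF σ A n) = 1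
    rw [hY0 σ A hA, AddMonoidHom.zero_apply, toMul_zero]
  · show (1 : ℂˣ) = Units.map _ 1
    rw [map_one]
  · show Additive.toMul (WF A r) ∈ _
    rw [hW0 A hA, AddMonoidHom.zero_apply, toMul_zero]
    exact one_mem _
  · show Additive.toMul (WF A r) = 1
    rw [hW0 A hA, AddMonoidHom.zero_apply, toMul_zero]
  · exact hom_ext_comps (fun x => by rw [finC_ofComps, finC_ofComps, hYc σ s hs])
      fun ι => by rw [infC_ofComps, infC_ofComps, hmc σ s hs]
  · refine hom_ext_comps (fun x => ?_) fun ι => ?_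
    · rw [Level.dC, map_add, map_sub, finC_conj, finC_ofComps, finC_ofComps, finC_ofComps]
      by_cases hx : x.Over T
      · rw [finC_prinA_pos hx, hYd σ τ x hx]
      · rw [finC_prinA_neg hx, hY0 _ _ hx, hY0 _ _ hx,
          hY0 _ _ (fun h => hx (Place.over_smul_iff.mp h)), map_zero]
        exact AddMonoidHom.ext fun n => by simp
    · rw [Level.dC, map_add, map_sub, infC_conj, infC_ofComps, infC_ofComps, infC_ofComps,
        embA_conj, conj_kapF lv hact, infC_prinA, ← hmd σ τ ι, map_add, map_sub,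
        AddMonoidHom.comp_add, AddMonoidHom.comp_sub]
  · refine hom_ext_comps (fun x => ?_) fun ι => ?_
    · rw [map_sub, finC_conj, finC_ofComps, finC_ofComps, ← hYr σ x]
      exact AddMonoidHom.ext fun _ => rfl
    · rw [map_sub, infC_conj, infC_ofComps, infC_ofComps, AddMonoidHom.zero_comp, sub_self]
      refine AddMonoidHom.ext fun r => ?_
      show embA ι (kapF M G (m σ ι) r) = 0
      rw [kapF_rel, map_zero]

end FLTAgent.PoitouTate
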