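import Fermat.Agent.PoitouTate.Connect.Relation

/-!
# The connecting map into `sha₂`

`theta : Ext¹_G(DualMod M, C_T) →+ sha₂ S M`.  Every class has a connecting datum
(`exists_data_of_class`), the two-cocycle of a datum is trivial at every place of `S ∪ ∞`
(`ConnData.mem_sha₂`), and the class of the cocycle depends on the class only (`theta_eq`).  The
local classes lie in the kernel (`localClasses_le_ker`).
-/

set_option autoImplicit false
set_option synthInstance.maxHeartbeats 200000
set_option linter.style.haveILetI false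
set_option linter.unusedSectionVars false

noncomputable section

open CategoryTheory groupCohomology ExtCitation
open scoped Pointwise

namespace FLTAgent.PoitouTate

open FLTAgent.TW FLTAgent.TW.PreIdele

local notation "ℚ̄" => AlgebraicClosure ℚ
local notation "Γ" => (AlgebraicClosure ℚ ≃ₐ[ℚ] AlgebraicClosure ℚ)
local notation "𝕌" => Additive (AlgebraicClosure ℚ)ˣ
local notation "𝕁" => Additive PreIdele

variable {p : ℕ} [Fact p.Prime] {S : Finset Nat.Primes} {G : Type} [Group G]
variable {M : Rep.{0} (ZMod p) Γ} [FiniteDimensional (ZMod p) M] (lv : Level (natSet S) p G)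
variable [DistribMulAction G (DualMod M)]
  (hact : ∀ (σ : Γ) (f : DualMod M),
    lv.q σ • f = DualMod.of ((M.dualTwist (cycloChar p)).ρ σ (DualMod.val f)))

/-- The restriction to a field, as an index of a coset of its fixing subgroup. -/
theorem exists_coset_index (L : IntermediateField ℚ ℚ̄) [FiniteDimensional ℚ L] :
    ∃ (I : Type) (_ : Finite I) (rep : I → Γ), ∀ σ : Γ, ∃ i, (rep i)⁻¹ * σ ∈ L.fixingSubgroup := by
  let res : Γ → (L →ₐ[ℚ] ℚ̄) := fun σ => (σ : ℚ̄ →ₐ[ℚ] ℚ̄).comp L.val
  choose rep hrep using fun c : Set.range res => c.2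
  refine ⟨Set.range res, inferInstance, rep, fun σ => ⟨⟨res σ, σ, rfl⟩, ?_⟩⟩
  rw [IntermediateField.mem_fixingSubgroup_iff]
  intro x hx
  have h : rep ⟨res σ, σ, rfl⟩ x = σ x := DFunLike.congr_fun (hrep ⟨res σ, σ, rfl⟩) (⟨x, hx⟩ : L)
  rw [AlgEquiv.mul_apply, ← h, ← AlgEquiv.mul_apply, inv_mul_cancel, AlgEquiv.one_apply]

/-- Existence of data for a multiple prime to `p`. -/
theorem exists_connData {f : Coh.Rel G (DualMod M) →+ lv.Cl (natSet S)}
    (hf : f ∈ Coh.eqHom G (Coh.Rel G (DualMod M)) (lv.Cl (natSet S))) :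
    ∃ (k : ℕ) (z : Γ × Γ → M), ¬ p ∣ k ∧ Nonempty (ConnData lv (k • f) z) := by
  classical
  haveI := lv.finite_group
  haveI := DualMod.finite M
  haveI : Module.Free ℤ (Coh.Free G (DualMod M)) :=
    inferInstanceAs (Module.Free ℤ ((G × DualMod M) →₀ ℤ))
  haveI : Module.Finite ℤ (Coh.Free G (DualMod M)) :=
    inferInstanceAs (Module.Finite ℤ ((G × DualMod M) →₀ ℤ))
  haveI : Module.Free ℤ (Coh.Rel G (DualMod M)) := Coh.free_addSubgroup _
  haveI : Module.Finite ℤ (Coh.Rel G (DualMod M)) :=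
    Module.Finite.equiv (M := AddSubgroup.toIntSubmodule (Coh.Rel G (DualMod M)))
      (N := Coh.Rel G (DualMod M)) (AddEquiv.refl (Coh.Rel G (DualMod M)) :
        (AddSubgroup.toIntSubmodule (Coh.Rel G (DualMod M))) ≃+
          Coh.Rel G (DualMod M)).toIntLinearEquiv
  let b := Module.Free.chooseBasis ℤ (Coh.Rel G (DualMod M))
  choose φ hφ using fun j => lv.classOf_surjective (classKer (natSet S) lv.field) (f (b j))
  obtain ⟨k, L, x, hk, hle, hL, hxL, hx⟩ :=
    exists_capitulate_finset lv.setting (fun j => (φ j).1) fun j => (φ j).2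
  haveI := setting_normal hL
  haveI := hL.finite
  let ψ : Module.Free.ChooseBasisIndex ℤ (Coh.Rel G (DualMod M)) → PreIdele :=
    fun j => (φ j).1 ^ k / principalHom (x j)
  have hψ : ∀ j, ψ j ∈ ideles L := fun j =>
    div_mem (pow_mem (ideles_le_of_le hle (φ j).2) k) (principalHom_mem_ideles (hxL j))
  let D : Coh.Rel G (DualMod M) →+ 𝕁 :=
    (b.constr ℤ fun j => (Additive.ofMul (truncT (natSet S) (ψ j)) : 𝕁)).toAddMonoidHom
  have hDb : ∀ j, D (b j) = Additive.ofMul (truncT (natSet S) (ψ j)) := fun j =>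
    b.constr_basis ℤ _ j
  have hD : ∀ y, Additive.toMul (D y) ∈ locIdeles (natSet S) L := fun y => by
    have h0 : (QuotientGroup.mk' (locIdeles (natSet S) L)).toAdditive.comp D = 0 :=
      AddMonoidHom.toIntLinearMap_injective (b.ext fun j => congrArg Additive.ofMul
        ((QuotientGroup.eq_one_iff _).mpr (by rw [hDb]; exact truncT_mem (hψ j))))
    exact (QuotientGroup.eq_one_iff _).mp (congrArg Additive.toMul (DFunLike.congr_fun h0 y))
  have hDc : ∀ y, clPre (natSet S) L (D y) = k • clIn lv hle (f y) := fun y =>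
    DFunLike.congr_fun (f := (clPre (natSet S) L).comp D) (g := k • (clIn lv hle).comp f)
      (AddMonoidHom.toIntLinearMap_injective (b.ext fun j => by
        show clPre (natSet S) L (D (b j)) = k • clIn lv hle (f (b j))
        rw [hDb, ← hφ j, clIn_classOf, ← map_nsmul, clPre_eq_iff, toMul_nsmul, toMul_ofMul,
          toMul_ofMul]
        have h1 := div_truncT_mem (T := natSet S) (hψ j) fun A hA => by
          show ((φ j).1 ^ k).fin A / x j ∈ _
          rw [fin_pow]
          exact hx j A hA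
        have h2 : truncT (natSet S) (ψ j) / (φ j).1 ^ k =
            (PreIdele.principalHom (x j) * (ψ j / truncT (natSet S) (ψ j)))⁻¹ := by
          simp only [ψ]
          apply Additive.ofMul.injective
          simp only [ofMul_div, ofMul_inv, ofMul_mul]
          abel
        rw [h2]
        exact inv_mem (Subgroup.mul_mem_sup ⟨x j, hxL j, rfl⟩ h1))) y
  choose u hu hu' using fun σ : Γ => exists_hom_of_prinT (lv.conj σ D - D) fun y =>
    exists_tUnit_of_classKer (L := L) (fun A hA => (div_mem (by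
      rw [lv.conj_apply, toMul_actA]
      exact smul_mem_locIdeles σ (hD _)) (hD y)).2 A hA)
      (conj_sub_mem lv hle hf k D hDc σ y)
  have huc : ∀ σ, ∀ s ∈ L.fixingSubgroup, u (σ * s) = u σ := fun σ s hs =>
    prinA_comp_injective _ (by
      rw [hu', hu', conj_fixed lv hle (fun y t ht => (hD y).1.1 t ht) σ hs])
  have hud : ∀ σ τ, lv.dC u σ τ = 0 := fun σ τ => prinA_comp_injective (natSet S) (by
    rw [AddMonoidHom.comp_zero]
    refine (lv.dC_hom (j := prinT (natSet S)) smul_prinT u σ τ).symm.trans ?_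
    rw [show (fun ρ => (prinT (natSet S)).toAdditive.comp (u ρ)) = fun ρ => lv.conj ρ D - D from
      funext hu']
    exact lv.dC_coboundary D σ τ)
  choose ext hext using exists_extend (Coh.Rel G (DualMod M))
  let e : Γ → (Coh.Free G (DualMod M) →+ 𝕌) := fun σ => ext (u σ)
  obtain ⟨I, hI, rep, hrep⟩ := exists_coset_index L
  obtain ⟨L', hLL', hL', hroot⟩ := exists_setting_roots hL
    (fun i : I × (G × DualMod M) =>
      Additive.toMul (e (rep i.1) (Coh.Free.of i.2.1 i.2.2))) fun i => by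
      rw [← toMul_nsmul, ← map_nsmul]
      have hm : p • (Coh.Free.of i.2.1 i.2.2 : Coh.Free G (DualMod M)) ∈
          Coh.Rel G (DualMod M) := by
        rw [Coh.mem_rel_iff, map_nsmul, DualMod.nsmul_eq_zero]
      rw [show e (rep i.1) (p • Coh.Free.of i.2.1 i.2.2) = u (rep i.1) ⟨_, hm⟩ from
        hext _ ⟨_, hm⟩]
      exact hu _ _
  have hem : ∀ σ y, Additive.toMul (e σ y) ∈ tUnits (natSet S) L' := fun σ => by
    obtain ⟨i, hi⟩ := hrep σ
    have h : e σ = e (rep i) := by
      show ext (u σ) = ext (u (rep i))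
      rw [← huc (rep i) _ hi, mul_inv_cancel_left]
    rw [h]
    exact free_mem _ _ fun g n => hroot (i, g, n)
  have hde : ∀ σ τ (y : Coh.Rel G (DualMod M)), lv.dC e σ τ y = 0 := fun σ τ y => by
    have h1 := lv.dC_comp e (Coh.subtype_mem_eqHom (G := G) (N := DualMod M)) σ τ
    rw [show (fun ρ => (e ρ).comp (Coh.Rel G (DualMod M)).subtype) = u from
      funext fun ρ => AddMonoidHom.ext fun y => hext (u ρ) y, hud] at h1
    exact (DFunLike.congr_fun h1 y).symm
  choose z hz using fun στ : Γ × Γ => exists_kapF_eq (lv.dC e στ.1 στ.2) (hde _ _)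
  refine ⟨k, z, hk, ⟨⟨L', hL', hle.trans hLL', D, fun y => locIdeles_mono hLL' (hD y), fun y => ?_,
    e, hem, fun σ s hs => ?_, fun σ => ?_, fun σ τ => hz (σ, τ)⟩⟩⟩
  · obtain ⟨ω, hω⟩ := lv.classOf_surjective (classKer (natSet S) lv.field) (f y)
    have h1 := hDc y
    rw [← hω, clIn_classOf, ← map_nsmul, clPre_eq_iff] at h1
    rw [AddMonoidHom.nsmul_apply, map_nsmul, ← hω, clIn_classOf, ← map_nsmul, clPre_eq_iff]
    exact classKer_mono' hLL' h1
  · show ext (u (σ * s)) = ext (u σ)
    rw [huc σ s (IntermediateField.fixingSubgroup_le hLL' hs)]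
  · rw [← hu' σ]
    exact congrArg (prinA (natSet S)).comp (AddMonoidHom.ext fun y => (hext (u σ) y).symm)

/-! ### Local triviality -/

theorem locRes₂S_eq_zero_iff {H : Type} [Group H] (r : H →* Γ) (z : levelCocyclesS₂ S M) :
    locRes₂S S M r (continuousH2Sπ S M z) = 0 ↔
      ∃ y : H → M, IsLevelConstant₁ r y ∧
        ∀ g h, M.ρ (r g) (y h) - y (g * h) + y g = z.1 (r g, r h) := by
  refine (continuousH2π_eq_zero_iff r (Rep.res r M) _).trans
    ((mem_levelCoboundaries₂_iff r _ _).trans ?_)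
  exact ⟨fun ⟨y, hy, h⟩ => ⟨y, hy, fun g g' => congrFun h (g, g')⟩,
    fun ⟨y, hy, h⟩ => ⟨y, hy, funext fun ⟨g, g'⟩ => h g g'⟩⟩

namespace ConnData

variable {lv} {f : Coh.Rel G (DualMod M) →+ lv.Cl (natSet S)} {z : Γ × Γ → M}

include hact in
theorem locally_trivial_fin (d : ConnData lv f z) {H : Type} [Group H] (r : H →* Γ) (A : Place)
    (hA : A.Over (natSet S)) (hr : ∀ h, r h • A = A) :
    ∃ y : H → M, IsLevelConstant₁ r y ∧
      ∀ g h, M.ρ (r g) (y h) - y (g * h) + y g = z (r g, r h) := by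
  haveI := setting_normal d.setting
  haveI := d.setting.finite
  haveI := lv.finite_group
  haveI := DualMod.finite M
  obtain ⟨Dt, hDt⟩ := exists_extend (Coh.Rel G (DualMod M)) ((finHom A).toAdditive.comp d.D)
  let η : H → (Coh.Free G (DualMod M) →+ 𝕌) := fun h => d.e (r h) - (lv.conj (r h) Dt - Dt)
  have hη : ∀ h (y : Coh.Rel G (DualMod M)), η h y = 0 := fun h y => by
    have h1 := congrArg (fun φ : 𝕁 => (Additive.toMul φ).fin A)
      (DFunLike.congr_fun (d.D_conj (r h)) y)
    simp only [AddMonoidHom.sub_apply, AddMonoidHom.comp_apply, lv.conj_apply, toMul_prinA] at h1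
    have h2 : ∀ ψ : PreIdele, (r h • ψ).fin A = r h • ψ.fin A := fun ψ => Units.ext (by
      rw [coe_fin_smul, inv_smul_eq_iff.mpr (hr h).symm]
      rfl)
    show d.e (r h) y - (actA (r h) (Dt ((lv.q (r h))⁻¹ • (y : Coh.Free G (DualMod M)))) - Dt y) = 0
    rw [show Dt ((lv.q (r h))⁻¹ • (y : Coh.Free G (DualMod M))) = _ from hDt ((lv.q (r h))⁻¹ • y),
      hDt, sub_eq_zero]
    refine Additive.toMul.injective ?_
    have h3 : (prinT (natSet S) (Additive.toMul (d.e (r h) y))).fin A =
        Additive.toMul (d.e (r h) y) := truncT_fin_pos hA _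
    exact h3.symm.trans (h1.symm.trans (congrArg (· / _) (h2 _)))
  choose w hw using fun h => exists_kapF_eq (η h) (hη h)
  haveI := finite_adjoin fun b : G × DualMod M =>
    ((Additive.toMul (Dt (Coh.Free.of b.1 b.2)) : (ℚ̄)ˣ) : ℚ̄)
  set F₁ := d.L ⊔ IntermediateField.adjoin ℚ (Set.range fun b : G × DualMod M =>
    ((Additive.toMul (Dt (Coh.Free.of b.1 b.2)) : (ℚ̄)ˣ) : ℚ̄)) with hF₁
  refine ⟨w, ⟨F₁, IntermediateField.finiteDimensional_sup _ _, fun g s hs =>
    kapF_injective (G := G) ?_⟩, fun g h => kapF_injective (G := G) ?_⟩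
  · have hsL : r s ∈ d.L.fixingSubgroup := IntermediateField.fixingSubgroup_le le_sup_left hs
    rw [hw, hw]
    show d.e (r (g * s)) - (lv.conj (r (g * s)) Dt - Dt) = _
    rw [map_mul, d.e_const _ _ hsL, lv.conj_mul, lv.conj_eq_self
      (lv.mem_fix_field.mp (IntermediateField.fixingSubgroup_le d.le hsL))]
    intro x
    let U : Subgroup (ℚ̄)ˣ :=
      { carrier := {u | r s • u = u}
        one_mem' := smul_one _
        mul_mem' := fun {a b} (ha : _ = a) (hb : _ = b) => by
          show r s • (a * b) = a * b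
          rw [smul_mul', ha, hb]
        inv_mem' := fun {a} (ha : _ = a) => by
          show r s • a⁻¹ = a⁻¹
          rw [smul_inv', ha] }
    exact congrArg Additive.ofMul (free_mem Dt U (fun g n => smul_fix (L := F₁)
      (le_sup_right (a := d.L) (IntermediateField.subset_adjoin ℚ _ ⟨(g, n), rfl⟩)) hs) x :)
  · rw [map_add, map_sub, ← conj_kapF lv hact, hw, hw, hw, d.e_cocycle]
    show lv.conj (r g) (d.e (r h) - (lv.conj (r h) Dt - Dt)) -
      (d.e (r (g * h)) - (lv.conj (r (g * h)) Dt - Dt)) + (d.e (r g) - (lv.conj (r g) Dt - Dt)) =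
        lv.conj (r g) (d.e (r h)) - d.e (r g * r h) + d.e (r g)
    rw [lv.conj_sub, lv.conj_sub, map_mul, lv.conj_mul]
    abel

include hact in
theorem locally_trivial_inf (d : ConnData lv f z) (hp2 : p ≠ 2) :
    ∃ y : archimedeanDecomposition → M, IsLevelConstant₁ archimedeanLoc y ∧
      ∀ g h, M.ρ (archimedeanLoc g) (y h) - y (g * h) + y g =
        z (archimedeanLoc g, archimedeanLoc h) := by
  classical
  obtain ⟨hz, F, hF, hzF⟩ := d.mem_levelCocycles hact
  have hc := (mem_cocycles₂_iff z).mp hz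
  have h2 : (2 : ZMod p) ≠ 0 := by
    intro h
    have := (ZMod.natCast_eq_zero_iff 2 p).mp (by exact_mod_cast h)
    exact hp2 ((Nat.prime_dvd_prime_iff_eq (Fact.out : p.Prime) Nat.prime_two).mp this)
  have hfo : IsOfFinOrder complexConjugation :=
    isOfFinOrder_iff_pow_eq_one.mpr ⟨2, two_pos, by rw [pow_two, complexConjugation_mul_self]⟩
  have hord : orderOf complexConjugation ∣ 2 :=
    orderOf_dvd_of_pow_eq_one (by rw [pow_two, complexConjugation_mul_self])
  haveI : Finite archimedeanDecomposition :=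
    (finite_zpowers.mpr hfo).to_subtype
  haveI := Fintype.ofFinite archimedeanDecomposition
  let r : archimedeanDecomposition →* Γ := archimedeanLoc
  let n := Fintype.card archimedeanDecomposition
  have hn : (n : ZMod p) ≠ 0 := by
    have hn2 : n ∣ 2 := by
      rw [show n = Nat.card (Subgroup.zpowers complexConjugation) from
        Nat.card_eq_fintype_card.symm, Nat.card_zpowers]
      exact hord
    rcases (Nat.dvd_prime Nat.prime_two).mp hn2 with h | h <;> rw [h]
    · rw [Nat.cast_one]; exact one_ne_zero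
    · exact_mod_cast h2
  let Y : archimedeanDecomposition → M := fun g => ∑ k, z (r g, r k)
  refine ⟨fun g => (n : ZMod p)⁻¹ • Y g, ⟨F, hF.1, fun g s hs => ?_⟩, fun g h => ?_⟩
  · refine congrArg _ (Finset.sum_congr rfl fun k _ => ?_)
    rw [map_mul]
    have := hzF (r g) (r k) (r s) 1 hs (one_mem _)
    rwa [mul_one] at this
  · have key : M.ρ (r g) (Y h) - Y (g * h) + Y g = n • z (r g, r h) := by
      have h1 : ∀ k, z (r (g * h), r k) + z (r g, r h) =
          M.ρ (r g) (z (r h, r k)) + z (r g, r (h * k)) := fun k => by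
        rw [map_mul, map_mul]; exact hc (r g) (r h) (r k)
      have h3 := Finset.sum_congr (s₁ := (Finset.univ : Finset archimedeanDecomposition)) rfl
        fun k _ => h1 k
      rw [Finset.sum_add_distrib, Finset.sum_add_distrib, Finset.sum_const, Finset.card_univ,
        ← map_sum, (Fintype.sum_equiv (Equiv.mulLeft h) (fun k => z (r g, r (h * k)))
          (fun k => z (r g, r k)) fun _ => rfl)] at h3
      show M.ρ (r g) (∑ k, z (r h, r k)) - ∑ k, z (r (g * h), r k) + ∑ k, z (r g, r k) = _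
      rw [show n • z (r g, r h) = ∑ k, z (r (g * h), r k) + n • z (r g, r h) -
        ∑ k, z (r (g * h), r k) by abel, h3]
      abel
    rw [map_smul, ← smul_sub, ← smul_add, key, ← Nat.cast_smul_eq_nsmul (ZMod p), smul_smul,
      inv_mul_cancel₀ hn, one_smul]

include hact in
theorem mem_sha₂ (d : ConnData lv f z) (hp2 : p ≠ 2) :
    continuousH2Sπ S M ⟨z, d.mem_levelCocycles hact⟩ ∈ sha₂ S M := by
  refine LinearMap.mem_ker.mpr (funext fun v => ?_)
  rw [locTotal₂S_apply]
  refine (locRes₂S_eq_zero_iff (extArithLoc S v) _).mpr ?_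
  rcases v with _ | ⟨q, hq⟩
  · exact d.locally_trivial_inf hact hp2
  · haveI : Fact (q : ℕ).Prime := ⟨q.2⟩
    have hA := sha1Map_mem.liesOverPrime_padicPlace q
    exact d.locally_trivial_fin hact (primeLocalToGlobal q) ⟨_, (q : ℕ), q.2, hA⟩
      ⟨(q : ℕ), mem_natSet.mpr hq, q.2, hA⟩ fun h => Subtype.ext (MulAction.mem_stabilizer_iff.mp
        (localGaloisToGlobal_mem_decompositionSubgroup (q : ℕ) h))

end ConnData

/-! ### The map -/

variable {T : Finset ℕ} (hST : natSet S ⊆ T)

/-- The classes at `S` of a map into the classes at `T`. -/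
def atS (f : Coh.eqHom G (Coh.Rel G (DualMod M)) (lv.Cl T)) :
    Coh.Rel G (DualMod M) →+ lv.Cl (natSet S) := (lv.changeT hST).comp f.1

theorem atS_sub (f f' : Coh.eqHom G (Coh.Rel G (DualMod M)) (lv.Cl T)) :
    atS lv hST (f - f') = atS lv hST f - atS lv hST f' :=
  AddMonoidHom.comp_sub _ _ _

theorem exists_data_of_class (c : Coh.Ext1 G (DualMod M) (lv.Cl T)) :
    ∃ (f : Coh.eqHom G (Coh.Rel G (DualMod M)) (lv.Cl T)) (z : Γ × Γ → M),
      Coh.Ext1.mk f = c ∧ Nonempty (ConnData lv (atS lv hST f) z) := by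
  obtain ⟨f, rfl⟩ := Coh.Ext1.mk_surjective c
  obtain ⟨k, z, hk, ⟨d⟩⟩ := exists_connData lv (f := atS lv hST f)
    (Coh.comp_mem_eqHom (lv.changeT_mem hST) f.2)
  have hk0 : (k : ZMod p) ≠ 0 := fun h => hk ((ZMod.natCast_eq_zero_iff k p).mp h)
  haveI : NeZero p := ⟨(Fact.out : p.Prime).ne_zero⟩
  set k' := ((k : ZMod p)⁻¹).val
  refine ⟨(k' * k) • f, k' • z, ?_, ?_⟩
  · have h1 : ((k' * k : ℕ) : ZMod p) = ((1 : ℕ) : ZMod p) := by
      rw [Nat.cast_mul, ZMod.natCast_zmod_val, inv_mul_cancel₀ hk0, Nat.cast_one]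
    rw [map_nsmul, nsmul_congr_aux
      (Coh.Ext1.nsmul_eq_zero (DualMod.nsmul_eq_zero M) _)
      ((ZMod.natCast_eq_natCast_iff _ _ _).mp h1), one_nsmul]
  · have h2 : atS lv hST ((k' * k) • f) = k' • k • atS lv hST f := by
      rw [← mul_nsmul']
      exact AddMonoidHom.ext fun y => map_nsmul (lv.changeT hST) _ _
    rw [h2]
    exact d.exists_nsmul k'
where
  nsmul_congr_aux {A : Type} [AddCommGroup A] {a : A} {n i j : ℕ}
      (h : n • a = 0) (hij : i ≡ j [MOD n]) : i • a = j • a := by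
    rw [← Nat.div_add_mod i n, ← Nat.div_add_mod j n, add_nsmul, add_nsmul, mul_nsmul, mul_nsmul,
      h, nsmul_zero, nsmul_zero, hij]

include hact in
/-- Data of a class which is killed differ by a level coboundary. -/
theorem ConnData.coboundary_of_local {f : Coh.eqHom G (Coh.Rel G (DualMod M)) (lv.Cl T)}
    {z : Γ × Γ → M} (d : ConnData lv (atS lv hST f) z)
    (h : Coh.Ext1.mk f ∈ localClasses (DualMod M) lv hST) : z ∈ levelCoboundariesS₂ S M := by
  obtain ⟨_, ⟨c, rfl⟩, w, hw, hsum⟩ := AddSubgroup.mem_sup.mp h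
  obtain ⟨g, rfl⟩ := Coh.Ext1.mk_surjective c
  have h1 := congrArg (Coh.Ext1.map (lv.changeT hST) (lv.changeT_mem hST)) hsum
  rw [map_add, AddMonoidHom.mem_ker.mp hw, add_zero, Coh.Ext1.map_mk, Coh.Ext1.map_mk,
    Coh.Ext1.map_mk, eq_comm, ← sub_eq_zero, ← map_sub, Coh.Ext1.mk_eq_zero_iff] at h1
  obtain ⟨E, hE⟩ := h1
  refine d.mem_levelCoboundaries hact g.2 E.2 fun y => ?_
  rw [hE]
  show lv.changeT hST (f.1 y) = lv.toCl (natSet S) (natSet S) (g.1 y) +
    (lv.changeT hST (f.1 y) - lv.changeT hST (lv.toCl (natSet S) T (g.1 y)))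
  rw [lv.changeT_toCl]
  abel

include hact in
theorem coboundary_of_mk_eq_zero {f : Coh.eqHom G (Coh.Rel G (DualMod M)) (lv.Cl T)}
    {z : Γ × Γ → M} (d : ConnData lv (atS lv hST f) z) (h : Coh.Ext1.mk f = 0) :
    z ∈ levelCoboundariesS₂ S M :=
  d.coboundary_of_local lv hact hST (h ▸ zero_mem _)

/-- The cocycle chosen for a class. -/
def thetaCocycle (c : Coh.Ext1 G (DualMod M) (lv.Cl T)) : Γ × Γ → M :=
  (exists_data_of_class (M := M) lv hST c).choose_spec.choose

include hact in
theorem thetaCocycle_mem (c : Coh.Ext1 G (DualMod M) (lv.Cl T)) :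
    thetaCocycle lv hST c ∈ levelCocyclesS₂ S M :=
  (exists_data_of_class (M := M) lv hST c).choose_spec.choose_spec.2.some.mem_levelCocycles hact

include hact in
theorem theta_eq {c : Coh.Ext1 G (DualMod M) (lv.Cl T)}
    {f : Coh.eqHom G (Coh.Rel G (DualMod M)) (lv.Cl T)} {z : Γ × Γ → M}
    (hf : Coh.Ext1.mk f = c) (d : ConnData lv (atS lv hST f) z) :
    thetaCocycle lv hST c - z ∈ levelCoboundariesS₂ S M := by
  obtain ⟨hf', ⟨d'⟩⟩ := (exists_data_of_class (M := M) lv hST c).choose_spec.choose_spec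
  obtain ⟨e⟩ := d'.exists_sub d
  rw [← atS_sub] at e
  exact coboundary_of_mk_eq_zero lv hact hST e (by rw [map_sub, hf', hf, sub_self])

/-- The connecting map. -/
def theta (hp2 : p ≠ 2) : Coh.Ext1 G (DualMod M) (lv.Cl T) →+ sha₂ S M :=
  AddMonoidHom.mk' (fun c => ⟨continuousH2Sπ S M ⟨_, thetaCocycle_mem lv hact hST c⟩, by
    exact (exists_data_of_class (M := M) lv hST c).choose_spec.choose_spec.2.some.mem_sha₂ hact hp2⟩)
    fun a b => Subtype.ext (by
      show continuousH2Sπ S M _ = continuousH2Sπ S M _ + continuousH2Sπ S M _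
      rw [← map_add, ← sub_eq_zero, ← map_sub, continuousH2Sπ_eq_zero_iff]
      obtain ⟨hab, ⟨dab⟩⟩ := (exists_data_of_class (M := M) lv hST (a + b)).choose_spec.choose_spec
      obtain ⟨hb, ⟨db⟩⟩ := (exists_data_of_class (M := M) lv hST b).choose_spec.choose_spec
      obtain ⟨e⟩ := dab.exists_sub db
      rw [← atS_sub] at e
      have h := theta_eq lv hact hST (c := a) (by rw [map_sub, hab, hb, add_sub_cancel_right]) e
      show thetaCocycle lv hST (a + b) - (thetaCocycle lv hST a + thetaCocycle lv hST b) ∈ _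
      rw [show thetaCocycle lv hST (a + b) - (thetaCocycle lv hST a + thetaCocycle lv hST b) =
        -(thetaCocycle lv hST a - (thetaCocycle lv hST (a + b) - thetaCocycle lv hST b)) by abel]
      exact neg_mem h)

theorem theta_eq_zero_iff (hp2 : p ≠ 2) (c : Coh.Ext1 G (DualMod M) (lv.Cl T)) :
    theta lv hact hST hp2 c = 0 ↔ thetaCocycle lv hST c ∈ levelCoboundariesS₂ S M :=
  Subtype.ext_iff.trans (continuousH2Sπ_eq_zero_iff S M _)

/-- Local classes are killed by the connecting map. -/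
theorem localClasses_le_ker (hp2 : p ≠ 2) :
    localClasses (DualMod M) lv hST ≤ (theta lv hact hST hp2).ker := fun c hc => by
  rw [AddMonoidHom.mem_ker, theta_eq_zero_iff]
  obtain ⟨hf, ⟨d⟩⟩ := (exists_data_of_class (M := M) lv hST c).choose_spec.choose_spec
  exact d.coboundary_of_local lv hact hST (hf.symm ▸ hc)

end FLTAgent.PoitouTate
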