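import Fermat.Agent.PoitouTate.Base
import Fermat.Agent.TW.Idele.ClassField.Kummer

/-!
# Fields unramified outside `S`: roots of units, capitulation, Hilbert's theorem 90

An `IdeleSetting` is a finite Galois extension unramified outside `T`.  Adjoining `p`-th roots of
`T`-units stays inside these, hence every idele becomes, up to a power prime to `p`, principal
times an idele which is a unit outside `T`.
-/

set_option autoImplicit false
set_option synthInstance.maxHeartbeats 200000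
set_option linter.style.haveILetI false
set_option linter.unusedSectionVars false

noncomputable section

open scoped Pointwise nonZeroDivisors

namespace FLTAgent.PoitouTate

open FLTAgent.TW PreIdele NumberField

local notation "ℚ̄" => AlgebraicClosure ℚ
local notation "Γ" => (AlgebraicClosure ℚ ≃ₐ[ℚ] AlgebraicClosure ℚ)
local notation "𝕌" => Additive (AlgebraicClosure ℚ)ˣ

attribute [local instance] numberField_intermediate

variable {T : Finset ℕ} {p : ℕ} {L L' F : IntermediateField ℚ (AlgebraicClosure ℚ)}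

theorem setting_normal (hL : IdeleSetting T p L) : Normal ℚ L :=
  haveI := hL.isGalois
  IsGalois.to_normal

theorem apply_fix {x : ℚ̄} (hx : x ∈ L) {σ : Γ} (hσ : σ ∈ L.fixingSubgroup) : σ x = x :=
  (IntermediateField.mem_fixingSubgroup_iff _ _).mp hσ _ hx

theorem smul_fix {x : (ℚ̄)ˣ} (hx : (x : ℚ̄) ∈ L) {σ : Γ} (hσ : σ ∈ L.fixingSubgroup) : σ • x = x :=
  Units.ext (apply_fix hx hσ)

theorem mem_fixing_adjoin {U : Set ℚ̄} {σ : Γ} (h : ∀ x ∈ U, σ x = x) :
    σ ∈ (IntermediateField.adjoin ℚ U).fixingSubgroup := by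
  rw [IntermediateField.mem_fixingSubgroup_iff]
  intro x hx
  have hle : IntermediateField.adjoin ℚ U ≤
      IntermediateField.fixedField (Subgroup.zpowers σ) := by
    refine IntermediateField.adjoin_le_iff.mpr fun y hy => ?_
    rintro ⟨g, hg⟩
    exact Subgroup.zpowers_le.mpr (show σ ∈ MulAction.stabilizer Γ y from h y hy) hg
  exact hle hx ⟨σ, Subgroup.mem_zpowers σ⟩

theorem finite_adjoin {ι : Type} [Finite ι] (y : ι → ℚ̄) :
    FiniteDimensional ℚ (IntermediateField.adjoin ℚ (Set.range y)) :=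
  IntermediateField.finiteDimensional_adjoin (S := Set.range y) fun x _ =>
    (EllP.qbarIsAlgebraic.isAlgebraic x).isIntegral

theorem exists_setting_sup (hL : IdeleSetting T p L) (hL' : IdeleSetting T p L') :
    ∃ L'' : IntermediateField ℚ ℚ̄, L ≤ L'' ∧ L' ≤ L'' ∧ IdeleSetting T p L'' :=
  haveI := hL'.finite
  exists_setting_extend hL subset_rfl hL.prime L' hL'.unramified

theorem tUnits_mono (h : L ≤ L') : tUnits T L ≤ tUnits T L' := fun _ hx => ⟨h hx.1, hx.2⟩

theorem locIdeles_mono (h : L ≤ L') : locIdeles T L ≤ locIdeles T L' := fun _ hφ =>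
  ⟨ideles_le_of_le h hφ.1, hφ.2⟩

theorem mem_unitGroup_of_pow {A : Place} {x : (ℚ̄)ˣ} {n : ℕ} (hn : n ≠ 0)
    (h : x ^ n ∈ A.1.unitGroup) : x ∈ A.1.unitGroup := by
  rw [mem_unitGroup_iff, Units.val_pow_eq_pow_val, map_pow] at h
  exact mem_unitGroup_iff.mpr ((pow_eq_one_iff.mp h).resolve_right hn)

/-- Roots of `T`-units generate a field unramified outside `T`. -/
theorem exists_setting_roots [Fact p.Prime] (hL : IdeleSetting T p L) {ι : Type} [Finite ι]
    (y : ι → (ℚ̄)ˣ) (hy : ∀ i, y i ^ p ∈ tUnits T L) :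
    ∃ L' : IntermediateField ℚ ℚ̄, L ≤ L' ∧ IdeleSetting T p L' ∧ ∀ i, y i ∈ tUnits T L' := by
  haveI := finite_adjoin (fun i => (y i : ℚ̄))
  obtain ⟨L', h1, h2, h3⟩ := exists_setting_extend hL subset_rfl hL.prime
    (IntermediateField.adjoin ℚ (Set.range fun i => (y i : ℚ̄))) fun A hA σ hσ =>
      mem_fixing_adjoin (by
        rintro _ ⟨i, rfl⟩
        exact inertia_fix_root_tUnit hL le_rfl (hy i) A hA σ hσ)
  exact ⟨L', h1, h3, fun i => ⟨h2 (IntermediateField.subset_adjoin ℚ _ ⟨i, rfl⟩), fun A hA =>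
    mem_unitGroup_of_pow (Fact.out : p.Prime).ne_zero ((hy i).2 A hA)⟩⟩

/-! ### Keeping the components at `T ∪ ∞` -/

/-- Keep the components at `T ∪ ∞`. -/
def truncT (T : Finset ℕ) : PreIdele →* PreIdele where
  toFun φ := restrIdele (fun A => A.Over T) (fun _ => True) φ
  map_one' := by
    refine PreIdele.ext (funext fun A => ?_) (funext fun ι => restr_inf_of_pos trivial)
    by_cases h : A.Over T
    · exact restr_fin_of_pos (W := fun _ => True) (Z := fun A => A.Over T) h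
    · exact restr_fin_of_neg (W := fun _ => True) (Z := fun A => A.Over T) h
  map_mul' φ ψ := by
    refine PreIdele.ext (funext fun A => ?_) (funext fun ι => ?_)
    · by_cases h : A.Over T
      · simp only [PreIdele.fin_mul, restr_fin_of_pos (Z := fun A => A.Over T) h]
      · simp only [PreIdele.fin_mul, restr_fin_of_neg (Z := fun A => A.Over T) h, one_mul]
    · simp only [PreIdele.inf_mul, restr_inf_of_pos (W := fun _ : Emb => True) trivial]

theorem truncT_fin_pos {A : Place} (h : A.Over T) (φ : PreIdele) :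
    (truncT T φ).fin A = φ.fin A := restr_fin_of_pos (Z := fun A => A.Over T) h

theorem truncT_fin_neg {A : Place} (h : ¬ A.Over T) (φ : PreIdele) :
    (truncT T φ).fin A = 1 := restr_fin_of_neg (Z := fun A => A.Over T) h

theorem truncT_inf (φ : PreIdele) (ι : Emb) : (truncT T φ).inf ι = φ.inf ι :=
  restr_inf_of_pos trivial

theorem smul_truncT (σ : Γ) (φ : PreIdele) : σ • truncT T φ = truncT T (σ • φ) := by
  refine PreIdele.ext (funext fun A => Units.ext ?_) (funext fun ι => ?_)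
  · rw [coe_fin_smul]
    by_cases h : A.Over T
    · rw [truncT_fin_pos h, truncT_fin_pos (h.smul σ⁻¹)]; rfl
    · rw [truncT_fin_neg h, truncT_fin_neg fun h' => h (Place.over_smul_iff.mp h')]
      simp
  · rw [PreIdele.inf_smul, truncT_inf, truncT_inf, PreIdele.inf_smul]

theorem truncT_eq_self {φ : PreIdele} (h : ∀ A : Place, ¬ A.Over T → φ.fin A = 1) :
    truncT T φ = φ :=
  PreIdele.ext (funext fun A => by
    by_cases hA : A.Over T
    · exact truncT_fin_pos hA φ
    · rw [truncT_fin_neg hA, h A hA]) (funext fun ι => truncT_inf φ ι)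

theorem truncT_mem {φ : PreIdele} (hφ : φ ∈ ideles L) : truncT T φ ∈ locIdeles T L :=
  ⟨restr_mem_ideles hφ (fun _ _ _ => Place.over_smul_iff) (fun _ _ _ => Iff.rfl) fun _ => Iff.rfl,
    fun _ hA => truncT_fin_neg hA φ⟩

theorem div_truncT_mem {φ : PreIdele} (hφ : φ ∈ ideles L)
    (hu : ∀ A : Place, ¬ A.Over T → φ.fin A ∈ A.1.unitGroup) :
    φ / truncT T φ ∈ unitIdeles T L := by
  refine ⟨⟨div_mem hφ (truncT_mem hφ).1, fun A hA => ?_, funext fun ι => ?_⟩, fun A => ?_⟩
  · show φ.fin A / (truncT T φ).fin A = 1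
    rw [truncT_fin_pos hA, div_self']
  · show φ.inf ι / (truncT T φ).inf ι = 1
    rw [truncT_inf, div_self']
  · show φ.fin A / (truncT T φ).fin A ∈ _
    by_cases hA : A.Over T
    · rw [truncT_fin_pos hA, div_self']; exact one_mem _
    · rw [truncT_fin_neg hA, div_one]; exact hu A hA

variable (T) in
/-- A unit of `ℚ̄` as an element supported at `T ∪ ∞`. -/
def prinT : (ℚ̄)ˣ →* PreIdele := (truncT T).comp principalHom

theorem smul_prinT (σ : Γ) (x : (ℚ̄)ˣ) : prinT T (σ • x) = σ • prinT T x := by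
  show truncT T (principalHom _) = σ • truncT T (principalHom x)
  rw [smul_truncT, smul_principalHom]
  rfl

theorem prinT_injective : Function.Injective (prinT T) := fun x y h =>
  eq_of_inf_eq (funext fun ι => by
    have := congrFun (congrArg PreIdele.inf h) ι
    simpa [prinT, truncT_inf] using this)

theorem prinT_mem {x : (ℚ̄)ˣ} (hx : (x : ℚ̄) ∈ L) : prinT T x ∈ locIdeles T L :=
  truncT_mem (principalHom_mem_ideles hx)

theorem principal_div_prinT_mem {x : (ℚ̄)ˣ} (hx : x ∈ tUnits T L) :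
    principalHom x / prinT T x ∈ unitIdeles T L :=
  div_truncT_mem (principalHom_mem_ideles hx.1) hx.2

theorem prinT_mem_classKer {x : (ℚ̄)ˣ} (hx : x ∈ tUnits T L) : prinT T x ∈ classKer T L := by
  have h : prinT T x = principalHom x * (principalHom x / prinT T x)⁻¹ := by
    rw [inv_div, mul_div_cancel]
  rw [h]
  exact Subgroup.mul_mem_sup ⟨x, hx.1, rfl⟩ (inv_mem (principal_div_prinT_mem hx))

/-- Elements at `T ∪ ∞` which die in the classes come from `T`-units. -/
theorem exists_tUnit_of_classKer {φ : PreIdele} (hloc : ∀ A : Place, ¬ A.Over T → φ.fin A = 1)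
    (hφ : φ ∈ classKer T L) : ∃ x ∈ tUnits T L, prinT T x = φ := by
  obtain ⟨_, ⟨x, hx, rfl⟩, u, hu, rfl⟩ := Subgroup.mem_sup.mp hφ
  refine ⟨x, ⟨hx, fun A hA => ?_⟩, ?_⟩
  · have h := hloc A hA
    rw [PreIdele.fin_mul] at h
    have h2 : (principalHom x).fin A = x := rfl
    rw [h2] at h
    rw [eq_inv_of_mul_eq_one_left h]
    exact inv_mem (hu.2 A)
  · refine PreIdele.ext (funext fun A => ?_) (funext fun ι => ?_)
    · by_cases hA : A.Over T
      · rw [PreIdele.fin_mul, hu.1.2.1 A hA, mul_one]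
        exact truncT_fin_pos hA _
      · rw [hloc A hA]
        exact truncT_fin_neg hA _
    · rw [PreIdele.inf_mul, hu.1.2.2, Pi.one_apply, mul_one]
      exact truncT_inf _ ι

/-! ### Capitulation -/

/-- A power of the idele has the valuations of an element. -/
theorem exists_pow_valuation [FiniteDimensional ℚ F] {φ : PreIdele} (hφ : φ ∈ ideles F) :
    ∃ (n : ℕ) (x : (ℚ̄)ˣ), 0 < n ∧ (x : ℚ̄) ∈ F ∧
      ∀ A : Place, A.1.valuation (x : ℚ̄) = A.1.valuation (φ.fin A : ℚ̄) ^ n := by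
  classical
  obtain ⟨N, hN0, hN⟩ := exists_natCast_mul_le_one hφ
  set ν : (ℚ̄)ˣ := Units.mk0 (N : ℚ̄) (Nat.cast_ne_zero.mpr hN0)
  have hνF : (ν : ℚ̄) ∈ F := natCast_mem F N
  set ψ := principalHom ν * φ with hψdef
  have hψ : ψ ∈ ideles F := mul_mem (principalHom_mem_ideles hνF) hφ
  have hint : ∀ A : Place, A.1.valuation (ψ.fin A : ℚ̄) ≤ 1 := hN
  set I : (Ideal (𝓞 F))⁰ := ⟨ideleIdeal F ψ,
    mem_nonZeroDivisors_of_ne_zero (ideleIdeal_ne_bot hψ hint)⟩
  set h := Fintype.card (ClassGroup (𝓞 F))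
  have hprin : ((ideleIdeal F ψ) ^ h).IsPrincipal := by
    have h1 : ClassGroup.mk0 (I ^ h) = 1 := by rw [map_pow, pow_card_eq_one]
    have := (ClassGroup.mk0_eq_one_iff (I ^ h).2).mp h1
    simpa [I] using this
  obtain ⟨a, ha⟩ := hprin
  rw [Ideal.submodule_span_eq] at ha
  have hle : ∀ (n : ℕ), ∀ r ∈ ideleIdeal F ψ ^ n, ∀ A : Place,
      A.1.valuation ((r : F) : ℚ̄) ≤ A.1.valuation (ψ.fin A : ℚ̄) ^ n := by
    intro n
    induction n with
    | zero => exact fun r _ A => by rw [pow_zero]; exact valuation_int_le A r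
    | succ n ih =>
      intro r hr A
      rw [pow_succ] at hr
      refine Submodule.mul_induction_on hr (fun m hm i hi => ?_) fun x y hx hy => ?_
      · simp only [map_mul, MulMemClass.coe_mul, pow_succ]
        exact mul_le_mul' (ih m hm A) (hi A)
      · simp only [map_add, AddMemClass.coe_add]
        exact (A.1.valuation.map_add _ _).trans (max_le hx hy)
  have key : ∀ A : Place, A.1.valuation ((a : F) : ℚ̄) = A.1.valuation (ψ.fin A : ℚ̄) ^ h := by
    intro A
    refine le_antisymm (hle h a (ha ▸ Ideal.mem_span_singleton_self a) A) ?_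
    obtain ⟨r, hr, -, hr'⟩ := exists_mem_ideleIdeal hψ hint A
    have hmem : r ^ h ∈ Ideal.span {a} := ha ▸ Ideal.pow_mem_pow hr h
    obtain ⟨c, hc⟩ := Ideal.mem_span_singleton'.mp hmem
    rw [← hr', ← map_pow, ← SubmonoidClass.coe_pow, ← map_pow (algebraMap (𝓞 F) F), ← hc]
    simp only [map_mul, MulMemClass.coe_mul]
    exact mul_le_of_le_one_left zero_le (valuation_int_le A c)
  have ha0 : ((a : F) : ℚ̄) ≠ 0 := by
    obtain ⟨A, hA⟩ := GalCommon.exists_liesOverPrime Nat.prime_two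
    intro h0
    have := key ⟨A, 2, Nat.prime_two, hA⟩
    rw [h0, map_zero] at this
    exact pow_ne_zero h (by simp) this.symm
  refine ⟨h, Units.mk0 _ ha0 / ν ^ h, Fintype.card_pos, ?_, fun A => ?_⟩
  · rw [Units.val_div_eq_div_val, Units.val_pow_eq_pow_val]
    exact div_mem (a : F).2 (pow_mem hνF h)
  · rw [Units.val_div_eq_div_val, map_div₀, Units.val_mk0, key, Units.val_pow_eq_pow_val, map_pow,
      ← div_pow]
    congr 1
    show A.1.valuation ((ν : ℚ̄) * (φ.fin A : ℚ̄)) / A.1.valuation (ν : ℚ̄) = _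
    rw [map_mul, mul_div_cancel_left₀ _ (by simp)]

/-- Taking `p`-power roots of the generators. -/
theorem exists_root_valuation [Fact p.Prime] :
    ∀ (a : ℕ) {L : IntermediateField ℚ ℚ̄}, IdeleSetting T p L → ∀ (φ : PreIdele),
      φ ∈ ideles L → ∀ (x : (ℚ̄)ˣ), (x : ℚ̄) ∈ L →
      (∀ A : Place, A.1.valuation (x : ℚ̄) = A.1.valuation (φ.fin A : ℚ̄) ^ p ^ a) →
      ∃ (L' : IntermediateField ℚ ℚ̄) (y : (ℚ̄)ˣ), L ≤ L' ∧ IdeleSetting T p L' ∧
        (y : ℚ̄) ∈ L' ∧ ∀ A : Place, A.1.valuation (y : ℚ̄) = A.1.valuation (φ.fin A : ℚ̄) := by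
  have hp := (Fact.out : p.Prime)
  intro a
  induction a with
  | zero =>
    intro L hL φ _ x hx hv
    exact ⟨L, x, le_rfl, hL, hx, fun A => by rw [hv, pow_zero, pow_one]⟩
  | succ a ih =>
    intro L hL φ hφ x hx hv
    obtain ⟨z, hz⟩ := IsAlgClosed.exists_pow_nat_eq (x : ℚ̄) hp.pos
    have hz0 : z ≠ 0 := fun h => by
      rw [h, zero_pow hp.ne_zero] at hz
      exact x.ne_zero hz.symm
    have hzv : ∀ A : Place, A.1.valuation z = A.1.valuation (φ.fin A : ℚ̄) ^ p ^ a := fun A => by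
      refine (pow_left_inj₀ zero_le zero_le hp.ne_zero).mp ?_
      rw [← map_pow, hz, hv, ← pow_mul, pow_succ]
    have hunr : ∀ A : Place, ¬ A.Over T → ∀ σ ∈ A.1.inertiaSubgroupIn ℚ, σ z = z := by
      intro A hA σ hσ
      have hσL := hL.unramified A hA σ hσ
      have hdec : σ • A = A := Subtype.ext
        (MulAction.mem_stabilizer_iff.mp (GalCommon.inertiaSubgroupIn_le_decomposition hσ))
      have hw : σ ((φ.fin A : ℚ̄) ^ p ^ a) = (φ.fin A : ℚ̄) ^ p ^ a := by
        have h1 := congrArg (fun ψ : PreIdele => (ψ.fin A : ℚ̄)) (hφ.1 σ hσL)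
        simp only [coe_fin_smul] at h1
        rw [show σ⁻¹ • A = A from inv_smul_eq_iff.mpr hdec.symm] at h1
        rw [map_pow, h1]
      have h2 : A.1.valuation (z / (φ.fin A : ℚ̄) ^ p ^ a) = 1 := by
        rw [map_div₀, hzv, map_pow, div_self (pow_ne_zero _ (by simp))]
      have h3 := inertia_fixed_root (p := p) (fun h => hA (A.over_iff.mpr (h ▸ hL.mem))) h2 hσ
        (by rw [map_pow, map_div₀, hw, div_pow, div_pow, ← map_pow, hz, apply_fix hx hσL])
      rwa [map_div₀, hw, div_left_inj' (pow_ne_zero _ (Units.ne_zero _))] at h3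
    haveI : FiniteDimensional ℚ (IntermediateField.adjoin ℚ {z}) :=
      IntermediateField.adjoin.finiteDimensional (EllP.qbarIsAlgebraic.isAlgebraic z).isIntegral
    obtain ⟨L₁, h1, h2, h3⟩ := exists_setting_extend hL subset_rfl hL.prime
      (IntermediateField.adjoin ℚ {z}) fun A hA σ hσ =>
        mem_fixing_adjoin (by rintro _ rfl; exact hunr A hA σ hσ)
    obtain ⟨L', y, h4, h5⟩ := ih h3 φ (ideles_le_of_le h1 hφ) (Units.mk0 z hz0)
      (h2 (IntermediateField.mem_adjoin_simple_self ℚ z)) hzv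
    exact ⟨L', y, h1.trans h4, h5⟩

/-- Up to a power prime to `p`, an idele becomes principal outside `T` in a larger field. -/
theorem exists_capitulate [Fact p.Prime] (hL : IdeleSetting T p L) {φ : PreIdele}
    (hφ : φ ∈ ideles L) :
    ∃ (k : ℕ) (L' : IntermediateField ℚ ℚ̄) (x : (ℚ̄)ˣ), ¬ p ∣ k ∧ L ≤ L' ∧
      IdeleSetting T p L' ∧ (x : ℚ̄) ∈ L' ∧
      ∀ A : Place, ¬ A.Over T → φ.fin A ^ k / x ∈ A.1.unitGroup := by
  haveI := hL.finite
  obtain ⟨n, x, hn, hx, hv⟩ := exists_pow_valuation hφ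
  obtain ⟨a, k, hk, rfl⟩ := Nat.exists_eq_pow_mul_and_not_dvd hn.ne' p (Fact.out : p.Prime).ne_one
  obtain ⟨L', y, h1, h2, h3, h4⟩ := exists_root_valuation a hL (φ ^ k) (pow_mem hφ k) x hx
    fun A => by
      rw [hv, show (φ ^ k).fin A = φ.fin A ^ k from map_pow (finHom A) φ k,
        Units.val_pow_eq_pow_val, map_pow, ← pow_mul, mul_comm]
  refine ⟨k, L', y, hk, h1, h2, h3, fun A _ => ?_⟩
  rw [mem_unitGroup_iff, Units.val_div_eq_div_val, map_div₀, h4,
    show (φ ^ k).fin A = φ.fin A ^ k from map_pow (finHom A) φ k, div_self (by simp)]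

theorem fin_pow (φ : PreIdele) (k : ℕ) (A : Place) : (φ ^ k).fin A = φ.fin A ^ k :=
  map_pow (finHom A) φ k

/-- Capitulation for finitely many ideles. -/
theorem exists_capitulate_finset [Fact p.Prime] (hL : IdeleSetting T p L) {ι : Type} [Finite ι]
    (φ : ι → PreIdele) (hφ : ∀ i, φ i ∈ ideles L) :
    ∃ (k : ℕ) (L' : IntermediateField ℚ ℚ̄) (x : ι → (ℚ̄)ˣ), ¬ p ∣ k ∧ L ≤ L' ∧
      IdeleSetting T p L' ∧ (∀ i, (x i : ℚ̄) ∈ L') ∧
      ∀ i, ∀ A : Place, ¬ A.Over T → (φ i).fin A ^ k / x i ∈ A.1.unitGroup := by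
  classical
  haveI := Fintype.ofFinite ι
  have hp := (Fact.out : p.Prime)
  suffices h : ∀ s : Finset ι, ∃ (k : ℕ) (L' : IntermediateField ℚ ℚ̄) (x : ι → (ℚ̄)ˣ),
      ¬ p ∣ k ∧ L ≤ L' ∧ IdeleSetting T p L' ∧ (∀ i, (x i : ℚ̄) ∈ L') ∧
      ∀ i ∈ s, ∀ A : Place, ¬ A.Over T → (φ i).fin A ^ k / x i ∈ A.1.unitGroup by
    obtain ⟨k, L', x, h1, h2, h3, h4, h5⟩ := h Finset.univ
    exact ⟨k, L', x, h1, h2, h3, h4, fun i => h5 i (Finset.mem_univ i)⟩
  intro s
  induction s using Finset.induction with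
  | empty => exact ⟨1, L, 1, hp.not_dvd_one, le_rfl, hL, fun _ => L.one_mem, by simp⟩
  | insert i s _ ih =>
    obtain ⟨k, L₁, x, hk, h1, h2, h3, h4⟩ := ih
    obtain ⟨k', L', y, hk', g1, g2, g3, g4⟩ :=
      exists_capitulate h2 (ideles_le_of_le h1 (hφ i))
    refine ⟨k * k', L', fun j => if j = i then y ^ k else x j ^ k', hp.not_dvd_mul hk hk',
      h1.trans g1, g2, fun j => ?_, fun j hj A hA => ?_⟩
    · show ((if j = i then y ^ k else x j ^ k' : (ℚ̄)ˣ) : ℚ̄) ∈ L'
      split <;> rw [Units.val_pow_eq_pow_val]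
      · exact pow_mem g3 k
      · exact pow_mem (g1 (h3 j)) k'
    · show (φ j).fin A ^ (k * k') / (if j = i then y ^ k else x j ^ k') ∈ _
      split
      · next he =>
        rw [he, mul_comm, pow_mul, ← div_pow]
        exact pow_mem (g4 A hA) k
      · next he =>
        rw [pow_mul, ← div_pow]
        exact pow_mem (h4 j ((Finset.mem_insert.mp hj).resolve_left he) A hA) k'

/-! ### Hilbert's theorem 90 -/

/-- A crossed homomorphism which only depends on the restriction to a finite extension and takes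
values there is a coboundary. -/
theorem exists_ninety (P : Subgroup Γ) (K : IntermediateField ℚ ℚ̄) [FiniteDimensional ℚ K]
    (a : Γ → (ℚ̄)ˣ) (hcr : ∀ σ ∈ P, ∀ τ ∈ P, a (σ * τ) = a σ * σ • a τ)
    (hconst : ∀ σ ∈ P, ∀ τ ∈ P, (∀ x ∈ K, σ x = τ x) → a σ = a τ)
    (hK : ∀ σ ∈ P, (a σ : ℚ̄) ∈ K) (hstab : ∀ σ ∈ P, ∀ x ∈ K, σ x ∈ K) :
    ∃ b : (ℚ̄)ˣ, (b : ℚ̄) ∈ K ∧ ∀ σ ∈ P, σ • b / b = a σ := by
  classical
  let res : P → (K →ₐ[ℚ] ℚ̄) := fun σ => ((σ : Γ) : ℚ̄ →ₐ[ℚ] ℚ̄).comp K.val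
  haveI : Fintype (Set.range res) := Fintype.ofFinite _
  choose rep hrep using fun c : Set.range res => c.2
  have heq : ∀ σ τ : P, res σ = res τ → ∀ x ∈ K, (σ : Γ) x = (τ : Γ) x := fun σ τ h x hx =>
    DFunLike.congr_fun h ⟨x, hx⟩
  obtain ⟨θ, hθ⟩ : ∃ θ : K, ∑ c : Set.range res, (a (rep c) : ℚ̄) * (rep c : Γ) (θ : ℚ̄) ≠ 0 := by
    by_contra h
    push Not at h
    let emb : Set.range res → (K →* ℚ̄) := fun c => ((rep c : Γ) : ℚ̄ →* ℚ̄).comp (K.val : K →* ℚ̄)
    have hinj : Function.Injective emb := fun c c' he => Subtype.ext (by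
      rw [← hrep c, ← hrep c']
      exact AlgHom.ext fun z => (DFunLike.congr_fun he z :))
    have hli := (linearIndependent_monoidHom K ℚ̄).comp emb hinj
    have := Fintype.linearIndependent_iff.mp hli (fun c => (a (rep c) : ℚ̄))
      (funext fun θ => by simpa [emb, Finset.sum_apply] using h θ) ⟨res 1, 1, rfl⟩
    exact (a _).ne_zero this
  set s := ∑ c : Set.range res, (a (rep c) : ℚ̄) * (rep c : Γ) (θ : ℚ̄) with hs
  have hsK : s ∈ K := sum_mem fun c _ =>
    mul_mem (hK _ (rep c).2) (hstab _ (rep c).2 _ θ.2)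
  refine ⟨(Units.mk0 s hθ)⁻¹, by rw [Units.val_inv_eq_inv_val]; exact inv_mem hsK,
    fun σ hσ => ?_⟩
  let sh : Set.range res → Set.range res := fun c => ⟨res (⟨σ, hσ⟩ * rep c), _, rfl⟩
  have hsh : Function.Injective sh := fun c c' he => by
    refine Subtype.ext (((hrep c).symm.trans ?_).trans (hrep c'))
    exact AlgHom.ext fun z => σ.injective (DFunLike.congr_fun (congrArg Subtype.val he) z :)
  have hval : ∀ c, (a (rep (sh c)) : ℚ̄) * (rep (sh c) : Γ) (θ : ℚ̄) =
      (a σ : ℚ̄) * σ ((a (rep c) : ℚ̄) * (rep c : Γ) (θ : ℚ̄)) := fun c => by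
    have h1 : res (rep (sh c)) = res (⟨σ, hσ⟩ * rep c) := hrep _
    rw [hconst _ (rep (sh c)).2 _ (mul_mem hσ (rep c).2) (heq _ _ h1),
      heq _ _ h1 _ θ.2, hcr σ hσ _ (rep c).2, Units.val_mul, map_mul, mul_assoc]
    rfl
  have hsum : (a σ : ℚ̄) * σ s = s := by
    rw [hs, map_sum, Finset.mul_sum]
    exact (Finset.sum_congr rfl fun c _ => (hval c).symm).trans
      ((Equiv.ofBijective sh ⟨hsh, Finite.surjective_of_injective hsh⟩).sum_comp
        fun c => (a (rep c) : ℚ̄) * (rep c : Γ) (θ : ℚ̄))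
  rw [smul_inv', inv_div_inv, div_eq_iff_eq_mul]
  exact Units.ext hsum.symm

end FLTAgent.PoitouTate
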