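import Fermat.Agent.PoitouTate.Sha1

/-!
# Homomorphisms into the units of `ℚ̄` with the Galois action by conjugation

`conj σ φ = σ ∘ φ ∘ (q σ)⁻¹` on `Hom(X, A)` for a module `X` of the group of a level and a module
`A` of the Galois group, `dC` the differential on one-cochains with values there, and the
identification `kap : M → Hom(DualMod M, μ_p)` of the coefficient module, pulled back to the free
module by `kapF`.
-/

set_option autoImplicit false
set_option linter.style.haveILetI false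
set_option linter.unusedSectionVars false

noncomputable section

open CategoryTheory groupCohomology ExtCitation
open scoped Pointwise

namespace FLTAgent.PoitouTate

open FLTAgent.TW

local notation "ℚ̄" => AlgebraicClosure ℚ
local notation "Γ" => (AlgebraicClosure ℚ ≃ₐ[ℚ] AlgebraicClosure ℚ)
local notation "𝕌" => Additive (AlgebraicClosure ℚ)ˣ

/-! ### Extending homomorphisms -/

theorem baer_units : Module.Baer ℤ 𝕌 := by
  haveI : DivisibleBy 𝕌 ℕ := divisibleByOfSMulRightSurj _ _ fun {n} hn a => by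
    obtain ⟨z, hz⟩ := IsAlgClosed.exists_pow_nat_eq ((Additive.toMul a : ℚ̄ˣ) : ℚ̄)
      (Nat.pos_of_ne_zero hn)
    have hz0 : z ≠ 0 := fun h0 => by
      rw [h0, zero_pow hn] at hz
      exact (Additive.toMul a).ne_zero hz.symm
    exact ⟨Additive.ofMul (Units.mk0 z hz0), Additive.toMul.injective (Units.ext hz)⟩
  haveI : DivisibleBy 𝕌 ℤ := AddGroup.divisibleByIntOfDivisibleByNat 𝕌
  exact Module.Baer.of_divisible 𝕌

theorem exists_extend {X : Type} [AddCommGroup X] (R : AddSubgroup X) (g : R →+ 𝕌) :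
    ∃ g' : X →+ 𝕌, ∀ y : R, g' y = g y := by
  obtain ⟨g', hg'⟩ := baer_units.extension_property_addMonoidHom R.subtype R.subtype_injective g
  exact ⟨g', fun y => DFunLike.congr_fun hg' y⟩

/-! ### Conjugation -/

section Conj

variable {S : Finset ℕ} {p : ℕ} {G : Type} [Group G] (lv : Level S p G)
variable {X : Type} [AddCommGroup X] [DistribMulAction G X]
variable {A B : Type} [CommGroup A] [MulDistribMulAction Γ A] [CommGroup B]
  [MulDistribMulAction Γ B]

/-- A Galois element on an additively written module. -/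
def actA (σ : Γ) : Additive A →+ Additive A := (MulDistribMulAction.toMonoidHom A σ).toAdditive

theorem actA_ofMul (σ : Γ) (a : A) : actA σ (Additive.ofMul a) = Additive.ofMul (σ • a) := rfl

theorem toMul_actA (σ : Γ) (a : Additive A) :
    Additive.toMul (actA σ a) = σ • Additive.toMul a := rfl

theorem actA_one (a : Additive A) : actA 1 a = a := congrArg Additive.ofMul (one_smul Γ _)

theorem actA_mul (σ τ : Γ) (a : Additive A) : actA (σ * τ) a = actA σ (actA τ a) :=
  congrArg Additive.ofMul (mul_smul σ τ _)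

theorem actA_inv_cancel (σ : Γ) (a : Additive A) : actA σ⁻¹ (actA σ a) = a := by
  rw [← actA_mul, inv_mul_cancel, actA_one]

namespace Level

/-- The conjugate of a homomorphism. -/
def conj (σ : Γ) : (X →+ Additive A) →+ (X →+ Additive A) where
  toFun φ := (actA σ).comp (φ.comp (DistribSMul.toAddMonoidHom X (lv.q σ)⁻¹))
  map_zero' := AddMonoidHom.ext fun _ => map_zero (actA σ)
  map_add' _ _ := AddMonoidHom.ext fun _ => map_add (actA σ) _ _

theorem conj_apply (σ : Γ) (φ : X →+ Additive A) (x : X) :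
    lv.conj σ φ x = actA σ (φ ((lv.q σ)⁻¹ • x)) := rfl

theorem conj_apply_smul (σ : Γ) (φ : X →+ Additive A) (x : X) :
    lv.conj σ φ (lv.q σ • x) = actA σ (φ x) := by rw [conj_apply, inv_smul_smul]

theorem conj_one (φ : X →+ Additive A) : lv.conj 1 φ = φ := AddMonoidHom.ext fun x => by
  rw [conj_apply, map_one, inv_one, one_smul, actA_one]

theorem conj_mul (σ τ : Γ) (φ : X →+ Additive A) :
    lv.conj (σ * τ) φ = lv.conj σ (lv.conj τ φ) := AddMonoidHom.ext fun x => by
  rw [conj_apply, conj_apply, conj_apply, actA_mul, map_mul, mul_inv_rev, mul_smul]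

theorem conj_eq_self {σ : Γ} (hσ : lv.q σ = 1) {φ : X →+ Additive A}
    (h : ∀ x, actA σ (φ x) = φ x) : lv.conj σ φ = φ := AddMonoidHom.ext fun x => by
  rw [conj_apply, hσ, inv_one, one_smul, h]

theorem conj_comp_hom {j : A →* B} (hj : ∀ (σ : Γ) a, j (σ • a) = σ • j a) (σ : Γ)
    (φ : X →+ Additive A) :
    lv.conj σ (j.toAdditive.comp φ) = j.toAdditive.comp (lv.conj σ φ) :=
  AddMonoidHom.ext fun _ => congrArg Additive.ofMul (hj σ _).symm

theorem conj_comp_eqHom {Y : Type} [AddCommGroup Y] [DistribMulAction G Y] {j : Y →+ X}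
    (hj : j ∈ Coh.eqHom G Y X) (σ : Γ) (φ : X →+ Additive A) :
    lv.conj σ (φ.comp j) = (lv.conj σ φ).comp j :=
  AddMonoidHom.ext fun y => by
    rw [conj_apply, AddMonoidHom.comp_apply, hj]
    rfl

theorem conj_sub (σ : Γ) (φ ψ : X →+ Additive A) :
    lv.conj σ (φ - ψ) = lv.conj σ φ - lv.conj σ ψ := map_sub _ _ _

/-- The differential of a one-cochain. -/
def dC (e : Γ → (X →+ Additive A)) (σ τ : Γ) : X →+ Additive A :=
  lv.conj σ (e τ) - e (σ * τ) + e σ

theorem dC_add (e e' : Γ → (X →+ Additive A)) (σ τ : Γ) :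
    lv.dC (e + e') σ τ = lv.dC e σ τ + lv.dC e' σ τ := by
  simp only [dC, Pi.add_apply, map_add]; abel

theorem dC_sub (e e' : Γ → (X →+ Additive A)) (σ τ : Γ) :
    lv.dC (e - e') σ τ = lv.dC e σ τ - lv.dC e' σ τ := by
  simp only [dC, Pi.sub_apply, map_sub]; abel

theorem dC_nsmul (k : ℕ) (e : Γ → (X →+ Additive A)) (σ τ : Γ) :
    lv.dC (k • e) σ τ = k • lv.dC e σ τ := by
  simp only [dC, Pi.smul_apply, map_nsmul, nsmul_add, sub_eq_add_neg, neg_nsmul]

theorem dC_coboundary (u : X →+ Additive A) (σ τ : Γ) :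
    lv.dC (fun ρ => lv.conj ρ u - u) σ τ = 0 := by
  simp only [dC, map_sub, ← conj_mul]; abel

theorem dC_comp (e : Γ → (X →+ Additive A)) {Y : Type} [AddCommGroup Y] [DistribMulAction G Y]
    {j : Y →+ X} (hj : j ∈ Coh.eqHom G Y X) (σ τ : Γ) :
    lv.dC (fun ρ => (e ρ).comp j) σ τ = (lv.dC e σ τ).comp j := by
  simp only [dC]
  rw [lv.conj_comp_eqHom hj]
  exact AddMonoidHom.ext fun y => rfl

theorem dC_hom {j : A →* B} (hj : ∀ (σ : Γ) a, j (σ • a) = σ • j a)
    (e : Γ → (X →+ Additive A)) (σ τ : Γ) :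
    lv.dC (fun ρ => j.toAdditive.comp (e ρ)) σ τ = j.toAdditive.comp (lv.dC e σ τ) := by
  simp only [dC, lv.conj_comp_hom hj]
  exact AddMonoidHom.ext fun x => by simp

theorem dC_dC (e : Γ → (X →+ Additive A)) (ρ σ τ : Γ) :
    lv.conj ρ (lv.dC e σ τ) + lv.dC e ρ (σ * τ) = lv.dC e (ρ * σ) τ + lv.dC e ρ σ := by
  simp only [dC, map_add, map_sub, conj_mul, mul_assoc]; abel

end Level

end Conj

/-! ### The coefficient module as homomorphisms into the roots of unity -/

variable {p : ℕ} [Fact p.Prime] {S : Finset Nat.Primes}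

theorem exists_zetaUnit (p : ℕ) [Fact p.Prime] : ∃ z : (ℚ̄)ˣ, IsPrimitiveRoot z p := by
  obtain ⟨ζ, hζ⟩ := exists_primitiveRoot_qbar p
  exact ⟨(hζ.isUnit (Fact.out : p.Prime).ne_zero).unit,
    hζ.isUnit_unit (Fact.out : p.Prime).ne_zero⟩

variable (p) in
/-- A primitive root of unity of order `p`. -/
def zetaUnit : (ℚ̄)ˣ := (exists_zetaUnit p).choose

theorem zetaUnit_spec : IsPrimitiveRoot (zetaUnit p) p := (exists_zetaUnit p).choose_spec

variable (p) in
/-- `ZMod p` as roots of unity. -/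
def zetaAdd : ZMod p →+ 𝕌 :=
  ZMod.lift p ⟨zmultiplesHom 𝕌 (Additive.ofMul (zetaUnit p)), by
    rw [zmultiplesHom_apply, natCast_zsmul, ← ofMul_pow, zetaUnit_spec.pow_eq_one, ofMul_one]⟩

theorem zetaAdd_natCast (k : ℕ) : zetaAdd p k = Additive.ofMul (zetaUnit p ^ k) := by
  have h : zetaAdd p ((k : ℤ) : ZMod p) = (k : ℤ) • Additive.ofMul (zetaUnit p) :=
    ZMod.lift_coe _ _ _
  rwa [Int.cast_natCast, natCast_zsmul, ← ofMul_pow] at h

theorem zetaAdd_eq_pow (a : ZMod p) : zetaAdd p a = Additive.ofMul (zetaUnit p ^ a.val) := by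
  haveI : NeZero p := ⟨(Fact.out : p.Prime).ne_zero⟩
  rw [← zetaAdd_natCast, ZMod.natCast_zmod_val]

theorem zetaAdd_injective : Function.Injective (zetaAdd p) := by
  haveI : NeZero p := ⟨(Fact.out : p.Prime).ne_zero⟩
  refine (injective_iff_map_eq_zero _).mpr fun a ha => ?_
  rw [zetaAdd_eq_pow, ofMul_eq_zero] at ha
  rw [← ZMod.natCast_zmod_val a, ZMod.natCast_eq_zero_iff]
  exact zetaUnit_spec.dvd_of_pow_eq_one _ ha

theorem exists_zetaAdd_eq {x : 𝕌} (h : p • x = 0) : ∃ a, zetaAdd p a = x := by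
  haveI : NeZero p := ⟨(Fact.out : p.Prime).ne_zero⟩
  have h1 : (Additive.toMul x : (ℚ̄)ˣ) ^ p = 1 := congrArg Additive.toMul h
  obtain ⟨i, -, hi⟩ := (IsPrimitiveRoot.coe_units_iff.mpr (zetaUnit_spec (p := p))).eq_pow_of_pow_eq_one
    (ξ := ((Additive.toMul x : (ℚ̄)ˣ) : ℚ̄)) (by rw [← Units.val_pow_eq_pow_val, h1, Units.val_one])
  have h2 : zetaUnit p ^ i = Additive.toMul x := Units.ext (by rw [Units.val_pow_eq_pow_val, hi])
  exact ⟨i, by rw [zetaAdd_natCast, h2]; rfl⟩

theorem actA_zetaAdd (σ : Γ) (a : ZMod p) :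
    actA σ (zetaAdd p a) = zetaAdd p ((cycloChar p σ : ZMod p) * a) := by
  haveI : NeZero p := ⟨(Fact.out : p.Prime).ne_zero⟩
  have h : σ • zetaUnit p ^ a.val = zetaUnit p ^ (a.val * (cycloChar p σ : ZMod p).val) := by
    refine Units.ext ?_
    show σ ((zetaUnit p ^ a.val : (ℚ̄)ˣ) : ℚ̄) = _
    rw [cycloChar_spec σ (by
      rw [← Units.val_pow_eq_pow_val, ← pow_mul, mul_comm, pow_mul, zetaUnit_spec.pow_eq_one,
        one_pow, Units.val_one])]
    simp only [pow_mul, Units.val_pow_eq_pow_val]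
  rw [zetaAdd_eq_pow, actA_ofMul, h, ← zetaAdd_natCast, Nat.cast_mul, ZMod.natCast_zmod_val,
    ZMod.natCast_zmod_val, mul_comm]

theorem nsmul_zetaAdd (a : ZMod p) : p • zetaAdd p a = 0 := by
  rw [← map_nsmul, nsmul_eq_mul, ZMod.natCast_self, zero_mul, map_zero]

section Kap

variable (M : Rep.{0} (ZMod p) Γ)

/-- The homomorphism into `μ_p` of an element of `M`. -/
def kap : M →+ (DualMod M →+ 𝕌) :=
  AddMonoidHom.mk' (fun m => (zetaAdd p).comp
      (AddMonoidHom.mk' (fun f => (DualMod.val f : Module.Dual (ZMod p) M) m) fun _ _ => rfl))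
    fun m m' => AddMonoidHom.ext fun f => by
      show zetaAdd p ((DualMod.val f : Module.Dual (ZMod p) M) (m + m')) = _
      rw [map_add, map_add]
      rfl

theorem kap_apply (m : M) (f : DualMod M) :
    kap M m f = zetaAdd p ((DualMod.val f : Module.Dual (ZMod p) M) m) := rfl

theorem kap_injective : Function.Injective (kap M) := by
  refine (injective_iff_map_eq_zero _).mpr fun m hm => ?_
  refine (Module.forall_dual_apply_eq_zero_iff (ZMod p) m).mp fun φ => zetaAdd_injective ?_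
  rw [map_zero]
  exact DFunLike.congr_fun hm (DualMod.of φ)

theorem kap_surjective [FiniteDimensional (ZMod p) M] (φ : DualMod M →+ 𝕌) :
    ∃ m, kap M m = φ := by
  have hφ : ∀ f, ∃ a, zetaAdd p a = φ f := fun f => exists_zetaAdd_eq (by
    rw [← map_nsmul, DualMod.nsmul_eq_zero, map_zero])
  choose a ha using hφ
  let l : Module.Dual (ZMod p) M →+ ZMod p := AddMonoidHom.mk'
    (fun f => a (DualMod.of f)) fun f f' => zetaAdd_injective (by
      rw [map_add, ha, ha, ha, ← map_add]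
      rfl)
  obtain ⟨m, hm⟩ := (Module.evalEquiv (ZMod p) M).surjective (AddMonoidHom.toZModLinearMap p l)
  refine ⟨m, AddMonoidHom.ext fun f => ?_⟩
  rw [kap_apply, ← ha]
  exact congrArg (zetaAdd p) (LinearMap.congr_fun hm _)

variable {M} {G : Type} [Group G] (lv : Level (natSet S) p G)
variable [DistribMulAction G (DualMod M)]
  (hact : ∀ (σ : Γ) (f : DualMod M),
    lv.q σ • f = DualMod.of ((M.dualTwist (cycloChar p)).ρ σ (DualMod.val f)))

include hact in
theorem conj_kap (σ : Γ) (m : M) : lv.conj σ (kap M m) = kap M (M.ρ σ m) := by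
  refine AddMonoidHom.ext fun f => ?_
  rw [Level.conj_apply, kap_apply, actA_zetaAdd, ← map_inv, hact, kap_apply]
  refine congrArg (zetaAdd p) ?_
  show (cycloChar p σ : ZMod p) * ((cycloChar p σ⁻¹ : ZMod p) •
    ((DualMod.val f : Module.Dual (ZMod p) M) ∘ₗ M.ρ σ⁻¹⁻¹)) m = _
  rw [LinearMap.smul_apply, smul_eq_mul, ← mul_assoc, map_inv, Units.mul_inv, one_mul, inv_inv]
  rfl

variable (G M) in
/-- `kap`, pulled back to the free module. -/
def kapF : M →+ (Coh.Free G (DualMod M) →+ 𝕌) :=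
  AddMonoidHom.mk' (fun m => (kap M m).comp (Coh.proj G (DualMod M))) fun m m' => by
    rw [map_add, AddMonoidHom.add_comp]

theorem kapF_apply (m : M) (x : Coh.Free G (DualMod M)) :
    kapF M G m x = kap M m (Coh.proj G (DualMod M) x) := rfl

include hact in
theorem conj_kapF (σ : Γ) (m : M) : lv.conj σ (kapF M G m) = kapF M G (M.ρ σ m) := by
  show lv.conj σ ((kap M m).comp _) = (kap M (M.ρ σ m)).comp _
  rw [lv.conj_comp_eqHom (fun g x => Coh.proj_smul g x), conj_kap lv hact]

theorem kapF_rel (m : M) (y : Coh.Rel G (DualMod M)) : kapF M G m y = 0 := by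
  rw [kapF_apply, Coh.mem_rel_iff.mp y.2, map_zero]

theorem kapF_injective : Function.Injective (kapF M G) := fun m m' h =>
  kap_injective M (AddMonoidHom.ext fun f => by
    obtain ⟨x, rfl⟩ := Coh.proj_surjective (G := G) f
    exact DFunLike.congr_fun h x)

theorem exists_kapF_eq [FiniteDimensional (ZMod p) M] (φ : Coh.Free G (DualMod M) →+ 𝕌)
    (hφ : ∀ y : Coh.Rel G (DualMod M), φ y = 0) : ∃ m, kapF M G m = φ := by
  let ψ : DualMod M →+ 𝕌 := (Coh.proj G (DualMod M)).liftOfSurjective Coh.proj_surjective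
    ⟨φ, fun x hx => hφ ⟨x, hx⟩⟩
  obtain ⟨m, hm⟩ := kap_surjective M ψ
  refine ⟨m, AddMonoidHom.ext fun x => ?_⟩
  rw [kapF_apply, hm]
  exact AddMonoidHom.liftOfRightInverse_comp_apply _ _ _ _ x

omit [DistribMulAction G (DualMod M)] in
theorem zetaAdd_mem_field (a : ZMod p) :
    ((Additive.toMul (zetaAdd p a) : (ℚ̄)ˣ) : ℚ̄) ∈ lv.field :=
  lv.containsMuP _ (by
    rw [← Units.val_pow_eq_pow_val, ← toMul_nsmul, nsmul_zetaAdd, toMul_zero, Units.val_one])

include hact in
theorem cocycle_of_dC {e : Γ → (Coh.Free G (DualMod M) →+ 𝕌)} {z : Γ × Γ → M}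
    (h : ∀ σ τ, kapF M G (z (σ, τ)) = lv.dC e σ τ) : z ∈ cocycles₂ M := by
  refine (mem_cocycles₂_iff _).mpr fun g g' j => kapF_injective (G := G) ?_
  rw [map_add, map_add, h, h, h, ← conj_kapF lv hact, h]
  exact (lv.dC_dC e g g' j).symm

end Kap

end FLTAgent.PoitouTate
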