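import Fermat.Agent.PoitouTate.Connect.Exists
import Fermat.Agent.TW.Idele.Arith

/-!
# The kernel of the connecting map

`ker_theta`: the kernel of `theta` is `localClasses`.  If the cocycle of a datum is a level
coboundary, Hilbert's theorem 90 splits the deviation, and the class is local plus extendable to
the free module (`ConnData.mem_localClasses`).
-/

set_option autoImplicit false
set_option synthInstance.maxHeartbeats 200000
set_option linter.style.haveILetI false
set_option linter.unusedSectionVars false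

noncomputable section

open CategoryTheory groupCohomology ExtCitation
open scoped Pointwise

namespace FLTAgent.PoitouTate

open FLTAgent.TW FLTAgent.TW.PreIdele

local notation "ℚ̄" => AlgebraicClosure ℚ
local notation "Γ" => (AlgebraicClosure ℚ ≃ₐ[ℚ] AlgebraicClosure ℚ)
local notation "𝕌" => Additive (AlgebraicClosure ℚ)ˣ
local notation "𝕁" => Additive PreIdele

/-- The units of a field. -/
def fieldUnits (L : IntermediateField ℚ ℚ̄) : Subgroup (ℚ̄)ˣ where
  carrier := {x | (x : ℚ̄) ∈ L}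
  one_mem' := L.one_mem
  mul_mem' ha hb := L.mul_mem ha hb
  inv_mem' {a} ha := by
    show ((a⁻¹ : (ℚ̄)ˣ) : ℚ̄) ∈ L
    rw [Units.val_inv_eq_inv_val]
    exact L.inv_mem ha

theorem mem_fieldUnits {L : IntermediateField ℚ ℚ̄} {x : (ℚ̄)ˣ} :
    x ∈ fieldUnits L ↔ (x : ℚ̄) ∈ L := Iff.rfl

variable {p : ℕ} [Fact p.Prime] {S : Finset Nat.Primes} {G : Type} [Group G]
variable {M : Rep.{0} (ZMod p) Γ} [FiniteDimensional (ZMod p) M] (lv : Level (natSet S) p G)
variable [DistribMulAction G (DualMod M)]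
  (hact : ∀ (σ : Γ) (f : DualMod M),
    lv.q σ • f = DualMod.of ((M.dualTwist (cycloChar p)).ρ σ (DualMod.val f)))

omit [DistribMulAction G (DualMod M)] in
theorem clIn_injective {T : Finset ℕ} {L : IntermediateField ℚ ℚ̄} (hle : lv.field ≤ L) :
    Function.Injective (clIn lv hle : lv.Cl T →+ _) :=
  (injective_iff_map_eq_zero _).mpr fun c hc => by
    obtain ⟨φ, rfl⟩ := lv.classOf_surjective (classKer T lv.field) c
    rw [clIn_classOf, clPre_eq_zero_iff] at hc
    exact (lv.classOf_eq_zero_iff _ φ).mpr (classKer_inter' φ.2 hc)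

theorem kapF_mem_tUnits {T : Finset ℕ} {L : IntermediateField ℚ ℚ̄} (hle : lv.field ≤ L)
    (m : M) (x : Coh.Free G (DualMod M)) :
    Additive.toMul (kapF M G m x) ∈ tUnits T L :=
  ⟨hle (zetaAdd_mem_field lv _), fun A _ => mem_unitGroup_of_pow (Fact.out : p.Prime).ne_zero
    (by rw [← toMul_nsmul, kapF_apply, kap_apply, nsmul_zetaAdd]; exact one_mem _)⟩

variable {T : Finset ℕ} (hST : natSet S ⊆ T)

include hact in
/-- A datum whose cocycle is a level coboundary comes from a local class. -/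
theorem ConnData.mem_localClasses {f : Coh.eqHom G (Coh.Rel G (DualMod M)) (lv.Cl T)}
    {z : Γ × Γ → M} (d : ConnData lv (atS lv hST f) z) (hz : z ∈ levelCoboundariesS₂ S M) :
    Coh.Ext1.mk f ∈ localClasses (DualMod M) lv hST := by
  classical
  obtain ⟨w, ⟨F, hF, hwF⟩, hw⟩ := (mem_levelCoboundariesS₂_iff S M z).mp hz
  obtain ⟨L', hLL', hFL', hL'⟩ := exists_setting_of_unramified d.setting hF
  haveI := setting_normal hL'
  haveI := hL'.finite
  have hle : lv.field ≤ L' := d.le.trans hLL'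
  let a := d.enlarge hLL' hL'
  let e' : Γ → (Coh.Free G (DualMod M) →+ 𝕌) := a.e - fun σ => kapF M G (w σ)
  have he'c : ∀ σ, ∀ s ∈ L'.fixingSubgroup, e' (σ * s) = e' σ := fun σ s hs => by
    show a.e (σ * s) - kapF M G (w (σ * s)) = a.e σ - kapF M G (w σ)
    rw [a.e_const σ s hs, hwF σ s (IntermediateField.fixingSubgroup_le hFL' hs)]
  have he'm : ∀ σ x, Additive.toMul (e' σ x) ∈ tUnits (natSet S) L' := fun σ x =>
    div_mem (a.e_mem σ x) (kapF_mem_tUnits lv hle _ x)
  have he'd : ∀ σ τ, lv.dC e' σ τ = 0 := fun σ τ => by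
    show lv.dC (a.e - fun σ => kapF M G (w σ)) σ τ = 0
    rw [lv.dC_sub, ← a.e_cocycle, ← hw, d₁₂_hom_apply, map_add, map_sub, ← conj_kapF lv hact]
    exact (sub_self (lv.dC (fun σ => kapF M G (w σ)) σ τ) :)
  have hcoc : ∀ σ τ x, e' (σ * τ) x = actA σ (e' τ ((lv.q σ)⁻¹ • x)) + e' σ x := fun σ τ x => by
    have h := DFunLike.congr_fun (he'd σ τ) x
    simp only [Level.dC, AddMonoidHom.add_apply, AddMonoidHom.sub_apply, AddMonoidHom.zero_apply,
      lv.conj_apply] at h
    refine sub_eq_zero.mp ?_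
    calc e' (σ * τ) x - (actA σ (e' τ ((lv.q σ)⁻¹ • x)) + e' σ x)
        = -(actA σ (e' τ ((lv.q σ)⁻¹ • x)) - e' (σ * τ) x + e' σ x) := by abel
      _ = 0 := by rw [h, neg_zero]
  -- Hilbert 90 at the identity coset
  have hβ : ∀ n : DualMod M, ∃ b : (ℚ̄)ˣ, (b : ℚ̄) ∈ L' ∧ ∀ σ ∈ lv.field.fixingSubgroup,
      σ • b / b = Additive.toMul (e' σ (Coh.Free.of 1 n)) := fun n => by
    refine exists_ninety lv.field.fixingSubgroup L' _ (fun σ hσ τ _ => ?_) (fun σ _ τ _ h => ?_)
      (fun σ _ => (he'm σ _).1) fun σ _ x hx => mem_of_normal σ hx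
    · rw [hcoc, lv.mem_fix_field.mp hσ, inv_one, one_smul, toMul_add, toMul_actA, mul_comm]
    · have hs : τ⁻¹ * σ ∈ L'.fixingSubgroup := by
        rw [IntermediateField.mem_fixingSubgroup_iff]
        intro x hx
        rw [AlgEquiv.mul_apply, h x hx, ← AlgEquiv.mul_apply, inv_mul_cancel, AlgEquiv.one_apply]
      rw [← he'c τ _ hs, mul_inv_cancel_left]
  choose β hβL hβ using hβ
  let u : Coh.Free G (DualMod M) →+ 𝕌 := Coh.Free.lift fun g n =>
    actA (lv.lift g) (Additive.ofMul (β n)) - e' (lv.lift g) (Coh.Free.of g n)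
  have hu : ∀ (g : G) n (σ : Γ), lv.q σ = g →
      u (Coh.Free.of g n) = actA σ (Additive.ofMul (β n)) - e' σ (Coh.Free.of g n) := by
    intro g n σ hσ
    have hτ : (lv.lift g)⁻¹ * σ ∈ lv.field.fixingSubgroup := lv.mem_fix_field.mpr (by
      rw [map_mul, map_inv, lv.q_lift, hσ, inv_mul_cancel])
    have h1 : actA ((lv.lift g)⁻¹ * σ) (Additive.ofMul (β n)) =
        e' ((lv.lift g)⁻¹ * σ) (Coh.Free.of 1 n) + Additive.ofMul (β n) := by
      rw [← sub_eq_iff_eq_add, actA_ofMul, ← ofMul_div, hβ n _ hτ]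
      rfl
    simp only [u, Coh.Free.lift_of]
    have h2 := hcoc (lv.lift g) ((lv.lift g)⁻¹ * σ) (Coh.Free.of g n)
    rw [mul_inv_cancel_left, lv.q_lift, Coh.Free.smul_of, inv_mul_cancel] at h2
    have h3 : actA σ (Additive.ofMul (β n)) =
        actA (lv.lift g) (actA ((lv.lift g)⁻¹ * σ) (Additive.ofMul (β n))) := by
      rw [← actA_mul, mul_inv_cancel_left]
    rw [h3, h1, map_add, h2]
    abel
  have hue : ∀ σ, lv.conj σ u - u = e' σ := fun σ => Coh.Free.hom_ext fun g n => by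
    obtain ⟨ρ, rfl⟩ := lv.surj g
    rw [AddMonoidHom.sub_apply, lv.conj_apply, Coh.Free.smul_of, ← map_inv, ← map_mul,
      hu _ n (σ⁻¹ * ρ) rfl, hu _ n ρ rfl, map_sub, ← actA_mul, mul_inv_cancel_left]
    have h := hcoc σ (σ⁻¹ * ρ) (Coh.Free.of (lv.q ρ) n)
    rw [mul_inv_cancel_left, Coh.Free.smul_of, ← map_inv, ← map_mul] at h
    rw [h]
    abel
  have hum : ∀ x, Additive.toMul (u x) ∈ fieldUnits L' := free_mem u _ fun g n => by
    simp only [u, Coh.Free.lift_of, toMul_sub, toMul_actA, toMul_ofMul]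
    exact div_mem (mem_of_normal (lv.lift g) (hβL n) : _ ∈ fieldUnits L') (he'm _ _).1
  have hsmulu : ∀ σ x, prinT (natSet S) (Additive.toMul (u x)) *
      prinT (natSet S) (Additive.toMul (e' σ x)) =
        σ • prinT (natSet S) (Additive.toMul (u ((lv.q σ)⁻¹ • x))) := fun σ x => by
    rw [← smul_prinT, ← map_mul, ← toMul_add, ← toMul_actA, ← lv.conj_apply, ← hue,
      AddMonoidHom.sub_apply, add_sub_cancel]
  -- the local part
  let Dl : Coh.Rel G (DualMod M) →+ 𝕁 :=
    a.D - (prinA (natSet S)).comp (u.comp (Coh.Rel G (DualMod M)).subtype)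
  have hDlm : ∀ y, Additive.toMul (Dl y) ∈ locIdeles (natSet S) L' := fun y =>
    div_mem (a.D_mem y) (prinT_mem (hum _))
  have hDlc : ∀ σ, lv.conj σ Dl = Dl := fun σ => by
    show lv.conj σ (a.D - (prinA (natSet S)).comp (u.comp (Coh.Rel G (DualMod M)).subtype)) = Dl
    rw [lv.conj_sub, conj_prinA, lv.conj_comp_eqHom Coh.subtype_mem_eqHom]
    refine AddMonoidHom.ext fun y => ?_
    have h1 := DFunLike.congr_fun (a.D_conj σ) y
    have h2 := DFunLike.congr_fun (hue σ) (y : Coh.Free G (DualMod M))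
    simp only [AddMonoidHom.sub_apply, AddMonoidHom.comp_apply, AddSubgroup.subtype_apply, Dl,
      e', Pi.sub_apply] at h1 h2 ⊢
    rw [sub_eq_iff_eq_add.mp h1, sub_eq_iff_eq_add.mp h2, map_add, map_sub, kapF_rel, map_zero]
    abel
  have hDl : ∀ y, Additive.toMul (Dl y) ∈ locIdeles (natSet S) lv.field := fun y =>
    ⟨⟨fun s hs => by
      have h := congrArg Additive.toMul (DFunLike.congr_fun (hDlc s) y)
      rwa [lv.conj_apply, lv.mem_fix_field.mp hs, inv_one, one_smul, toMul_actA] at h,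
      (hDlm y).1.2.1, (hDlm y).1.2.2⟩, (hDlm y).2⟩
  let g₀ : Coh.Rel G (DualMod M) →+ lv.LocMod (natSet S) :=
    AddMonoidHom.mk' (fun y => lv.locOf ⟨_, hDl y⟩) fun y y' => lv.locVal_injective (by
      show Additive.toMul (Dl (y + y')) = Additive.toMul (Dl y) * Additive.toMul (Dl y')
      rw [map_add, toMul_add])
  have hg₀ : g₀ ∈ Coh.eqHom G (Coh.Rel G (DualMod M)) (lv.LocMod (natSet S)) := fun g y => by
    obtain ⟨σ, rfl⟩ := lv.surj g
    refine lv.locVal_injective ?_
    rw [lv.locVal_smul rfl]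
    show Additive.toMul (Dl (lv.q σ • y)) = σ • Additive.toMul (Dl y)
    conv_lhs => rw [← hDlc σ, lv.conj_apply_smul, toMul_actA]
  -- the part extending to the free module
  have hfix : ∀ x, ∃ c : lv.Cl (natSet S),
      clIn lv hle c = clPre (natSet S) L' (prinA (natSet S) (u x)) := fun x => by
    haveI : L'.fixingSubgroup.Normal := TW.normal_fixingSubgroup
    obtain ⟨ψ, hψ, h⟩ := exists_fixed' hL' hle le_rfl inferInstance
      (φ := prinT (natSet S) (Additive.toMul (u x))) (prinT_mem (hum x)).1 fun σ hσ => by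
        have h1 := hsmulu σ x
        rw [lv.mem_fix_field.mp hσ, inv_one, one_smul] at h1
        rw [← h1, mul_div_cancel_left]
        exact prinT_mem_classKer (he'm σ x)
    refine ⟨lv.classOf _ ⟨ψ, hψ⟩, ?_⟩
    rw [clIn_classOf, clPre_eq_iff]
    have := inv_mem h
    rwa [inv_div] at this
  choose c hc using hfix
  let E₀ : Coh.Free G (DualMod M) →+ lv.Cl (natSet S) :=
    AddMonoidHom.mk' c fun x y => clIn_injective lv hle (by
      rw [map_add, hc, hc, hc, map_add, map_add, map_add])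
  have hE₀ : E₀ ∈ Coh.eqHom G (Coh.Free G (DualMod M)) (lv.Cl (natSet S)) := fun g x => by
    obtain ⟨σ, rfl⟩ := lv.surj g
    refine clIn_injective lv hle ?_
    show clIn lv hle (c (lv.q σ • x)) = clIn lv hle (lv.q σ • c x)
    obtain ⟨φ, hφ⟩ := lv.classOf_surjective (classKer (natSet S) lv.field) (c x)
    have h1 := hc x
    rw [← hφ, clIn_classOf, clPre_eq_iff, toMul_ofMul, toMul_prinA] at h1
    rw [hc, ← hφ, lv.smul_classOf _ rfl, clIn_classOf, clPre_eq_iff, toMul_prinA, toMul_ofMul]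
    have h2 := hsmulu σ (lv.q σ • x)
    rw [inv_smul_smul] at h2
    have h3 := div_mem (inv_mem (prinT_mem_classKer (he'm σ (lv.q σ • x))))
      (smul_mem_classKer σ h1)
    rw [smul_div', ← h2] at h3
    convert h3 using 1
    apply Additive.ofMul.injective
    simp only [ofMul_div, ofMul_inv, ofMul_mul]
    abel
  -- conclusion
  have hsplit : ∀ y, atS lv hST f y = lv.toCl (natSet S) (natSet S) (g₀ y) + E₀ y := fun y =>
    clIn_injective lv hle (by
      have h1 : clPre (natSet S) L' (a.D y) = clIn lv hle (atS lv hST f y) := a.D_cls y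
      have h2 : clIn lv hle (lv.toCl (natSet S) (natSet S) (g₀ y)) =
          clPre (natSet S) L' (Dl y) := rfl
      have h3 : clIn lv hle (E₀ y) = clPre (natSet S) L' (prinA (natSet S) (u y)) := hc y
      rw [map_add, h2, h3, ← h1, ← map_add]
      exact congrArg _ (sub_add_cancel _ _).symm)
  refine AddSubgroup.mem_sup.mpr ⟨_, ⟨Coh.Ext1.mk ⟨g₀, hg₀⟩, rfl⟩,
    Coh.Ext1.mk f - Coh.Ext1.map (lv.toCl (natSet S) T) (lv.toCl_mem (natSet S) T)
      (Coh.Ext1.mk ⟨g₀, hg₀⟩), ?_, add_sub_cancel _ _⟩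
  rw [AddMonoidHom.mem_ker, Coh.Ext1.map_mk, ← map_sub, Coh.Ext1.map_mk, Coh.Ext1.mk_eq_zero_iff]
  refine ⟨⟨E₀, hE₀⟩, fun y => ?_⟩
  show E₀ y = lv.changeT hST (f.1 y - lv.toCl (natSet S) T (g₀ y))
  rw [map_sub, lv.changeT_toCl]
  show E₀ y = atS lv hST f y - _
  rw [hsplit, add_sub_cancel_left]

/-- The kernel of the connecting map. -/
theorem ker_theta (hp2 : p ≠ 2) :
    (theta lv hact hST hp2).ker = localClasses (DualMod M) lv hST := by
  refine le_antisymm (fun c hc => ?_) (localClasses_le_ker lv hact hST hp2)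
  rw [AddMonoidHom.mem_ker, theta_eq_zero_iff] at hc
  obtain ⟨hf, ⟨d⟩⟩ := (exists_data_of_class (M := M) lv hST c).choose_spec.choose_spec
  rw [← hf]
  exact d.mem_localClasses lv hact hST hc

end FLTAgent.PoitouTate
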