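import Fermat.Agent.PoitouTate.Connect.Kernel
import Fermat.Agent.LocP.Place
import Fermat.Agent.TW.Idele.ClassField.PlaceNorm

/-!
# Local solutions of `dy = z`

At a place `A` above any rational prime the cocycle `z` of a class in `sha₂` becomes the
differential of a cochain on the decomposition group with values in `Hom(Free, ℚ̄ˣ)` which only
depends on the restriction to `L`, and whose restriction to the relations is a coboundary.
-/

set_option autoImplicit false
set_option linter.style.haveILetI false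
set_option linter.unusedSectionVars false

noncomputable section

open CategoryTheory groupCohomology ExtCitation
open scoped Pointwise

namespace FLTAgent.PoitouTate

open FLTAgent.TW

local notation "ℚ̄" => AlgebraicClosure ℚ
local notation "Γ" => (AlgebraicClosure ℚ ≃ₐ[ℚ] AlgebraicClosure ℚ)
local notation "𝕌" => Additive (AlgebraicClosure ℚ)ˣ

variable {p : ℕ} [Fact p.Prime] {S : Finset Nat.Primes} {G : Type} [Group G]
variable {M : Rep.{0} (ZMod p) Γ} [FiniteDimensional (ZMod p) M] (lv : Level (natSet S) p G)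
variable [DistribMulAction G (DualMod M)]
  (hact : ∀ (σ : Γ) (f : DualMod M),
    lv.q σ • f = DualMod.of ((M.dualTwist (cycloChar p)).ρ σ (DualMod.val f)))

/-- A solution on the decomposition group of a place. -/
structure LocalSol (L : IntermediateField ℚ ℚ̄) (z : Γ × Γ → M) (A : Place) where
  /-- The cochain. -/
  y : Γ → (Coh.Free G (DualMod M) →+ 𝕌)
  /-- Its splitting on the relations. -/
  u : Coh.Rel G (DualMod M) →+ 𝕌
  cocycle : ∀ g h : Γ, g • A = A → h • A = A → lv.dC y g h = kapF M G (z (g, h))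
  y_const : ∀ g : Γ, g • A = A → ∀ s ∈ L.fixingSubgroup, s • A = A → y (g * s) = y g
  y_fixed : ∀ g : Γ, g • A = A → ∀ s ∈ L.fixingSubgroup, s • A = A →
    ∀ x, actA s (y g x) = y g x
  u_fixed : ∀ s ∈ L.fixingSubgroup, s • A = A → ∀ r, actA s (u r) = u r
  y_rel : ∀ g : Γ, g • A = A → ∀ r : Coh.Rel G (DualMod M), y g r = (lv.conj g u - u) r
  y_unit : ¬ A.Over (natSet S) → ∀ g : Γ, g • A = A →
    ∀ x, Additive.toMul (y g x) ∈ A.1.unitGroup
  u_unit : ¬ A.Over (natSet S) → ∀ r, Additive.toMul (u r) ∈ A.1.unitGroup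

omit [FiniteDimensional (ZMod p) M] in
theorem cocycle_vanish {L : IntermediateField ℚ ℚ̄} {z : Γ × Γ → M} (hz : z ∈ cocycles₂ M)
    (hz1 : z (1, 1) = 0)
    (hzL : ∀ g g' s s', s ∈ L.fixingSubgroup → s' ∈ L.fixingSubgroup →
      z (g * s, g' * s') = z (g, g'))
    (g : Γ) {s : Γ} (hs : s ∈ L.fixingSubgroup) : z (g, s) = 0 ∧ z (s, g) = 0 := by
  have hc := (mem_cocycles₂_iff z).mp hz
  constructor
  · have h := hc g 1 1
    simp only [mul_one, hz1, map_zero, zero_add, add_eq_left] at h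
    have h2 := hzL g 1 1 s (one_mem _) hs
    rwa [mul_one, one_mul, h] at h2
  · have h := hc 1 1 g
    simp only [one_mul, map_one, Module.End.one_apply, hz1, add_zero] at h
    have h0 : z (1, g) = 0 := by
      have h3 := hc 1 1 g
      simp only [one_mul, map_one, hz1, add_zero] at h3
      simpa using h3
    have h2 := hzL 1 g s 1 hs (one_mem _)
    rwa [mul_one, one_mul, h0] at h2

include hact in
theorem rho_eq_self {L : IntermediateField ℚ ℚ̄} (hle : lv.field ≤ L) {s : Γ}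
    (hs : s ∈ L.fixingSubgroup) (m : M) : M.ρ s m = m := by
  refine kapF_injective (G := G) ?_
  rw [← conj_kapF lv hact]
  refine lv.conj_eq_self (lv.mem_fix_field.mp (IntermediateField.fixingSubgroup_le hle hs))
    fun x => congrArg Additive.ofMul (smul_fix (L := lv.field) ?_
      (IntermediateField.fixingSubgroup_le hle hs))
  exact (kapF_mem_tUnits lv (T := natSet S) le_rfl m x).1

omit [DistribMulAction G (DualMod M)] in
theorem smul_eq_of_mem_decomposition {A : Place} {σ : Γ}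
    (h : σ ∈ A.1.decompositionSubgroup ℚ) : σ • A = A :=
  Subtype.ext (MulAction.mem_stabilizer_iff.mp h)

omit [DistribMulAction G (DualMod M)] in
theorem decomposition_of_smul_eq {A : Place} {σ : Γ} (h : σ • A = A) :
    σ ∈ A.1.decompositionSubgroup ℚ :=
  MulAction.mem_stabilizer_iff.mpr (congrArg Subtype.val h)

/-- A solution of `dy = z` on the decomposition group, depending on the restriction to `F`. -/
structure LocalCochain (F : IntermediateField ℚ ℚ̄) (z : Γ × Γ → M) (A : Place) where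
  /-- The cochain. -/
  w : Γ → M
  finite : FiniteDimensional ℚ F
  normal : Normal ℚ F
  cocycle : ∀ g h : Γ, g • A = A → h • A = A → M.ρ g (w h) - w (g * h) + w g = z (g, h)
  const : ∀ g h : Γ, g • A = A → h • A = A → (∀ x ∈ F, g x = h x) → w g = w h
  inertia : ¬ A.Over (natSet S) → ∀ s ∈ A.1.inertiaSubgroupIn ℚ, w s = 0

include hact in
theorem exists_localCochain_of_mem {L : IntermediateField ℚ ℚ̄} [FiniteDimensional ℚ L]
    (hle : lv.field ≤ L) {z : Γ × Γ → M}
    (hz : z ∈ levelCocyclesS₂ S M) (hsha : continuousH2Sπ S M ⟨z, hz⟩ ∈ sha₂ S M)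
    (hzL : ∀ g g' s s', s ∈ L.fixingSubgroup → s' ∈ L.fixingSubgroup →
      z (g * s, g' * s') = z (g, g'))
    {q : Nat.Primes} (hq : q ∈ S) :
    ∃ (A : Place) (F : IntermediateField ℚ ℚ̄), A.1.LiesOverPrime q ∧ L ≤ F ∧
      Nonempty (LocalCochain (S := S) F z A) := by
  classical
  haveI : Fact (q : ℕ).Prime := ⟨q.2⟩
  have hA := sha1Map_mem.liesOverPrime_padicPlace q
  have h0 : locRes₂S S M (extArithLoc S (Sum.inr ⟨q, hq⟩)) (continuousH2Sπ S M ⟨z, hz⟩) = 0 := by
    rw [← locTotal₂S_apply, LinearMap.mem_ker.mp hsha]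
    rfl
  obtain ⟨y, ⟨F₀, hF₀, hyF⟩, hy⟩ := (locRes₂S_eq_zero_iff (extArithLoc S (Sum.inr ⟨q, hq⟩))
    ⟨z, hz⟩).mp h0
  haveI := hF₀
  set F := IntermediateField.normalClosure ℚ (L ⊔ F₀ : IntermediateField ℚ ℚ̄) ℚ̄ with hF
  haveI : Normal ℚ ℚ̄ := GalCommon.normal_Qbar
  haveI : Normal ℚ F := normalClosure.normal ℚ _ ℚ̄
  haveI : FiniteDimensional ℚ F := normalClosure.is_finiteDimensional ℚ _ ℚ̄
  have hleF : L ⊔ F₀ ≤ F := IntermediateField.le_normalClosure _
  let A : Place := ⟨_, (q : ℕ), q.2, hA⟩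
  let loc := localGaloisToGlobal (q : ℕ)
  have hdec : ∀ g : Γ, ∃ τ, g • A = A → ∀ x ∈ F, loc τ x = g x := fun g => by
    by_cases hg : g • A = A
    · obtain ⟨τ, hτ⟩ := exists_local_eqOn (q : ℕ) F (decomposition_of_smul_eq hg)
      exact ⟨τ, fun _ => hτ⟩
    · exact ⟨1, fun h => absurd h hg⟩
  choose τ hτ using hdec
  have hfix : ∀ a b : PadicAlgCl (q : ℕ) ≃ₐ[ℚ_[(q : ℕ)]] PadicAlgCl (q : ℕ),
      (∀ x ∈ F, loc a x = loc b x) → y a = y b := fun a b h => by
    have h1 := hyF b (b⁻¹ * a) ((IntermediateField.mem_fixingSubgroup_iff _ _).mpr fun x hx => by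
      show loc (b⁻¹ * a) x = x
      rw [map_mul, map_inv, AlgEquiv.mul_apply, h x (hleF (le_sup_right (a := L) hx)),
        ← AlgEquiv.mul_apply, inv_mul_cancel, AlgEquiv.one_apply])
    exact (congrArg y (mul_inv_cancel_left b a)).symm.trans h1
  have hagree : ∀ g h : Γ, (∀ x ∈ F, g x = h x) → ∃ s ∈ L.fixingSubgroup, h = g * s := fun g h e =>
    ⟨g⁻¹ * h, (IntermediateField.mem_fixingSubgroup_iff _ _).mpr fun x hx => by
      rw [AlgEquiv.mul_apply, ← e x (hleF (le_sup_left (b := F₀) hx)), ← AlgEquiv.mul_apply,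
        inv_mul_cancel, AlgEquiv.one_apply], (mul_inv_cancel_left g h).symm⟩
  refine ⟨A, F, hA, le_sup_left.trans hleF, ⟨⟨fun g => y (τ g), inferInstance, inferInstance,
    fun g h hg hh => ?_, fun g h hg hh e => hfix _ _ fun x hx => by
      rw [hτ g hg x hx, hτ h hh x hx, e x hx],
    fun h => absurd ⟨(q : ℕ), mem_natSet.mpr hq, q.2, hA⟩ h⟩⟩⟩
  obtain ⟨s, hs, hs'⟩ := hagree g (loc (τ g)) fun x hx => (hτ g hg x hx).symm
  obtain ⟨s', hs₂, hs₂'⟩ := hagree h (loc (τ h)) fun x hx => (hτ h hh x hx).symm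
  have h1 : z (loc (τ g), loc (τ h)) = z (g, h) := by rw [hs', hs₂', hzL g h s s' hs hs₂]
  have h2 : M.ρ (loc (τ g)) (y (τ h)) = M.ρ g (y (τ h)) := by
    rw [hs', map_mul, Module.End.mul_apply, rho_eq_self lv hact hle hs]
  have h3 : y (τ g * τ h) = y (τ (g * h)) := hfix _ _ fun x hx => by
    rw [map_mul, AlgEquiv.mul_apply, hτ h hh x hx, hτ g hg _ (mem_of_normal h hx),
      hτ (g * h) (by rw [mul_smul, hh, hg]) x hx]
    rfl
  rw [← h1, ← h2, ← h3]
  exact hy (τ g) (τ h)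

/-- The exponents of a number modulo one less than a power. -/
theorem mod_eq_of_pow_modEq {r n i j : ℕ} (hr : 2 ≤ r) (hn : 2 ≤ n)
    (h : r ^ i ≡ r ^ j [MOD r ^ n - 1]) : i % n = j % n := by
  have hN : r ^ n ≡ 1 [MOD r ^ n - 1] :=
    ((Nat.modEq_iff_dvd' (Nat.one_le_pow _ _ (by omega))).mpr dvd_rfl).symm
  have hred : ∀ k, r ^ k ≡ r ^ (k % n) [MOD r ^ n - 1] := fun k => by
    conv_lhs => rw [← Nat.mod_add_div k n, pow_add, pow_mul]
    simpa using ((hN.pow (k / n)).mul_left (r ^ (k % n)))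
  have hlt : ∀ k, r ^ (k % n) < r ^ n - 1 := fun k => by
    have h1 : r ^ (k % n) ≤ r ^ (n - 1) := Nat.pow_le_pow_right (by omega)
      (Nat.le_sub_one_of_lt (Nat.mod_lt _ (by omega)))
    have h2 : r ^ n = r ^ (n - 1) * r := by rw [← pow_succ]; congr 1; omega
    have h3 : r ^ 1 ≤ r ^ (n - 1) := Nat.pow_le_pow_right (by omega) (by omega)
    have h4 : r ^ (n - 1) * 2 ≤ r ^ (n - 1) * r := Nat.mul_le_mul_left _ hr
    rw [pow_one] at h3
    omega
  exact Nat.pow_right_injective hr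
    (Nat.ModEq.eq_of_lt_of_lt (((hred i).symm.trans h).trans (hred j)) (hlt i) (hlt j))

include hact in
theorem exists_localCochain_of_not_mem {L : IntermediateField ℚ ℚ̄}
    (hL : IdeleSetting (natSet S) p L) (hle : lv.field ≤ L) {z : Γ × Γ → M}
    (hz : z ∈ cocycles₂ M) (hz1 : z (1, 1) = 0)
    (hzL : ∀ g g' s s', s ∈ L.fixingSubgroup → s' ∈ L.fixingSubgroup →
      z (g * s, g' * s') = z (g, g'))
    {r : ℕ} (hr : r.Prime) (hrS : r ∉ natSet S) :
    ∃ (A : Place) (F : IntermediateField ℚ ℚ̄), A.1.LiesOverPrime r ∧ L ≤ F ∧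
      Nonempty (LocalCochain (S := S) F z A) := by
  classical
  haveI : Fact r.Prime := ⟨hr⟩
  haveI := hL.finite
  obtain ⟨A₀, hA₀⟩ := GalCommon.exists_liesOverPrime hr
  let A : Place := ⟨A₀, r, hr, hA₀⟩
  have hAS : ¬ A.Over (natSet S) := fun ⟨q, hq, hqp, hA⟩ =>
    hrS (GalCommon.liesOverPrime_unique hr hqp hA₀ hA ▸ hq)
  obtain ⟨φ, hφ⟩ := GalCommon.exists_isFrobeniusAt hr hA₀
  obtain ⟨m, hm, hmL⟩ := exists_pow_mem_fixing L φ
  set n := p * m with hn
  have hn2 : 2 ≤ n := le_trans (Fact.out : p.Prime).two_le (Nat.le_mul_of_pos_right p hm)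
  have hr1 : 1 ≤ r ^ n := Nat.one_le_pow _ _ hr.pos
  have hN0 : r ^ n - 1 ≠ 0 := by
    have : r ^ 1 < r ^ n := Nat.pow_lt_pow_right hr.one_lt (by omega)
    rw [pow_one] at this
    have := hr.two_le
    omega
  haveI : NeZero ((r ^ n - 1 : ℕ) : ℚ̄) := ⟨Nat.cast_ne_zero.mpr hN0⟩
  obtain ⟨ζ, hζ⟩ := (HasEnoughRootsOfUnity.exists_primitiveRoot ℚ̄ (r ^ n - 1))
  have hrN : ¬ r ∣ r ^ n - 1 := fun h => by
    have h2 := Nat.dvd_sub (dvd_pow_self r (show n ≠ 0 by omega)) h
    rw [show r ^ n - (r ^ n - 1) = 1 by omega] at h2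
    exact hr.one_lt.ne' (Nat.dvd_one.mp h2)
  haveI : FiniteDimensional ℚ (IntermediateField.adjoin ℚ {ζ}) :=
    IntermediateField.adjoin.finiteDimensional (EllP.qbarIsAlgebraic.isAlgebraic ζ).isIntegral
  set F := IntermediateField.normalClosure ℚ
    (L ⊔ IntermediateField.adjoin ℚ {ζ} : IntermediateField ℚ ℚ̄) ℚ̄ with hF
  haveI : Normal ℚ ℚ̄ := GalCommon.normal_Qbar
  haveI : Normal ℚ F := normalClosure.normal ℚ _ ℚ̄
  haveI : FiniteDimensional ℚ F := normalClosure.is_finiteDimensional ℚ _ ℚ̄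
  have hleF : L ⊔ IntermediateField.adjoin ℚ {ζ} ≤ F := IntermediateField.le_normalClosure _
  have hζF : ζ ∈ F := hleF (le_sup_right (a := L) (IntermediateField.mem_adjoin_simple_self ℚ ζ))
  have hdec : ∀ g : Γ, ∃ i : ℕ, g • A = A →
      ∃ ι ∈ A.1.inertiaSubgroupIn ℚ, ∀ x ∈ F, g x = (φ ^ i * ι) x := fun g => by
    by_cases hg : g • A = A
    · obtain ⟨i, h⟩ := LocP.exists_eq_frob_pow_mul hA₀ hφ (decomposition_of_smul_eq hg) F
      exact ⟨i, fun _ => h⟩
    · exact ⟨0, fun h => absurd h hg⟩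
  choose e he using hdec
  have hroot : ∀ g, g • A = A → g ζ = ζ ^ r ^ e g := fun g hg => by
    obtain ⟨ι, hι, h⟩ := he g hg
    rw [h ζ hζF, AlgEquiv.mul_apply,
      GalCommon.inertia_apply_of_pow_eq_one hr hA₀ hrN hι hζ.pow_eq_one]
    clear h
    induction e g with
    | zero => simp
    | succ k ih =>
      rw [pow_succ' φ k, AlgEquiv.mul_apply, ih, map_pow,
        GalCommon.frobenius_apply_of_pow_eq_one hr hA₀ hrN hφ hζ.pow_eq_one, ← pow_mul,
        ← pow_succ']
  have hL' : ∀ g, g • A = A → ∃ s ∈ L.fixingSubgroup, g = φ ^ e g * s := fun g hg => by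
    obtain ⟨ι, hι, h⟩ := he g hg
    refine ⟨(φ ^ e g)⁻¹ * g, (IntermediateField.mem_fixingSubgroup_iff _ _).mpr fun x hx => ?_,
      (mul_inv_cancel_left _ _).symm⟩
    rw [AlgEquiv.mul_apply, h x (hleF (le_sup_left (b := IntermediateField.adjoin ℚ {ζ}) hx)),
      ← AlgEquiv.mul_apply, inv_mul_cancel_left]
    exact apply_fix hx (hL.unramified A hAS ι hι)
  have hmodN : ∀ a b : ℕ, ζ ^ a = ζ ^ b → a ≡ b [MOD r ^ n - 1] := fun a b h =>
    hζ.pow_inj (Nat.mod_lt _ (Nat.pos_of_ne_zero hN0)) (Nat.mod_lt _ (Nat.pos_of_ne_zero hN0))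
      (by rwa [← pow_eq_pow_mod a hζ.pow_eq_one, ← pow_eq_pow_mod b hζ.pow_eq_one])
  -- the cochain on the powers of Frobenius
  let Y : ℕ → M := fun i => -∑ k ∈ Finset.range i, z (φ ^ k, φ)
  have hc := (mem_cocycles₂_iff z).mp hz
  have hv : ∀ g, ∀ s ∈ L.fixingSubgroup, z (g, s) = 0 := fun g s hs =>
    (cocycle_vanish hz hz1 hzL g hs).1
  have hY : ∀ i j, Y (i + j) = Y i + M.ρ (φ ^ i) (Y j) - z (φ ^ i, φ ^ j) := by
    intro i j
    induction j with
    | zero => simp [Y, hv _ 1 (one_mem _)]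
    | succ j ih =>
      have h1 : Y (i + (j + 1)) = Y (i + j) - z (φ ^ (i + j), φ) := by
        simp only [Y, ← add_assoc, Finset.sum_range_succ, neg_add, sub_eq_add_neg]
      have h2 : Y (j + 1) = Y j - z (φ ^ j, φ) := by
        simp only [Y, Finset.sum_range_succ, neg_add, sub_eq_add_neg]
      have h3 := hc (φ ^ i) (φ ^ j) φ
      rw [← pow_add, ← pow_succ] at h3
      rw [h1, h2, ih, map_sub, eq_sub_iff_add_eq'.mpr h3]
      abel
  have hYn : Y n = 0 := by
    have hper : ∀ k, z (φ ^ (m + k), φ) = z (φ ^ k, φ) := fun k => by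
      have h := hzL (φ ^ k) φ (φ ^ m) 1 hmL (one_mem _)
      rwa [mul_one, ← pow_add, add_comm] at h
    have hper' : ∀ c k, z (φ ^ (c * m + k), φ) = z (φ ^ k, φ) := fun c k => by
      induction c with
      | zero => rw [zero_mul, zero_add]
      | succ c ih => rw [add_mul, one_mul, add_comm (c * m) m, add_assoc, hper, ih]
    have hsum : ∀ c : ℕ, ∑ k ∈ Finset.range (c * m), z (φ ^ k, φ) =
        c • ∑ k ∈ Finset.range m, z (φ ^ k, φ) := fun c => by
      induction c with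
      | zero => simp
      | succ c ih =>
        rw [add_mul, one_mul, Finset.sum_range_add, ih, succ_nsmul]
        simp only [hper']
    show -∑ k ∈ Finset.range (p * m), z (φ ^ k, φ) = 0
    rw [hsum, ← Nat.cast_smul_eq_nsmul (ZMod p), ZMod.natCast_self, zero_smul, neg_zero]
  have hnL : ∀ c, φ ^ (n * c) ∈ L.fixingSubgroup := fun c => by
    rw [hn, show p * m * c = m * (p * c) by ring, pow_mul]
    exact _root_.pow_mem hmL _
  have hYc : ∀ i c, Y (i + n * c) = Y i := fun i c => by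
    induction c with
    | zero => simp
    | succ c ih =>
      have h := hnL 1
      rw [mul_one] at h
      rw [mul_add, mul_one, ← add_assoc, hY, hYn, map_zero, add_zero, ih, hv _ _ h, sub_zero]
  have hYmod : ∀ i, Y i = Y (i % n) := fun i => by
    conv_lhs => rw [← Nat.mod_add_div i n, hYc]
  have hYeq : ∀ g h, g • A = A → h • A = A → g ζ = h ζ → Y (e g) = Y (e h) := fun g h hg hh e' => by
    rw [hYmod (e g), hYmod (e h)]
    refine congrArg _ (mod_eq_of_pow_modEq hr.two_le hn2 ?_)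
    rw [hroot g hg, hroot h hh] at e'
    exact hmodN _ _ e'
  refine ⟨A, F, hA₀, le_sup_left.trans hleF, ⟨⟨fun g => Y (e g), inferInstance, inferInstance,
    fun g h hg hh => ?_, fun g h hg hh e' => hYeq g h hg hh (e' ζ hζF), fun _ s hs => ?_⟩⟩⟩
  · obtain ⟨s, hs, hsg⟩ := hL' g hg
    obtain ⟨s', hs', hsh⟩ := hL' h hh
    have h1 : z (g, h) = z (φ ^ e g, φ ^ e h) := by
      conv_lhs => rw [hsg, hsh]
      exact hzL _ _ s s' hs hs'
    have h2 : M.ρ g (Y (e h)) = M.ρ (φ ^ e g) (Y (e h)) := by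
      conv_lhs => rw [hsg, map_mul, Module.End.mul_apply, rho_eq_self lv hact hle hs]
    have hgh : (g * h) • A = A := by rw [mul_smul, hh, hg]
    have h3 : Y (e (g * h)) = Y (e g + e h) := by
      rw [hYmod (e (g * h)), hYmod (e g + e h)]
      refine congrArg _ (mod_eq_of_pow_modEq hr.two_le hn2 ?_)
      have h4 := hroot (g * h) hgh
      rw [AlgEquiv.mul_apply, hroot h hh, map_pow, hroot g hg, ← pow_mul, ← pow_add] at h4
      exact (hmodN _ _ h4).symm
    rw [h1, h2, h3, hY]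
    abel
  · have hs' : s • A = A :=
      smul_eq_of_mem_decomposition (LocP.inertia_le_decomposition hs)
    have h0 : Y (e s) = Y (e 1) := hYeq s 1 hs' (one_smul _ _) (by
      rw [GalCommon.inertia_apply_of_pow_eq_one hr hA₀ hrN hs hζ.pow_eq_one, AlgEquiv.one_apply])
    have h1 : Y (e 1) = Y 0 := by
      rw [hYmod (e 1), hYmod 0]
      refine congrArg _ (mod_eq_of_pow_modEq hr.two_le hn2 ?_)
      have h4 := hroot 1 (one_smul _ _)
      rw [AlgEquiv.one_apply] at h4
      exact hmodN _ _ (h4.symm.trans (by rw [pow_zero, pow_one]))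
    show Y (e s) = 0
    rw [h0, h1]
    simp [Y]

include hact in
/-- Local solutions exist above every prime. -/
theorem exists_localSol (hp2 : p ≠ 2) {L : IntermediateField ℚ ℚ̄}
    (hL : IdeleSetting (natSet S) p L) (hle : lv.field ≤ L) {z : Γ × Γ → M}
    (hz : z ∈ levelCocyclesS₂ S M) (hsha : continuousH2Sπ S M ⟨z, hz⟩ ∈ sha₂ S M)
    (hz1 : z (1, 1) = 0)
    (hzL : ∀ g g' s s', s ∈ L.fixingSubgroup → s' ∈ L.fixingSubgroup →
      z (g * s, g' * s') = z (g, g'))
    {r : ℕ} (hr : r.Prime) :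
    ∃ A : Place, A.1.LiesOverPrime r ∧ Nonempty (LocalSol lv L z A) := by
  classical
  haveI := lv.finite_group
  haveI := DualMod.finite M
  haveI := hL.finite
  haveI := setting_normal hL
  haveI : L.fixingSubgroup.Normal := TW.normal_fixingSubgroup
  obtain ⟨A, F, hA, hLF, ⟨c⟩⟩ : ∃ (A : Place) (F : IntermediateField ℚ ℚ̄),
      A.1.LiesOverPrime r ∧ L ≤ F ∧ Nonempty (LocalCochain (S := S) F z A) := by
    by_cases hrS : r ∈ natSet S
    · have hq : (⟨r, hr⟩ : Nat.Primes) ∈ S := mem_natSet.mp hrS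
      exact exists_localCochain_of_mem lv hact hle hz hsha hzL hq
    · exact exists_localCochain_of_not_mem lv hact hL hle hz.1 hz1 hzL hr hrS
  haveI := c.finite
  haveI := c.normal
  refine ⟨A, hA, ?_⟩
  have hv := fun g s hs => cocycle_vanish (L := L) hz.1 hz1 hzL g (s := s) hs
  let P : Subgroup Γ := MulAction.stabilizer Γ A ⊓ L.fixingSubgroup
  have hq : ∀ s ∈ L.fixingSubgroup, lv.q s = 1 := fun s hs =>
    lv.mem_fix_field.mp (IntermediateField.fixingSubgroup_le hle hs)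
  have hkmem : ∀ m x, Additive.toMul (kapF M G m x) ∈ tUnits (natSet S) L := fun m x =>
    kapF_mem_tUnits lv hle m x
  have hadd : ∀ g s, g • A = A → s ∈ P → c.w (g * s) = c.w g + M.ρ g (c.w s) := fun g s hg hs => by
    have h := c.cocycle g s hg hs.1
    rw [(hv g s hs.2).1] at h
    rw [← sub_eq_zero]
    calc c.w (g * s) - (c.w g + M.ρ g (c.w s))
        = -(M.ρ g (c.w s) - c.w (g * s) + c.w g) := by abel
      _ = 0 := by rw [h, neg_zero]
  -- Hilbert 90 on `P`
  have hb : ∀ x : Coh.Free G (DualMod M), ∃ b : (ℚ̄)ˣ, (b : ℚ̄) ∈ F ∧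
      (¬ A.Over (natSet S) → b ∈ A.1.unitGroup) ∧
      ∀ s ∈ P, s • b / b = Additive.toMul (kapF M G (c.w s) x) := fun x => by
    obtain ⟨b, hbF, hb⟩ := exists_ninety P F (fun s => Additive.toMul (kapF M G (c.w s) x))
      (fun σ hσ τ hτ => by
        rw [hadd σ τ hσ.1 hτ, rho_eq_self lv hact hle hσ.2, map_add,
          smul_fix (hkmem (c.w τ) x).1 hσ.2]
        rfl)
      (fun σ hσ τ hτ h => congrArg (fun m => Additive.toMul (kapF M G m x))
        (c.const σ τ hσ.1 hτ.1 h))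
      (fun σ _ => hLF (hkmem _ x).1) fun σ _ y hy => mem_of_normal σ hy
    by_cases hAS : A.Over (natSet S)
    · exact ⟨b, hbF, fun h => absurd hAS h, hb⟩
    have hfix : ∀ σ ∈ A.1.inertiaSubgroupIn ℚ, σ (b : ℚ̄) = (b : ℚ̄) := fun σ hσ => by
      have hσP : σ ∈ P := ⟨smul_eq_of_mem_decomposition (LocP.inertia_le_decomposition hσ),
        hL.unramified A hAS σ hσ⟩
      have h := hb σ hσP
      rw [c.inertia hAS σ hσ, map_zero, AddMonoidHom.zero_apply, toMul_zero, div_eq_one] at h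
      exact congrArg Units.val h
    obtain ⟨k, hk⟩ := EllP.exists_valuation_eq_zpow hr hA b.ne_zero hfix
    let ρ : (ℚ̄)ˣ := Units.mk0 (r : ℚ̄) (Nat.cast_ne_zero.mpr hr.ne_zero) ^ k
    have hρ : (ρ : ℚ̄) = (r : ℚ̄) ^ k := by simp [ρ]
    refine ⟨b / ρ, ?_, fun _ => ?_, fun s hs => ?_⟩
    · rw [Units.val_div_eq_div_val, hρ]
      exact div_mem hbF (zpow_mem (natCast_mem F r) k)
    · rw [mem_unitGroup_iff, Units.val_div_eq_div_val, map_div₀, hρ, map_zpow₀, hk,
        div_self (zpow_ne_zero _ (by simp [hr.ne_zero]))]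
    · have hsρ : s • ρ = ρ := Units.ext (by
        show s (ρ : ℚ̄) = (ρ : ℚ̄)
        rw [hρ, map_zpow₀, map_natCast])
      rw [smul_div', hsρ, div_div_div_cancel_right, hb s hs]
  choose b hbF hbU hb using fun gn : G × DualMod M => hb (Coh.Free.of gn.1 gn.2)
  let u₀ : Coh.Free G (DualMod M) →+ 𝕌 :=
    Coh.Free.lift fun g n => Additive.ofMul (b (g, n))
  have hu₀ : ∀ s ∈ P, lv.conj s u₀ - u₀ = kapF M G (c.w s) := fun s hs =>
    Coh.Free.hom_ext fun g n => by
      rw [AddMonoidHom.sub_apply, lv.conj_apply, hq s hs.2, inv_one, one_smul]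
      simp only [u₀, Coh.Free.lift_of, actA_ofMul, ← ofMul_div]
      exact congrArg Additive.ofMul (hb (g, n) s hs)
  let y : Γ → (Coh.Free G (DualMod M) →+ 𝕌) := fun g =>
    kapF M G (c.w g) - (lv.conj g u₀ - u₀)
  have hyP : ∀ s ∈ P, y s = 0 := fun s hs => by
    show kapF M G (c.w s) - (lv.conj s u₀ - u₀) = 0
    rw [hu₀ s hs]
    exact sub_self (kapF M G (c.w s))
  have hdy : ∀ g h, g • A = A → h • A = A → lv.dC y g h = kapF M G (z (g, h)) := fun g h hg hh => by
    show lv.dC ((fun g => kapF M G (c.w g)) - fun g => lv.conj g u₀ - u₀) g h = _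
    rw [lv.dC_sub, lv.dC_coboundary, ← c.cocycle g h hg hh, map_add, map_sub,
      ← conj_kapF lv hact]
    exact sub_zero (lv.dC (fun g => kapF M G (c.w g)) g h)
  have hconst : ∀ g, g • A = A → ∀ s ∈ L.fixingSubgroup, s • A = A → y (g * s) = y g :=
    fun g hg s hs hsA => by
    have h := hdy g s hg hsA
    rw [(hv g s hs).1, map_zero, Level.dC, hyP s ⟨hsA, hs⟩, map_zero] at h
    refine AddMonoidHom.ext fun x => ?_
    have h' : (0 : 𝕌) - y (g * s) x + y g x = 0 := DFunLike.congr_fun h x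
    rwa [zero_sub, neg_add_eq_zero] at h'
  refine ⟨⟨y, -u₀.comp (Coh.Rel G (DualMod M)).subtype, hdy, hconst, fun g hg s hs hsA x => ?_,
    fun s hs hsA r' => ?_, fun g hg r' => ?_, fun hAS g hg x => ?_, fun hAS r' => ?_⟩⟩
  · have hs' : g⁻¹ * s * g ∈ L.fixingSubgroup := by
      simpa using Subgroup.Normal.conj_mem inferInstance s hs g⁻¹
    have hsA' : (g⁻¹ * s * g) • A = A := by
      rw [mul_smul, mul_smul, hg, hsA, inv_smul_eq_iff, hg]
    have hsg : y (s * g) = y g := by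
      rw [← hconst g hg _ hs' hsA']
      congr 1
      group
    have h := DFunLike.congr_fun (hdy s g hsA hg) x
    rw [(hv g s hs).2, map_zero, Level.dC, hyP s ⟨hsA, hs⟩, hsg] at h
    have h' : lv.conj s (y g) x - y g x + 0 = 0 := h
    rw [add_zero, sub_eq_zero, lv.conj_apply, hq s hs, inv_one, one_smul] at h'
    exact h'
  · have h := DFunLike.congr_fun (hu₀ s ⟨hsA, hs⟩) (r' : Coh.Free G (DualMod M))
    rw [kapF_rel, AddMonoidHom.sub_apply, sub_eq_zero, lv.conj_apply, hq s hs, inv_one,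
      one_smul] at h
    show actA s (-u₀ r') = -u₀ r'
    rw [map_neg, h]
  · show kapF M G (c.w g) r' - (lv.conj g u₀ r' - u₀ r') =
      actA g (-u₀ ((lv.q g)⁻¹ • (r' : Coh.Free G (DualMod M)))) - -u₀ r'
    rw [kapF_rel, map_neg, lv.conj_apply]
    abel
  · have hu : ∀ x, Additive.toMul (u₀ x) ∈ A.1.unitGroup := free_mem u₀ _ fun g' n => by
      simp only [u₀, Coh.Free.lift_of, toMul_ofMul]
      exact hbU (g', n) hAS
    show Additive.toMul (kapF M G (c.w g) x - (lv.conj g u₀ x - u₀ x)) ∈ _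
    rw [toMul_sub, toMul_sub, lv.conj_apply, toMul_actA]
    refine div_mem ((hkmem _ x).2 A hAS) (div_mem ?_ (hu x))
    rw [mem_unitGroup_iff]
    show A.1.valuation (g ((Additive.toMul (u₀ ((lv.q g)⁻¹ • x)) : (ℚ̄)ˣ) : ℚ̄)) = 1
    rw [LocP.val_map (decomposition_of_smul_eq hg)]
    exact mem_unitGroup_iff.mp (hu _)
  · show Additive.toMul (-u₀ r') ∈ _
    rw [toMul_neg]
    exact inv_mem (free_mem u₀ _ (fun g' n => by
      simp only [u₀, Coh.Free.lift_of, toMul_ofMul]
      exact hbU (g', n) hAS) r')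

end FLTAgent.PoitouTate
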