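import Fermat.Agent.PoitouTate.Connect.Hom
import Fermat.Agent.PoitouTate.Connect.Field

/-!
# The relation defining the connecting map

A datum `ConnData lv f z` lifts the classes `f : Rel → C_S` of the level to ideles at `S ∪ ∞` of a
field `L` unramified outside `S`; the Galois deviation of the lift is a one-cochain `e` of
`S`-units on the free module, whose differential is the two-cocycle `z` with values in `M`.
If `f` extends, up to local classes, to the free module, `z` is a level coboundary.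
-/

set_option autoImplicit false
set_option synthInstance.maxHeartbeats 200000
set_option linter.style.haveILetI false
set_option linter.unusedSectionVars false

noncomputable section

open CategoryTheory groupCohomology ExtCitation
open scoped Pointwise

namespace FLTAgent.PoitouTate

open FLTAgent.TW FLTAgent.TW.PreIdele

local notation "ℚ̄" => AlgebraicClosure ℚ
local notation "Γ" => (AlgebraicClosure ℚ ≃ₐ[ℚ] AlgebraicClosure ℚ)
local notation "𝕌" => Additive (AlgebraicClosure ℚ)ˣ
local notation "𝕁" => Additive PreIdele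

variable {p : ℕ} [Fact p.Prime] {S : Finset Nat.Primes} {G : Type} [Group G]

theorem setting_unramified {L : IntermediateField ℚ ℚ̄} (h : IdeleSetting (natSet S) p L) :
    L.IsUnramifiedOutside S :=
  ⟨h.finite, fun q hq A hA σ hσ => h.unramified ⟨A, q, q.2, hA⟩ (fun h' => hq (mem_natSet.mp
    (Place.char_eq (⟨A, q, q.2, hA⟩ : Place) q.2 hA ▸ (Place.over_iff _).mp h'))) σ hσ⟩

theorem exists_setting_of_unramified {L F : IntermediateField ℚ ℚ̄}
    (h : IdeleSetting (natSet S) p L) (hF : F.IsUnramifiedOutside S) :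
    ∃ L' : IntermediateField ℚ ℚ̄, L ≤ L' ∧ F ≤ L' ∧ IdeleSetting (natSet S) p L' :=
  haveI := hF.1
  exists_setting_extend h subset_rfl h.prime F fun A hA σ hσ => by
    obtain ⟨q, hq, hA'⟩ := A.2
    exact hF.2 ⟨q, hq⟩ (fun h' => hA ⟨q, mem_natSet.mpr h', hq, hA'⟩) A.1 hA' hσ

/-- Values at the basis decide the values. -/
theorem free_mem {N A : Type} [AddCommGroup N] [DistribMulAction G N] [CommGroup A]
    (φ : Coh.Free G N →+ Additive A) (U : Subgroup A)
    (h : ∀ g n, Additive.toMul (φ (Coh.Free.of g n)) ∈ U) (x : Coh.Free G N) :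
    Additive.toMul (φ x) ∈ U := by
  have h0 : (QuotientGroup.mk' U).toAdditive.comp φ = 0 := Coh.Free.hom_ext fun g n =>
    congrArg Additive.ofMul ((QuotientGroup.eq_one_iff _).mpr (h g n))
  exact (QuotientGroup.eq_one_iff _).mp (congrArg Additive.toMul (DFunLike.congr_fun h0 x))

/-- `prinT` on additively written groups. -/
def prinA (T : Finset ℕ) : 𝕌 →+ 𝕁 := (prinT T).toAdditive

theorem prinA_injective (T : Finset ℕ) : Function.Injective (prinA T) :=
  fun _ _ h => prinT_injective h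

theorem toMul_prinA (T : Finset ℕ) (u : 𝕌) :
    Additive.toMul (prinA T u) = prinT T (Additive.toMul u) := rfl

theorem prinA_comp_injective (T : Finset ℕ) {X : Type} [AddCommGroup X] {u v : X →+ 𝕌}
    (h : (prinA T).comp u = (prinA T).comp v) : u = v :=
  AddMonoidHom.ext fun x => prinA_injective T (DFunLike.congr_fun h x)

theorem exists_hom_of_prinT {T : Finset ℕ} {L : IntermediateField ℚ ℚ̄} {X : Type}
    [AddCommGroup X] (φ : X →+ 𝕁)
    (h : ∀ x, ∃ u ∈ tUnits T L, prinT T u = Additive.toMul (φ x)) :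
    ∃ u : X →+ 𝕌, (∀ x, Additive.toMul (u x) ∈ tUnits T L) ∧ (prinA T).comp u = φ := by
  choose u hu hu' using h
  refine ⟨AddMonoidHom.mk' (fun x => Additive.ofMul (u x)) fun x y => ?_, hu,
    AddMonoidHom.ext fun x => congrArg Additive.ofMul (hu' x)⟩
  exact congrArg Additive.ofMul (prinT_injective
    (show prinT T (u (x + y)) = prinT T (u x * u y) by rw [map_mul, hu', hu', hu', map_add]; rfl))

variable {M : Rep.{0} (ZMod p) Γ} (lv : Level (natSet S) p G)

theorem conj_prinA {X : Type} [AddCommGroup X] [DistribMulAction G X] (T : Finset ℕ) (σ : Γ)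
    (u : X →+ 𝕌) : lv.conj σ ((prinA T).comp u) = (prinA T).comp (lv.conj σ u) :=
  lv.conj_comp_hom (fun σ a => smul_prinT σ a) σ u

theorem conj_fixed {X : Type} [AddCommGroup X] [DistribMulAction G X] {A : Type} [CommGroup A]
    [MulDistribMulAction Γ A] {L : IntermediateField ℚ ℚ̄} (hle : lv.field ≤ L)
    {φ : X →+ Additive A} (hφ : ∀ x, ∀ s ∈ L.fixingSubgroup,
      s • Additive.toMul (φ x) = Additive.toMul (φ x)) (σ : Γ) {s : Γ}
    (hs : s ∈ L.fixingSubgroup) : lv.conj (σ * s) φ = lv.conj σ φ := by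
  rw [lv.conj_mul, lv.conj_eq_self (lv.mem_fix_field.mp (IntermediateField.fixingSubgroup_le hle hs))
    fun x => congrArg Additive.ofMul (hφ x s hs)]

/-- The class in `C_T(L)` of a class of the level. -/
def clIn {T : Finset ℕ} {L : IntermediateField ℚ ℚ̄} (hle : lv.field ≤ L) :
    lv.Cl T →+ Additive (PreIdele ⧸ classKer T L) :=
  (QuotientGroup.lift ((classKer T lv.field).subgroupOf (ideles lv.field))
    ((QuotientGroup.mk' (classKer T L)).comp (ideles lv.field).subtype) fun _ hφ =>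
      (QuotientGroup.eq_one_iff _).mpr (classKer_mono' hle hφ)).toAdditive

/-- The class in `C_T(L)` of a pre-idele. -/
def clPre (T : Finset ℕ) (L : IntermediateField ℚ ℚ̄) : 𝕁 →+ Additive (PreIdele ⧸ classKer T L) :=
  (QuotientGroup.mk' (classKer T L)).toAdditive

theorem clPre_eq_zero_iff {T : Finset ℕ} {L : IntermediateField ℚ ℚ̄} (φ : 𝕁) :
    clPre T L φ = 0 ↔ Additive.toMul φ ∈ classKer T L :=
  QuotientGroup.eq_one_iff _

theorem clPre_eq_iff {T : Finset ℕ} {L : IntermediateField ℚ ℚ̄} (φ ψ : 𝕁) :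
    clPre T L φ = clPre T L ψ ↔ Additive.toMul φ / Additive.toMul ψ ∈ classKer T L := by
  rw [← sub_eq_zero, ← map_sub, clPre_eq_zero_iff, toMul_sub]

theorem clIn_classOf {T : Finset ℕ} {L : IntermediateField ℚ ℚ̄} (hle : lv.field ≤ L)
    (φ : ideles lv.field) : clIn lv hle (lv.classOf (classKer T lv.field) φ) =
      clPre T L (Additive.ofMul φ.1) := rfl

/-- A lift of equivariant classes is equivariant up to classes. -/
theorem conj_sub_mem {T : Finset ℕ} {L : IntermediateField ℚ ℚ̄} [Normal ℚ L]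
    (hle : lv.field ≤ L) {X : Type} [AddCommGroup X] [DistribMulAction G X] {c : X →+ lv.Cl T}
    (hc : c ∈ Coh.eqHom G X (lv.Cl T)) (k : ℕ) (D : X →+ 𝕁)
    (h : ∀ x, clPre T L (D x) = k • clIn lv hle (c x)) (σ : Γ) (x : X) :
    Additive.toMul ((lv.conj σ D - D) x) ∈ classKer T L := by
  obtain ⟨φ, hφ⟩ := lv.classOf_surjective (classKer T lv.field) (c x)
  have h1 : c ((lv.q σ)⁻¹ • x) =
      lv.classOf _ ⟨σ⁻¹ • φ.1, smul_mem_ideles σ⁻¹ φ.2⟩ := by
    rw [hc, ← hφ, lv.smul_classOf _ (map_inv lv.q σ)]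
  have h2 := h ((lv.q σ)⁻¹ • x)
  rw [h1, clIn_classOf, ← map_nsmul, clPre_eq_iff] at h2
  have h3 := h x
  rw [← hφ, clIn_classOf, ← map_nsmul, clPre_eq_iff] at h3
  have h4 := smul_mem_classKer σ h2
  rw [toMul_nsmul, toMul_ofMul, smul_div', smul_pow', smul_inv_smul] at h4
  rw [AddMonoidHom.sub_apply, toMul_sub, lv.conj_apply, toMul_actA]
  have h5 := div_mem h4 h3
  rwa [toMul_nsmul, toMul_ofMul, div_div_div_cancel_right] at h5

/-- A lift of classes at `S` and the cocycle of its deviation. -/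
structure ConnData [DistribMulAction G (DualMod M)]
    (f : Coh.Rel G (DualMod M) →+ lv.Cl (natSet S)) (z : Γ × Γ → M) where
  /-- The field. -/
  L : IntermediateField ℚ ℚ̄
  setting : IdeleSetting (natSet S) p L
  le : lv.field ≤ L
  /-- The lift. -/
  D : Coh.Rel G (DualMod M) →+ 𝕁
  D_mem : ∀ y, Additive.toMul (D y) ∈ locIdeles (natSet S) L
  D_cls : ∀ y, clPre (natSet S) L (D y) = clIn lv le (f y)
  /-- The deviation. -/
  e : Γ → (Coh.Free G (DualMod M) →+ 𝕌)
  e_mem : ∀ σ x, Additive.toMul (e σ x) ∈ tUnits (natSet S) L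
  e_const : ∀ σ, ∀ s ∈ L.fixingSubgroup, e (σ * s) = e σ
  D_conj : ∀ σ, lv.conj σ D - D =
    (prinA (natSet S)).comp ((e σ).comp (Coh.Rel G (DualMod M)).subtype)
  e_cocycle : ∀ σ τ, kapF M G (z (σ, τ)) = lv.dC e σ τ

variable [DistribMulAction G (DualMod M)]
  (hact : ∀ (σ : Γ) (f : DualMod M),
    lv.q σ • f = DualMod.of ((M.dualTwist (cycloChar p)).ρ σ (DualMod.val f)))

namespace ConnData

variable {lv} {f f' : Coh.Rel G (DualMod M) →+ lv.Cl (natSet S)} {z z' : Γ × Γ → M}

/-- The datum over a larger field. -/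
def enlarge (d : ConnData lv f z) {L' : IntermediateField ℚ ℚ̄} (h : d.L ≤ L')
    (hL' : IdeleSetting (natSet S) p L') : ConnData lv f z where
  L := L'
  setting := hL'
  le := d.le.trans h
  D := d.D
  D_mem y := locIdeles_mono h (d.D_mem y)
  D_cls y := by
    obtain ⟨φ, hφ⟩ := lv.classOf_surjective (classKer (natSet S) lv.field) (f y)
    have h1 := d.D_cls y
    rw [← hφ, clIn_classOf, clPre_eq_iff] at h1 ⊢
    exact classKer_mono' h h1
  e := d.e
  e_mem σ x := tUnits_mono h (d.e_mem σ x)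
  e_const σ s hs := d.e_const σ s (IntermediateField.fixingSubgroup_le h hs)
  D_conj := d.D_conj
  e_cocycle := d.e_cocycle

theorem exists_sub (d : ConnData lv f z) (d' : ConnData lv f' z') :
    Nonempty (ConnData lv (f - f') (z - z')) := by
  obtain ⟨L', h1, h2, h3⟩ := exists_setting_sup d.setting d'.setting
  let a := d.enlarge h1 h3
  let b := d'.enlarge h2 h3
  have hle : lv.field ≤ L' := d.le.trans h1
  refine ⟨⟨L', h3, hle, a.D - b.D, fun y => div_mem (a.D_mem y) (b.D_mem y), fun y => ?_,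
    a.e - b.e, fun σ x => div_mem (a.e_mem σ x) (b.e_mem σ x), fun σ s hs => ?_, fun σ => ?_,
    fun σ τ => ?_⟩⟩
  · have ha : clPre (natSet S) L' (a.D y) = clIn lv hle (f y) := a.D_cls y
    have hb : clPre (natSet S) L' (b.D y) = clIn lv hle (f' y) := b.D_cls y
    rw [AddMonoidHom.sub_apply, map_sub, ha, hb, AddMonoidHom.sub_apply, map_sub]
  · show a.e (σ * s) - b.e (σ * s) = a.e σ - b.e σ
    rw [a.e_const σ s hs, b.e_const σ s hs]
  · show _ = (prinA (natSet S)).comp ((a.e σ - b.e σ).comp (Coh.Rel G (DualMod M)).subtype)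
    rw [map_sub, AddMonoidHom.sub_comp, AddMonoidHom.comp_sub, ← a.D_conj, ← b.D_conj]
    abel
  · rw [Pi.sub_apply, map_sub, lv.dC_sub, a.e_cocycle, b.e_cocycle]

theorem exists_nsmul (k : ℕ) (d : ConnData lv f z) : Nonempty (ConnData lv (k • f) (k • z)) := by
  refine ⟨⟨d.L, d.setting, d.le, k • d.D, fun y => pow_mem (d.D_mem y) k, fun y => ?_,
    k • d.e, fun σ x => pow_mem (d.e_mem σ x) k, fun σ s hs => ?_, fun σ => ?_, fun σ τ => ?_⟩⟩
  · rw [AddMonoidHom.nsmul_apply, map_nsmul, d.D_cls, AddMonoidHom.nsmul_apply, map_nsmul]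
  · show k • d.e (σ * s) = k • d.e σ
    rw [d.e_const σ s hs]
  · rw [map_nsmul, ← nsmul_sub, d.D_conj]
    exact AddMonoidHom.ext fun y => (map_nsmul (prinA (natSet S)) k _).symm
  · rw [Pi.smul_apply, map_nsmul, lv.dC_nsmul, d.e_cocycle]

include hact in
theorem mem_levelCocycles (d : ConnData lv f z) : z ∈ levelCocyclesS₂ S M := by
  haveI := setting_normal d.setting
  refine ⟨cocycle_of_dC lv hact d.e_cocycle, d.L, setting_unramified d.setting,
    fun g g' s s' hs hs' => kapF_injective (G := G) ?_⟩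
  rw [d.e_cocycle, d.e_cocycle]
  show lv.conj (g * s) (d.e (g' * s')) - d.e (g * s * (g' * s')) + d.e (g * s) = _
  haveI : d.L.fixingSubgroup.Normal := TW.normal_fixingSubgroup
  have hc : g'⁻¹ * s * g' * s' ∈ d.L.fixingSubgroup :=
    mul_mem (by simpa using Subgroup.Normal.conj_mem inferInstance s hs g'⁻¹) hs'
  rw [show g * s * (g' * s') = g * g' * (g'⁻¹ * s * g' * s') by group, d.e_const g' s' hs',
    d.e_const g s hs, d.e_const _ _ hc,
    conj_fixed lv d.le (fun x t ht => smul_fix (d.e_mem g' x).1 ht) g hs]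
  rfl

include hact in
/-- Local classes and extensions to the free module give coboundaries. -/
theorem mem_levelCoboundaries [FiniteDimensional (ZMod p) M] (d : ConnData lv f z)
    {g₀ : Coh.Rel G (DualMod M) →+ lv.LocMod (natSet S)}
    (hg₀ : g₀ ∈ Coh.eqHom G (Coh.Rel G (DualMod M)) (lv.LocMod (natSet S)))
    {E₀ : Coh.Free G (DualMod M) →+ lv.Cl (natSet S)}
    (hE₀ : E₀ ∈ Coh.eqHom G (Coh.Free G (DualMod M)) (lv.Cl (natSet S)))
    (hf : ∀ y, f y = lv.toCl (natSet S) (natSet S) (g₀ y) + E₀ y) :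
    z ∈ levelCoboundariesS₂ S M := by
  classical
  haveI := lv.finite_group
  haveI := DualMod.finite M
  choose φ hφ using fun b : G × DualMod M =>
    lv.classOf_surjective (classKer (natSet S) lv.field) (E₀ (Coh.Free.of b.1 b.2))
  obtain ⟨k, L', x, hk, hLL', hL', hxL, hx⟩ := exists_capitulate_finset d.setting
    (fun b => (φ b).1) fun b => ideles_le_of_le d.le (φ b).2
  haveI := setting_normal hL'
  let a := d.enlarge hLL' hL'
  have hle : lv.field ≤ L' := d.le.trans hLL'
  -- the lift of `E₀` at the power `k`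
  let ψ : G × DualMod M → PreIdele := fun b => (φ b).1 ^ k / principalHom (x b)
  have hψ : ∀ b, ψ b ∈ ideles L' := fun b => div_mem (pow_mem (ideles_le_of_le (d.le.trans hLL')
    (φ b).2) k) (principalHom_mem_ideles (hxL b))
  let Et : Coh.Free G (DualMod M) →+ 𝕁 :=
    Coh.Free.lift fun g n => Additive.ofMul (truncT (natSet S) (ψ (g, n)))
  have hEt : ∀ y, Additive.toMul (Et y) ∈ locIdeles (natSet S) L' := free_mem Et _ fun g n => by
    simp only [Et, Coh.Free.lift_of]
    exact truncT_mem (hψ (g, n))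
  have hEc : ∀ y, clPre (natSet S) L' (Et y) = k • clIn lv hle (E₀ y) := fun y =>
    DFunLike.congr_fun (f := (clPre (natSet S) L').comp Et) (g := k • (clIn lv hle).comp E₀)
      (Coh.Free.hom_ext fun g n => by
        show clPre (natSet S) L' (Et (Coh.Free.of g n)) = k • clIn lv hle (E₀ (Coh.Free.of g n))
        rw [← hφ (g, n), clIn_classOf, ← map_nsmul, clPre_eq_iff, toMul_nsmul, toMul_ofMul]
        simp only [Et, Coh.Free.lift_of, toMul_ofMul]
        have h1 := div_truncT_mem (T := natSet S) (hψ (g, n)) fun A hA => by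
          show ((φ (g, n)).1 ^ k).fin A / x (g, n) ∈ _
          rw [fin_pow]
          exact hx (g, n) A hA
        have h2 : truncT (natSet S) (ψ (g, n)) / (φ (g, n)).1 ^ k =
            (PreIdele.principalHom (x (g, n)) * (ψ (g, n) / truncT (natSet S) (ψ (g, n))))⁻¹ := by
          simp only [ψ]
          apply Additive.ofMul.injective
          simp only [ofMul_div, ofMul_inv, ofMul_mul]
          abel
        rw [h2]
        exact inv_mem (Subgroup.mul_mem_sup ⟨x (g, n), hxL (g, n), rfl⟩ h1)) y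
  -- its deviation
  choose w hw hw' using fun σ : Γ => exists_hom_of_prinT (lv.conj σ Et - Et) fun y =>
    exists_tUnit_of_classKer (L := L') (fun A hA => (div_mem (by
      rw [lv.conj_apply, toMul_actA]
      exact smul_mem_locIdeles σ (hEt _)) (hEt y)).2 A hA)
      (conj_sub_mem lv hle hE₀ k Et hEc σ y)
  have hwc : ∀ σ, ∀ s ∈ L'.fixingSubgroup, w (σ * s) = w σ := fun σ s hs =>
    prinA_comp_injective _ (by
      rw [hw', hw', conj_fixed lv hle (fun y t ht => (hEt y).1.1 t ht) σ hs])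
  have hwd : ∀ σ τ, lv.dC w σ τ = 0 := fun σ τ => prinA_comp_injective (natSet S) (by
    rw [AddMonoidHom.comp_zero]
    refine (lv.dC_hom (j := prinT (natSet S)) smul_prinT w σ τ).symm.trans ?_
    rw [show (fun ρ => (prinT (natSet S)).toAdditive.comp (w ρ)) = fun ρ => lv.conj ρ Et - Et from
      funext hw']
    exact lv.dC_coboundary Et σ τ)
  -- the local part
  let gt : Coh.Rel G (DualMod M) →+ 𝕁 := AddMonoidHom.mk'
    (fun y => Additive.ofMul (lv.locVal (g₀ y))) fun y y' => by rw [map_add, lv.locVal_add]; rfl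
  have hgt : ∀ y, clPre (natSet S) L' (gt y) =
      clIn lv hle (lv.toCl (natSet S) (natSet S) (g₀ y)) := fun y => rfl
  have hgtc : ∀ σ, lv.conj σ gt = gt := fun σ => AddMonoidHom.ext fun y => by
    rw [lv.conj_apply]
    refine congrArg Additive.ofMul ?_
    show σ • lv.locVal (g₀ ((lv.q σ)⁻¹ • y)) = lv.locVal (g₀ y)
    rw [hg₀, lv.locVal_smul (map_inv lv.q σ), smul_inv_smul]
  let D' : Coh.Rel G (DualMod M) →+ 𝕁 :=
    k • (a.D - gt) - Et.comp (Coh.Rel G (DualMod M)).subtype
  have hD' : ∀ y, clPre (natSet S) L' (D' y) = 0 := fun y => by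
    have ha : clPre (natSet S) L' (a.D y) = clIn lv hle (f y) := a.D_cls y
    show clPre _ _ (k • (a.D y - gt y) - Et y) = 0
    rw [map_sub, map_nsmul, map_sub, hEc, ha, hgt, hf, map_add]
    simp
  obtain ⟨x₀, hx₀, hx₀'⟩ := exists_hom_of_prinT D' fun y =>
    exists_tUnit_of_classKer (L := L') (fun A hA => (div_mem (pow_mem (div_mem (a.D_mem y)
      (locIdeles_mono hle (lv.locVal_mem (g₀ y)))) k) (hEt y)).2 A hA)
      ((clPre_eq_zero_iff _).mp (hD' y))
  let e' : Γ → (Coh.Free G (DualMod M) →+ 𝕌) := k • a.e - w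
  have he' : ∀ σ, (e' σ).comp (Coh.Rel G (DualMod M)).subtype = lv.conj σ x₀ - x₀ := fun σ => by
    refine prinA_comp_injective (natSet S) ?_
    rw [AddMonoidHom.comp_sub, ← conj_prinA, hx₀']
    simp only [D', map_sub, map_nsmul, hgtc, lv.conj_comp_eqHom Coh.subtype_mem_eqHom]
    refine AddMonoidHom.ext fun y => ?_
    have h1 := DFunLike.congr_fun (a.D_conj σ) y
    have h2 := DFunLike.congr_fun (hw' σ) (y : Coh.Free G (DualMod M))
    simp only [AddMonoidHom.sub_apply, AddMonoidHom.comp_apply, AddMonoidHom.nsmul_apply,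
      AddSubgroup.subtype_apply, e', Pi.sub_apply, Pi.smul_apply, map_sub, map_nsmul] at h1 h2 ⊢
    rw [← h1, h2, nsmul_sub, nsmul_sub, nsmul_sub]
    abel
  -- extend to the free module
  obtain ⟨xt, hxt⟩ := exists_extend (Coh.Rel G (DualMod M)) x₀
  obtain ⟨L'', hL'L'', hL'', hroot⟩ := exists_setting_roots hL'
    (fun b : G × DualMod M => Additive.toMul (xt (Coh.Free.of b.1 b.2))) fun b => by
      rw [← toMul_nsmul, ← map_nsmul]
      have hm : p • (Coh.Free.of b.1 b.2 : Coh.Free G (DualMod M)) ∈ Coh.Rel G (DualMod M) := by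
        rw [Coh.mem_rel_iff, map_nsmul, DualMod.nsmul_eq_zero]
      rw [show xt (p • Coh.Free.of b.1 b.2) = x₀ ⟨_, hm⟩ from hxt ⟨_, hm⟩]
      exact hx₀ _
  haveI := setting_normal hL''
  have hxtm : ∀ y, Additive.toMul (xt y) ∈ tUnits (natSet S) L'' :=
    free_mem xt _ fun g n => hroot (g, n)
  let e'' : Γ → (Coh.Free G (DualMod M) →+ 𝕌) := e' - fun σ => lv.conj σ xt - xt
  have he'' : ∀ σ (y : Coh.Rel G (DualMod M)), e'' σ y = 0 := fun σ y => by
    have h1 := DFunLike.congr_fun (he' σ) y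
    have h2 : lv.conj σ xt (y : Coh.Free G (DualMod M)) = lv.conj σ x₀ y := by
      rw [lv.conj_apply, lv.conj_apply]
      exact congrArg _ (hxt ((lv.q σ)⁻¹ • y))
    show e' σ y - (lv.conj σ xt (y : Coh.Free G (DualMod M)) - xt y) = 0
    rw [show e' σ y = lv.conj σ x₀ y - x₀ y from h1, h2, hxt, sub_self]
  choose w' hw'' using fun σ => exists_kapF_eq (e'' σ) (he'' σ)
  have hlev : IsLevelConstantS₁ S w' := ⟨L'', setting_unramified hL'', fun g s hs =>
    kapF_injective (G := G) (by
      have hs' := IntermediateField.fixingSubgroup_le hL'L'' hs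
      rw [hw'', hw'']
      show k • a.e (g * s) - w (g * s) - (lv.conj (g * s) xt - xt) = _
      rw [a.e_const g s hs', hwc g s hs', conj_fixed lv (hle.trans hL'L'')
        (fun y t ht => smul_fix (hxtm y).1 ht) g hs]
      rfl)⟩
  have hkz : k • z ∈ levelCoboundariesS₂ S M := by
    refine (mem_levelCoboundariesS₂_iff S M _).mpr ⟨w', hlev, funext fun ⟨σ, τ⟩ => ?_⟩
    rw [d₁₂_hom_apply]
    refine kapF_injective (G := G) ?_
    rw [map_add, map_sub, ← conj_kapF lv hact, hw'', hw'', hw'', Pi.smul_apply, map_nsmul]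
    show lv.dC e'' σ τ = _
    rw [show e'' = e' - fun σ => lv.conj σ xt - xt from rfl, lv.dC_sub, lv.dC_coboundary]
    refine (sub_zero (lv.dC e' σ τ)).trans ?_
    show lv.dC (k • a.e - w) σ τ = _
    rw [lv.dC_sub, lv.dC_nsmul, hwd, ← a.e_cocycle]
    exact (sub_zero (k • kapF M G (z (σ, τ))) :)
  have hk0 : (k : ZMod p) ≠ 0 := fun h => hk ((ZMod.natCast_eq_zero_iff k p).mp h)
  rw [← Nat.cast_smul_eq_nsmul (ZMod p)] at hkz
  have := (levelCoboundariesS₂ S M).smul_mem (k : ZMod p)⁻¹ hkz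
  rwa [smul_smul, inv_mul_cancel₀ hk0, one_smul] at this

end ConnData

end FLTAgent.PoitouTate
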