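import Fermat.Agent.PoitouTate.Connect.Kernel
import Fermat.Agent.PoitouTate.Cohomology

/-!
# Splitting cochains with values in idele classes

A crossed homomorphism of a subgroup becomes, multiplied by the index of a `p`-Sylow subgroup, a
coboundary, and a lift of classes whose deviations vanish defines classes of the level.
-/

set_option autoImplicit false
set_option synthInstance.maxHeartbeats 200000
set_option linter.style.haveILetI false
set_option linter.unusedSectionVars false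

noncomputable section

open CategoryTheory groupCohomology ExtCitation
open scoped Pointwise

namespace FLTAgent.PoitouTate

open FLTAgent.TW FLTAgent.TW.PreIdele

local notation "ℚ̄" => AlgebraicClosure ℚ
local notation "Γ" => (AlgebraicClosure ℚ ≃ₐ[ℚ] AlgebraicClosure ℚ)
local notation "𝕁" => Additive PreIdele

/-- Averaging over the cosets of a subgroup on which `H¹` vanishes. -/
theorem exists_nsmul_coboundary {Q C : Type} [Group Q] [Finite Q] [AddCommGroup C]
    [DistribMulAction Q C] {P U : Subgroup Q} (hPU : P ≤ U) (hP : Coh.H1Zero P C) (a : Q → C)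
    (ha : ∀ u ∈ U, ∀ v ∈ U, a (u * v) = a u + u • a v) :
    ∃ b : C, ∀ u ∈ U, (P.relIndex U) • a u = u • b - b := by
  classical
  obtain ⟨w, hw⟩ := hP (fun g : P => a g.1) fun g h => ha _ (hPU g.2) _ (hPU h.2)
  let a' : Q → C := fun u => a u - (u • w - w)
  have ha' : ∀ u ∈ U, ∀ v ∈ U, a' (u * v) = a' u + u • a' v := fun u hu v hv => by
    simp only [a', ha u hu v hv, smul_sub, mul_smul]
    abel
  have ha'P : ∀ g ∈ P, a' g = 0 := fun g hg => sub_eq_zero.mpr (hw ⟨g, hg⟩)
  haveI : Fintype (U ⧸ P.subgroupOf U) := Fintype.ofFinite _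
  let s : U ⧸ P.subgroupOf U → C := fun c => a' ((Quotient.out c : U) : Q)
  have hs : ∀ v : U, s (QuotientGroup.mk v) = a' v := fun v => by
    obtain ⟨t, ht⟩ := QuotientGroup.mk_out_eq_mul (P.subgroupOf U) v
    show a' ((Quotient.out (QuotientGroup.mk v : U ⧸ P.subgroupOf U) : U) : Q) = a' v
    rw [ht, Subgroup.coe_mul, ha' _ v.2 _ (t : U).2, ha'P _ (Subgroup.mem_subgroupOf.mp t.2), smul_zero, add_zero]
  refine ⟨(P.relIndex U) • w - ∑ c, s c, fun u hu => ?_⟩
  have hshift : ∑ c, s ((⟨u, hu⟩ : U) • c) = ∑ c, s c :=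
    Fintype.sum_equiv (MulAction.toPerm (⟨u, hu⟩ : U)) _ _ fun _ => rfl
  have hterm : ∀ c, s ((⟨u, hu⟩ : U) • c) = a' u + u • s c := fun c => by
    conv_lhs => rw [← QuotientGroup.out_eq' c]
    rw [MulAction.Quotient.smul_mk, hs]
    exact ha' u hu _ (Quotient.out c).2
  simp only [hterm, Finset.sum_add_distrib, Finset.sum_const, Finset.card_univ, ← Finset.smul_sum]
    at hshift
  rw [show Fintype.card (U ⧸ P.subgroupOf U) = P.relIndex U from
    Nat.card_eq_fintype_card.symm] at hshift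
  have h2 : (P.relIndex U) • a' u = (∑ c, s c) - u • ∑ c, s c := eq_sub_of_add_eq hshift
  simp only [a', nsmul_sub] at h2
  rw [smul_sub, sub_eq_iff_eq_add.mp h2, smul_comm u (P.relIndex U) w]
  abel

section Conj

variable {S : Finset ℕ} {p : ℕ} {G : Type} [Group G] (lv : Level S p G) {N : Type} [AddCommGroup N]
  [DistribMulAction G N] {A : Type} [CommGroup A] [MulDistribMulAction Γ A]

/-- A cocycle which splits at the identity coset splits. -/
theorem exists_split (e : Γ → (Coh.Free G N →+ Additive A)) (hd : ∀ σ τ, lv.dC e σ τ = 0)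
    (β : N → Additive A)
    (hβ : ∀ n, ∀ σ, lv.q σ = 1 → e σ (Coh.Free.of 1 n) = actA σ (β n) - β n) :
    ∃ u : Coh.Free G N →+ Additive A, ∀ σ, lv.conj σ u - u = e σ := by
  have hcoc : ∀ σ τ x, e (σ * τ) x = actA σ (e τ ((lv.q σ)⁻¹ • x)) + e σ x := fun σ τ x => by
    have h := DFunLike.congr_fun (hd σ τ) x
    simp only [Level.dC, AddMonoidHom.add_apply, AddMonoidHom.sub_apply, AddMonoidHom.zero_apply,
      lv.conj_apply] at h
    refine sub_eq_zero.mp ?_
    calc e (σ * τ) x - (actA σ (e τ ((lv.q σ)⁻¹ • x)) + e σ x)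
        = -(actA σ (e τ ((lv.q σ)⁻¹ • x)) - e (σ * τ) x + e σ x) := by abel
      _ = 0 := by rw [h, neg_zero]
  let u : Coh.Free G N →+ Additive A := Coh.Free.lift fun g n =>
    actA (lv.lift g) (β n) - e (lv.lift g) (Coh.Free.of g n)
  have hu : ∀ (g : G) n (σ : Γ), lv.q σ = g →
      u (Coh.Free.of g n) = actA σ (β n) - e σ (Coh.Free.of g n) := by
    intro g n σ hσ
    have h1 : actA ((lv.lift g)⁻¹ * σ) (β n) =
        e ((lv.lift g)⁻¹ * σ) (Coh.Free.of 1 n) + β n := by
      rw [← sub_eq_iff_eq_add, hβ n _ (by rw [map_mul, map_inv, lv.q_lift, hσ, inv_mul_cancel])]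
    have h2 := hcoc (lv.lift g) ((lv.lift g)⁻¹ * σ) (Coh.Free.of g n)
    rw [mul_inv_cancel_left, lv.q_lift, Coh.Free.smul_of, inv_mul_cancel] at h2
    have h3 : actA σ (β n) = actA (lv.lift g) (actA ((lv.lift g)⁻¹ * σ) (β n)) := by
      rw [← actA_mul, mul_inv_cancel_left]
    simp only [u, Coh.Free.lift_of]
    rw [h3, h1, map_add, h2]
    abel
  refine ⟨u, fun σ => Coh.Free.hom_ext fun g n => ?_⟩
  obtain ⟨ρ, rfl⟩ := lv.surj g
  rw [AddMonoidHom.sub_apply, lv.conj_apply, Coh.Free.smul_of, ← map_inv, ← map_mul,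
    hu _ n (σ⁻¹ * ρ) rfl, hu _ n ρ rfl, map_sub, ← actA_mul, mul_inv_cancel_left]
  have h := hcoc σ (σ⁻¹ * ρ) (Coh.Free.of (lv.q ρ) n)
  rw [mul_inv_cancel_left, Coh.Free.smul_of, ← map_inv, ← map_mul] at h
  rw [h]
  abel

end Conj

variable {p : ℕ} [Fact p.Prime] {S : Finset Nat.Primes} {G : Type} [Group G]
  (lv : Level (natSet S) p G)

/-- Ideles with deviations in `classKer` give classes of the level. -/
theorem exists_classes_of_deviation {T : Finset ℕ} {L : IntermediateField ℚ ℚ̄}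
    (hL : IdeleSetting T p L) (hle : lv.field ≤ L) {X : Type} [AddCommGroup X]
    [DistribMulAction G X] (ψ : X →+ 𝕁) (hψ : ∀ x, Additive.toMul (ψ x) ∈ ideles L)
    (hdev : ∀ σ x, Additive.toMul ((lv.conj σ ψ - ψ) x) ∈ classKer T L) :
    ∃ f ∈ Coh.eqHom G X (lv.Cl T), ∀ x, clIn lv hle (f x) = clPre T L (ψ x) := by
  haveI := setting_normal hL
  have hfix : ∀ x, ∃ c : lv.Cl T, clIn lv hle c = clPre T L (ψ x) := fun x => by
    haveI : L.fixingSubgroup.Normal := TW.normal_fixingSubgroup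
    obtain ⟨ω, hω, h⟩ := exists_fixed' hL hle le_rfl inferInstance (hψ x) fun σ hσ => by
      have h1 := hdev σ x
      rwa [AddMonoidHom.sub_apply, toMul_sub, lv.conj_apply, lv.mem_fix_field.mp hσ, inv_one,
        one_smul, toMul_actA] at h1
    refine ⟨lv.classOf _ ⟨ω, hω⟩, ?_⟩
    rw [clIn_classOf, clPre_eq_iff, toMul_ofMul]
    have := inv_mem h
    rwa [inv_div] at this
  choose c hc using hfix
  refine ⟨AddMonoidHom.mk' c fun x y => clIn_injective lv hle (by
    rw [map_add, hc, hc, hc, map_add, map_add]), fun g x => ?_, hc⟩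
  obtain ⟨σ, rfl⟩ := lv.surj g
  refine clIn_injective lv hle ?_
  show clIn lv hle (c (lv.q σ • x)) = clIn lv hle (lv.q σ • c x)
  obtain ⟨φ, hφ⟩ := lv.classOf_surjective (classKer T lv.field) (c x)
  have h1 := hc x
  rw [← hφ, clIn_classOf, clPre_eq_iff, toMul_ofMul] at h1
  rw [hc, ← hφ, lv.smul_classOf _ rfl, clIn_classOf, clPre_eq_iff, toMul_ofMul]
  have h2 := hdev σ (lv.q σ • x)
  rw [AddMonoidHom.sub_apply, toMul_sub, lv.conj_apply_smul, toMul_actA] at h2
  have h3 := inv_mem (mul_mem (smul_mem_classKer σ h1) h2)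
  convert h3 using 1
  rw [smul_div']
  apply Additive.ofMul.injective
  simp only [ofMul_div, ofMul_inv, ofMul_mul]
  abel

/-- Elements killed in the classes are principal at `T ∪ ∞` and units elsewhere. -/
theorem exists_principal_hom {T : Finset ℕ} {L : IntermediateField ℚ ℚ̄} {X : Type}
    [AddCommGroup X] (φ : X →+ 𝕁) (h : ∀ x, Additive.toMul (φ x) ∈ classKer T L) :
    ∃ η : X →+ Additive (ℚ̄)ˣ, (∀ x, ((Additive.toMul (η x) : (ℚ̄)ˣ) : ℚ̄) ∈ L) ∧
      ∀ x, Additive.toMul (φ x) / principalHom (Additive.toMul (η x)) ∈ unitIdeles T L := by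
  have hdec : ∀ x, ∃ a : (ℚ̄)ˣ, (a : ℚ̄) ∈ L ∧
      Additive.toMul (φ x) / principalHom a ∈ unitIdeles T L := fun x => by
    obtain ⟨_, ⟨a, ha, rfl⟩, w, hw, he⟩ := Subgroup.mem_sup.mp (h x)
    exact ⟨a, ha, by rw [← he, mul_div_cancel_left]; exact hw⟩
  choose a haL ha using hdec
  refine ⟨AddMonoidHom.mk' (fun x => Additive.ofMul (a x)) fun x y =>
    congrArg Additive.ofMul (eq_of_inf_eq (funext fun ι => ?_) : a (x + y) = a x * a y), haL, ha⟩
  have hi : ∀ x, (principalHom (a x)).inf ι = (Additive.toMul (φ x)).inf ι := fun x => by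
    have := congrFun (ha x).1.2.2 ι
    exact (div_eq_one.mp this).symm
  rw [map_mul, PreIdele.inf_mul, hi, hi, hi, map_add, toMul_add, PreIdele.inf_mul]

end FLTAgent.PoitouTate
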