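import Fermat.Agent.PoitouTate.Connect.Assembly
import Fermat.Agent.PoitouTate.Connect.Split

/-!
# The connecting map is onto `sha₂`

`theta_surjective`.  A cocycle of a class in `sha₂` is the differential of an idele cochain over a
field `L` (`exists_ideleCochain`); its image in the idele classes is a crossed homomorphism, which
is a coboundary up to a power prime to `p` since `H¹` with coefficients in the classes vanishes on
a `p`-Sylow subgroup; capitulation in a larger field then gives a connecting datum for a multiple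
prime to `p` of the cocycle (`exists_preimage`).
-/

set_option autoImplicit false
set_option synthInstance.maxHeartbeats 200000
set_option linter.style.haveILetI false
set_option linter.unusedSectionVars false

noncomputable section

open CategoryTheory groupCohomology ExtCitation
open scoped Pointwise

namespace FLTAgent.PoitouTate

open FLTAgent.TW FLTAgent.TW.PreIdele

local notation "ℚ̄" => AlgebraicClosure ℚ
local notation "Γ" => (AlgebraicClosure ℚ ≃ₐ[ℚ] AlgebraicClosure ℚ)
local notation "𝕌" => Additive (AlgebraicClosure ℚ)ˣ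
local notation "𝕁" => Additive PreIdele

variable {p : ℕ} [Fact p.Prime] {S : Finset Nat.Primes} {G : Type} [Group G]
variable {M : Rep.{0} (ZMod p) Γ} [FiniteDimensional (ZMod p) M] (lv : Level (natSet S) p G)
variable [DistribMulAction G (DualMod M)]
  (hact : ∀ (σ : Γ) (f : DualMod M),
    lv.q σ • f = DualMod.of ((M.dualTwist (cycloChar p)).ρ σ (DualMod.val f)))

omit [DistribMulAction G (DualMod M)] in
theorem prinA_kapF_classKer {T : Finset ℕ} {L : IntermediateField ℚ ℚ̄} [DistribMulAction G (DualMod M)]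
    (hle : lv.field ≤ L) (m : M) (x : Coh.Free G (DualMod M)) :
    Additive.toMul (prinA T (kapF M G m x)) ∈ classKer T L :=
  prinT_mem_classKer (kapF_mem_tUnits lv hle m x)

omit [DistribMulAction G (DualMod M)] in
/-- The level of a field. -/
theorem exists_field_level {L : IntermediateField ℚ ℚ̄} (hL : IdeleSetting (natSet S) p L)
    (hle : lv.field ≤ L) :
    ∃ (Q : Type) (_ : Group Q) (lvL : Level (natSet S) p Q),
      ∀ σ, lvL.q σ = 1 ↔ σ ∈ L.fixingSubgroup := by
  haveI := setting_normal hL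
  haveI := hL.finite
  haveI : L.fixingSubgroup.Normal := TW.normal_fixingSubgroup
  exact ⟨Γ ⧸ L.fixingSubgroup, inferInstance,
    { q := QuotientGroup.mk' L.fixingSubgroup
      surj := QuotientGroup.mk'_surjective _
      isOpen_ker := by
        rw [QuotientGroup.ker_mk']
        exact IntermediateField.fixingSubgroup_isOpen _
      mem := lv.mem
      prime := lv.prime
      unramified := fun A hA σ hσ => (QuotientGroup.eq_one_iff σ).mpr (hL.unramified A hA σ hσ)
      zeta := fun σ hσ ζ hζ => lv.zeta σ (lv.mem_fix_field.mp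
        (IntermediateField.fixingSubgroup_le hle ((QuotientGroup.eq_one_iff σ).mp hσ))) ζ hζ },
    fun σ => QuotientGroup.eq_one_iff σ⟩

set_option maxHeartbeats 800000 in
include hact in
/-- A cocycle of a class in `sha₂` comes, up to a factor prime to `p`, from a datum of a class. -/
theorem exists_preimage {T : Finset ℕ} (hST : natSet S ⊆ T) (hT : ∀ r ∈ T, r.Prime)
    (hp2 : p ≠ 2) {L : IntermediateField ℚ ℚ̄} (hL : IdeleSetting (natSet S) p L)
    (hle : lv.field ≤ L) {z : Γ × Γ → M} (hz : z ∈ levelCocyclesS₂ S M)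
    (hsha : continuousH2Sπ S M ⟨z, hz⟩ ∈ sha₂ S M) (hz1 : z (1, 1) = 0)
    (hzL : ∀ g g' s s', s ∈ L.fixingSubgroup → s' ∈ L.fixingSubgroup →
      z (g * s, g' * s') = z (g, g')) :
    ∃ (n : ℕ) (f : Coh.eqHom G (Coh.Rel G (DualMod M)) (lv.Cl T)), ¬ p ∣ n ∧
      Nonempty (ConnData lv (atS lv hST f) (n • z)) := by
  classical
  have hp := (Fact.out : p.Prime)
  haveI := lv.finite_group
  haveI := DualMod.finite M
  obtain ⟨Q, _, lvL, hq⟩ := exists_field_level lv hL hle
  haveI := lvL.finite_group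
  have hfix : lvL.field.fixingSubgroup = L.fixingSubgroup := by
    ext σ; rw [lvL.mem_fix_field, hq]
  have hle' : lv.field ≤ lvL.field := TW.Layer.le_of_fix (by
    rw [hfix]; exact IntermediateField.fixingSubgroup_le hle)
  obtain ⟨c⟩ := exists_ideleCochain lv hact hST hT hp2 lvL.setting hle' hz hsha hz1
    fun g g' s s' hs hs' => hzL g g' s s' (hfix ▸ hs) (hfix ▸ hs')
  let A := IdeleClass T lvL.field
  let Yb : Γ → (Coh.Free G (DualMod M) →+ Additive A) := fun σ =>
    AddMonoidHom.mk' (fun x => Additive.ofMul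
      (QuotientGroup.mk (⟨Additive.toMul (c.Y σ x), (c.Y_mem σ x).1⟩ : ideles lvL.field)))
      fun x y => congrArg (fun φ : ideles lvL.field => Additive.ofMul (QuotientGroup.mk φ))
        (Subtype.ext (congrArg Additive.toMul (map_add (c.Y σ) x y)))
  have hYbd : ∀ σ τ, lv.dC Yb σ τ = 0 := fun σ τ => AddMonoidHom.ext fun x => by
    have h1 : lv.dC Yb σ τ x = lvL.classOf (classKer T lvL.field)
        ⟨Additive.toMul (lv.dC c.Y σ τ x), mul_mem (div_mem
          (smul_mem_ideles σ (c.Y_mem τ _).1) (c.Y_mem (σ * τ) x).1) (c.Y_mem σ x).1⟩ := rfl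
    rw [h1, AddMonoidHom.zero_apply]
    refine (lvL.classOf_eq_zero_iff _ _).mpr ?_
    show Additive.toMul (lv.dC c.Y σ τ x) ∈ _
    rw [c.cocycle]
    exact prinA_kapF_classKer lv hle' _ x
  have hYc : ∀ σ τ, lvL.q σ = lvL.q τ → Yb σ = Yb τ := fun σ τ h => by
    have hs : τ⁻¹ * σ ∈ lvL.field.fixingSubgroup := lvL.mem_fix_field.mpr (by
      rw [map_mul, map_inv, h, inv_mul_cancel])
    have h1 : c.Y σ = c.Y τ := by rw [← c.Y_const τ _ hs, mul_inv_cancel_left]
    exact AddMonoidHom.ext fun x => congrArg (fun φ : ideles lvL.field =>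
      Additive.ofMul (QuotientGroup.mk φ : A))
      (Subtype.ext (congrArg (fun φ => Additive.toMul (φ x)) h1))
  have hsmul : ∀ (σ : Γ) (u : Q) (y : lvL.Cl T), lvL.q σ = u →
      u • y = actA (A := A) σ y := fun σ u y h => by
    obtain ⟨φ, rfl⟩ := lvL.classOf_surjective (classKer T lvL.field) y
    rw [lvL.smul_classOf _ h]
    rfl
  have hcoc : ∀ σ τ x, Yb (σ * τ) x = Yb σ x + actA σ (Yb τ ((lv.q σ)⁻¹ • x)) := fun σ τ x => by
    have h := DFunLike.congr_fun (hYbd σ τ) x
    simp only [Level.dC, AddMonoidHom.add_apply, AddMonoidHom.sub_apply, AddMonoidHom.zero_apply,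
      lv.conj_apply] at h
    refine sub_eq_zero.mp ?_
    calc Yb (σ * τ) x - (Yb σ x + actA σ (Yb τ ((lv.q σ)⁻¹ • x)))
        = -(actA σ (Yb τ ((lv.q σ)⁻¹ • x)) - Yb (σ * τ) x + Yb σ x) := by abel
      _ = 0 := by rw [h, neg_zero]
  -- `H¹` with coefficients in the classes
  let U : Subgroup Q := lv.field.fixingSubgroup.map lvL.q
  have hU : ∀ u ∈ U, lv.q (lvL.lift u) = 1 := by
    rintro u ⟨σ, hσ, rfl⟩
    have h : σ⁻¹ * lvL.lift (lvL.q σ) ∈ lvL.field.fixingSubgroup := lvL.mem_fix_field.mpr (by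
      rw [map_mul, map_inv, lvL.q_lift, inv_mul_cancel])
    have h2 := lv.mem_fix_field.mp (mul_mem hσ (IntermediateField.fixingSubgroup_le hle' h))
    rwa [mul_inv_cancel_left] at h2
  obtain ⟨P₀⟩ := (inferInstance : Nonempty (Sylow p U))
  let P : Subgroup Q := (P₀ : Subgroup U).map U.subtype
  have hPU : P ≤ U := Subgroup.map_subtype_le _
  have hPindex : P.relIndex U = (P₀ : Subgroup U).index := by
    rw [Subgroup.relIndex, Subgroup.subgroupOf, Subgroup.comap_map_eq_self_of_injective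
      U.subtype_injective]
  set k := P.relIndex U
  have hk : ¬ p ∣ k := hPindex ▸ P₀.not_dvd_index
  have hβ : ∀ n : DualMod M, ∃ b : Additive A, ∀ σ, lv.q σ = 1 →
      (k • Yb σ) (Coh.Free.of 1 n) = actA σ b - b := fun n => by
    obtain ⟨b, hb⟩ := exists_nsmul_coboundary hPU
      (lvL.h1Zero_cl hST hT P (P₀.isPGroup'.map U.subtype))
      (fun u => (Yb (lvL.lift u) (Coh.Free.of 1 n) : lvL.Cl T)) fun u hu v hv => by
        rw [hYc (lvL.lift (u * v)) (lvL.lift u * lvL.lift v)
          (by rw [map_mul, lvL.q_lift, lvL.q_lift, lvL.q_lift]), hcoc, hU u hu, inv_one, one_smul]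
        exact congrArg (_ + ·) (hsmul (lvL.lift u) u _ (lvL.q_lift u)).symm
    refine ⟨b, fun σ hσ => ?_⟩
    have h1 := hb (lvL.q σ) ⟨σ, lv.mem_fix_field.mpr hσ, rfl⟩
    rw [hYc _ σ (lvL.q_lift _)] at h1
    exact h1.trans (congrArg (· - b) (hsmul σ _ b rfl))
  choose β hβ using hβ
  obtain ⟨ub, hub⟩ := exists_split lv (fun σ => k • Yb σ) (fun σ τ => by
    show lv.dC (k • Yb) σ τ = 0
    rw [lv.dC_nsmul, hYbd]
    exact AddMonoidHom.ext fun _ => nsmul_zero k) β hβ
  choose rep hrep using fun x : G × DualMod M => lvL.classOf_surjective (classKer T lvL.field)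
    (ub (Coh.Free.of x.1 x.2))
  let φ : Coh.Free G (DualMod M) →+ 𝕁 := Coh.Free.lift fun g n => Additive.ofMul (rep (g, n)).1
  have hφm : ∀ x, Additive.toMul (φ x) ∈ ideles lvL.field := free_mem φ _ fun g n => by
    simp only [φ, Coh.Free.lift_of]
    exact (rep (g, n)).2
  let φb : Coh.Free G (DualMod M) →+ Additive A := AddMonoidHom.mk'
    (fun x => Additive.ofMul (QuotientGroup.mk (⟨Additive.toMul (φ x), hφm x⟩ : ideles lvL.field)))
    fun x y => congrArg (fun φ : ideles lvL.field => Additive.ofMul (QuotientGroup.mk φ))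
      (Subtype.ext (congrArg Additive.toMul (map_add φ x y)))
  have hφb : φb = ub := Coh.Free.hom_ext fun g n => by
    rw [← hrep (g, n)]
    refine congrArg (fun φ : ideles lvL.field => Additive.ofMul (QuotientGroup.mk φ : A))
      (Subtype.ext ?_)
    show Additive.toMul (φ (Coh.Free.of g n)) = _
    simp only [φ, Coh.Free.lift_of]
    rfl
  let Δ : Γ → (Coh.Free G (DualMod M) →+ 𝕁) := k • c.Y - fun σ => lv.conj σ φ - φ
  have hΔ : ∀ σ x, Additive.toMul (Δ σ x) ∈ classKer T lvL.field := fun σ x => by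
    have h1 : (k • Yb σ) x - (lv.conj σ φb - φb) x = 0 := by
      rw [hφb, hub, sub_self]
    have hm : Additive.toMul (Δ σ x) ∈ ideles lvL.field :=
      div_mem (pow_mem (c.Y_mem σ x).1 k) (div_mem (smul_mem_ideles σ (hφm _)) (hφm x))
    exact (lvL.classOf_eq_zero_iff (classKer T lvL.field) ⟨_, hm⟩).mp h1
  choose η hηL hη using fun σ => exists_principal_hom (T := T) (L := lvL.field) (Δ σ) (hΔ σ)
  -- capitulation at `S`
  obtain ⟨k₂, L', x₂, hk₂, hLL', hL', hxL, hx⟩ := exists_capitulate_finset lvL.setting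
    (fun b : G × DualMod M => Additive.toMul (φ (Coh.Free.of b.1 b.2))) fun b => hφm _
  haveI := setting_normal hL'
  haveI := hL'.finite
  have hle'' : lv.field ≤ L' := hle'.trans hLL'
  let ξ : Coh.Free G (DualMod M) →+ 𝕌 := Coh.Free.lift fun g n => Additive.ofMul (x₂ (g, n))
  have hξ : ∀ x, Additive.toMul (ξ x) ∈ fieldUnits L' := free_mem ξ _ fun g n => by
    simp only [ξ, Coh.Free.lift_of]
    exact hxL (g, n)
  let PA : 𝕌 →+ 𝕁 := principalHom.toAdditive
  have hPA : ∀ σ (u : Coh.Free G (DualMod M) →+ 𝕌), lv.conj σ (PA.comp u) =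
      PA.comp (lv.conj σ u) :=
    fun σ u => lv.conj_comp_hom (fun σ a => (smul_principalHom σ a).symm) σ u
  let ψ : Coh.Free G (DualMod M) →+ 𝕁 := k₂ • φ - PA.comp ξ
  have hψm : ∀ x, Additive.toMul (ψ x) ∈ ideles L' := fun x =>
    div_mem (pow_mem (ideles_le_of_le hLL' (hφm x)) k₂) (principalHom_mem_ideles (hξ x))
  have hψu : ∀ (A' : Place), ¬ A'.Over (natSet S) → ∀ x,
      (Additive.toMul (ψ x)).fin A' ∈ A'.1.unitGroup := fun A' hA' x =>
    (free_mem ψ (A'.1.unitGroup.comap (finHom A')) (fun g n => by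
      refine Subgroup.mem_comap.mpr ?_
      show (Additive.toMul (ψ (Coh.Free.of g n))).fin A' ∈ _
      simp only [ψ, PA, ξ, AddMonoidHom.sub_apply, AddMonoidHom.nsmul_apply,
        AddMonoidHom.comp_apply, Coh.Free.lift_of, toMul_sub, toMul_nsmul]
      show ((Additive.toMul (φ (Coh.Free.of g n))) ^ k₂).fin A' / x₂ (g, n) ∈ _
      rw [fin_pow]
      exact hx (g, n) A' hA') x :)
  let e : Γ → (Coh.Free G (DualMod M) →+ 𝕌) := k₂ • η + fun σ => lv.conj σ ξ - ξ
  let Δ' : Γ → (Coh.Free G (DualMod M) →+ 𝕁) := (k₂ * k) • c.Y - fun σ => lv.conj σ ψ - ψ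
  have hΔ' : ∀ σ x, Additive.toMul (Δ' σ x) / principalHom (Additive.toMul (e σ x)) ∈
      unitIdeles T L' := fun σ x => by
    have h1 := pow_mem (unitIdeles_mono hLL' (hη σ x)) k₂
    have h2 : Δ' σ x - PA (e σ x) = k₂ • (Δ σ x - PA (η σ x)) := by
      simp only [Δ', Δ, e, ψ, Pi.sub_apply, Pi.smul_apply, Pi.add_apply, map_sub, map_add,
        map_nsmul, AddMonoidHom.sub_apply, AddMonoidHom.add_apply, AddMonoidHom.nsmul_apply,
        hPA, AddMonoidHom.comp_apply, nsmul_sub, ← mul_nsmul']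
      abel
    show Additive.toMul (Δ' σ x - PA (e σ x)) ∈ _
    rw [h2]
    exact h1
  have heL : ∀ σ x, ((Additive.toMul (e σ x) : (ℚ̄)ˣ) : ℚ̄) ∈ L' := fun σ x =>
    (mul_mem (pow_mem (show Additive.toMul (η σ x) ∈ fieldUnits L' from hLL' (hηL σ x)) k₂)
      (div_mem (mem_of_normal σ (hξ _) : _ ∈ fieldUnits L') (hξ x)) :
      Additive.toMul (e σ x) ∈ fieldUnits L')
  have hem : ∀ σ x, Additive.toMul (e σ x) ∈ tUnits (natSet S) L' := fun σ x => ⟨heL σ x,
    fun A' hA' => by
      have h1 : (Additive.toMul (Δ' σ x)).fin A' ∈ A'.1.unitGroup := by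
        show (Additive.toMul (c.Y σ x) ^ (k₂ * k)).fin A' /
          ((σ • Additive.toMul (ψ ((lv.q σ)⁻¹ • x))).fin A' / (Additive.toMul (ψ x)).fin A') ∈ _
        refine div_mem (by rw [fin_pow]; exact pow_mem (c.Y_unit σ x A' hA') _)
          (div_mem ?_ (hψu A' hA' x))
        show Units.map (σ : ℚ̄ →* ℚ̄) _ ∈ _
        have h3 := unitGroup_smul (σ := σ) (A := (σ⁻¹ • A').1)
          |>.mpr (hψu (σ⁻¹ • A') (fun h => hA' (Place.over_smul_iff.mp h)) ((lv.q σ)⁻¹ • x))
        rwa [← Place.coe_smul, smul_inv_smul] at h3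
      have h2 := div_mem h1 ((hΔ' σ x).2 A')
      rwa [show (Additive.toMul (Δ' σ x) / principalHom (Additive.toMul (e σ x))).fin A' =
        (Additive.toMul (Δ' σ x)).fin A' / Additive.toMul (e σ x) from rfl, div_div_cancel] at h2⟩
  have htr : ∀ {U' : Finset ℕ}, U' ⊆ T → ∀ σ x,
      truncT U' (Additive.toMul (Δ' σ x)) = prinT U' (Additive.toMul (e σ x)) := by
    intro U' hU' σ x
    refine div_eq_one.mp ?_
    show truncT U' (Additive.toMul (Δ' σ x)) / truncT U' (principalHom _) = 1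
    rw [← map_div]
    refine PreIdele.ext (funext fun A' => ?_) (funext fun ι => ?_)
    · by_cases hA' : A'.Over U'
      · rw [truncT_fin_pos hA', (hΔ' σ x).1.2.1 A' (over_mono hU' hA')]; rfl
      · rw [truncT_fin_neg hA']; rfl
    · rw [truncT_inf, (hΔ' σ x).1.2.2]; rfl
  have htrA : ∀ {U' : Finset ℕ}, U' ⊆ T →
      (fun σ => (truncT U').toAdditive.comp (Δ' σ)) = fun σ => (prinA U').comp (e σ) :=
    fun hU' => funext fun σ => AddMonoidHom.ext fun x => congrArg Additive.ofMul (htr hU' σ x)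
  have heconst : ∀ σ, ∀ s ∈ L'.fixingSubgroup, e (σ * s) = e σ := fun σ s hs => by
    refine prinA_comp_injective T ?_
    have h := congrFun (htrA subset_rfl)
    rw [← h, ← h]
    refine congrArg (truncT T).toAdditive.comp ?_
    show (k₂ * k) • c.Y (σ * s) - (lv.conj (σ * s) ψ - ψ) = (k₂ * k) • c.Y σ - (lv.conj σ ψ - ψ)
    rw [c.Y_const σ s (IntermediateField.fixingSubgroup_le hLL' hs),
      conj_fixed lv hle'' (fun x t ht => (hψm x).1 t ht) σ hs]
  have hecoc : ∀ σ τ, lv.dC e σ τ = (k₂ * k) • kapF M G (z (σ, τ)) := fun σ τ => by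
    refine prinA_comp_injective T ?_
    refine (lv.dC_hom (j := prinT T) smul_prinT e σ τ).symm.trans ?_
    show lv.dC (fun ρ => (prinA T).comp (e ρ)) σ τ = _
    rw [← htrA subset_rfl, lv.dC_hom (fun σ a => (smul_truncT σ a).symm)]
    show (truncT T).toAdditive.comp (lv.dC ((k₂ * k) • c.Y - fun σ => lv.conj σ ψ - ψ) σ τ) = _
    rw [lv.dC_sub, lv.dC_coboundary, lv.dC_nsmul, c.cocycle]
    refine AddMonoidHom.ext fun x => ?_
    show (truncT T).toAdditive ((k₂ * k) • prinA T (kapF M G (z (σ, τ)) x) - 0) =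
      prinA T ((k₂ * k) • kapF M G (z (σ, τ)) x)
    rw [sub_zero, map_nsmul, map_nsmul]
    refine congrArg ((k₂ * k) • ·) (congrArg Additive.ofMul ?_)
    exact truncT_eq_self fun A' hA' => truncT_fin_neg hA' _
  -- the classes
  let X : Coh.Rel G (DualMod M) →+ 𝕁 :=
    (k₂ * k) • c.W - ψ.comp (Coh.Rel G (DualMod M)).subtype
  have hX : ∀ σ, lv.conj σ X - X = (Δ' σ).comp (Coh.Rel G (DualMod M)).subtype := fun σ => by
    show lv.conj σ X - X =
      ((k₂ * k) • c.Y σ - (lv.conj σ ψ - ψ)).comp (Coh.Rel G (DualMod M)).subtype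
    simp only [X, map_sub, map_nsmul, lv.conj_comp_eqHom Coh.subtype_mem_eqHom]
    refine AddMonoidHom.ext fun y => ?_
    have h := DFunLike.congr_fun (c.Y_rel σ) y
    simp only [AddMonoidHom.sub_apply, AddMonoidHom.comp_apply, AddMonoidHom.nsmul_apply,
      AddSubgroup.subtype_apply] at h ⊢
    rw [h, nsmul_sub]
    abel
  have hXm : ∀ r, Additive.toMul (X r) ∈ ideles L' := fun r =>
    div_mem (pow_mem (ideles_le_of_le hLL' (c.W_mem r).1) _) (hψm _)
  have hXu : ∀ (A' : Place), ¬ A'.Over (natSet S) → ∀ r,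
      (Additive.toMul (X r)).fin A' ∈ A'.1.unitGroup := fun A' hA' r => by
    show (Additive.toMul (c.W r) ^ (k₂ * k)).fin A' / _ ∈ _
    exact div_mem (by rw [fin_pow]; exact pow_mem (c.W_unit r A' hA') _) (hψu A' hA' _)
  obtain ⟨f, hf, hfX⟩ := exists_classes_of_deviation lv (hL'.mono_T hST hT) hle'' X hXm
    fun σ r => by
      rw [hX]
      have h1 := hΔ' σ (r : Coh.Free G (DualMod M))
      have h2 := Subgroup.mul_mem_sup (S := principal L') (T := unitIdeles T L')
        ⟨_, heL σ r, rfl⟩ h1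
      rw [mul_div_cancel] at h2
      exact h2
  let D : Coh.Rel G (DualMod M) →+ 𝕁 := (truncT (natSet S)).toAdditive.comp X
  refine ⟨k₂ * k, ⟨f, hf⟩, hp.not_dvd_mul hk₂ hk, ⟨⟨L', hL', hle'', D,
    fun r => truncT_mem (hXm r), fun r => ?_, e, hem, heconst, fun σ => ?_, fun σ τ => ?_⟩⟩⟩
  · obtain ⟨ω, hω⟩ := lv.classOf_surjective (classKer T lv.field) (f r)
    have h1 := hfX r
    rw [← hω, clIn_classOf, clPre_eq_iff, toMul_ofMul] at h1
    show clPre (natSet S) L' (D r) = clIn lv hle'' (lv.changeT hST (f r))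
    rw [← hω, lv.changeT_classOf, clIn_classOf, clPre_eq_iff, toMul_ofMul]
    have h3 := Subgroup.mem_sup_right (S := principal L')
      (div_truncT_mem (T := natSet S) (hXm r) fun A' hA' => hXu A' hA' r)
    have h4 := inv_mem (mul_mem (classKer_anti hST h1) h3)
    convert h4 using 1
    show truncT (natSet S) (Additive.toMul (X r)) / _ = _
    apply Additive.ofMul.injective
    simp only [ofMul_div, ofMul_inv, ofMul_mul]
    abel
  · show lv.conj σ ((truncT (natSet S)).toAdditive.comp X) - _ = _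
    rw [lv.conj_comp_hom (fun σ a => (smul_truncT σ a).symm), ← AddMonoidHom.comp_sub, hX]
    refine AddMonoidHom.ext fun r => ?_
    exact congrArg Additive.ofMul (htr hST σ r)
  · rw [hecoc, Pi.smul_apply, map_nsmul]

set_option maxHeartbeats 800000 in
/-- Every class in `sha₂` is in the image of the connecting map. -/
theorem theta_surjective {T : Finset ℕ} (hST : natSet S ⊆ T) (hT : ∀ r ∈ T, r.Prime)
    (hp2 : p ≠ 2) : Function.Surjective (theta lv hact hST hp2) := by
  rintro ⟨x, hx⟩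
  obtain ⟨⟨z, hz⟩, rfl⟩ := Submodule.mkQ_surjective _ x
  obtain ⟨F, hF, hzF⟩ := hz.2
  obtain ⟨L, hle, hFL, hL⟩ := exists_setting_of_unramified lv.setting hF
  haveI := setting_normal hL
  -- normalise
  set c₀ := z (1, 1) with hc₀
  have hzd : (fun στ : Γ × Γ => M.ρ στ.1 c₀) ∈ levelCoboundariesS₂ S M :=
    (mem_levelCoboundariesS₂_iff S M _).mpr ⟨fun _ => c₀, isLevelConstantS₁_const S c₀,
      funext fun στ => by rw [d₁₂_hom_apply, sub_add_cancel]⟩
  let z' : Γ × Γ → M := z - fun στ : Γ × Γ => M.ρ στ.1 c₀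
  have hdz : z - z' ∈ levelCoboundariesS₂ S M := by
    rw [show z - z' = fun στ : Γ × Γ => M.ρ στ.1 c₀ from sub_sub_cancel z _]
    exact hzd
  have hd : (fun στ : Γ × Γ => M.ρ στ.1 c₀) ∈ levelCocyclesS₂ S M := by
    obtain ⟨x, hx, he⟩ := (mem_levelCoboundariesS₂_iff S M _).mp hzd
    refine ⟨he ▸ coboundaries₂_le_cocycles₂ M ⟨x, rfl⟩, L, setting_unramified hL,
      fun g g' s s' hs _ => kapF_injective (M := M) (G := G) ?_⟩
    show kapF M G (M.ρ (g * s) c₀) = kapF M G (M.ρ g c₀)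
    rw [← conj_kapF lv hact, ← conj_kapF lv hact]
    exact conj_fixed lv hle (φ := kapF M G c₀)
      (fun x t ht => smul_fix (hle (zetaAdd_mem_field lv _)) ht) g hs
  have hz' : z' ∈ levelCocyclesS₂ S M := sub_mem hz hd
  have hcls : continuousH2Sπ S M ⟨z', hz'⟩ = continuousH2Sπ S M ⟨z, hz⟩ := by
    rw [eq_comm, ← sub_eq_zero, ← map_sub, continuousH2Sπ_eq_zero_iff]
    exact hdz
  have hzL : ∀ g g' s s', s ∈ L.fixingSubgroup → s' ∈ L.fixingSubgroup →
      z' (g * s, g' * s') = z' (g, g') := fun g g' s s' hs hs' => by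
    show z (g * s, g' * s') - M.ρ (g * s) c₀ = z (g, g') - M.ρ g c₀
    rw [hzF g g' s s' (IntermediateField.fixingSubgroup_le hFL hs)
      (IntermediateField.fixingSubgroup_le hFL hs')]
    refine congrArg _ (kapF_injective (M := M) (G := G) ?_)
    rw [← conj_kapF lv hact, ← conj_kapF lv hact]
    exact conj_fixed lv hle (φ := kapF M G c₀)
      (fun x t ht => smul_fix (hle (zetaAdd_mem_field lv _)) ht) g hs
  obtain ⟨n, f, hn, ⟨d⟩⟩ := exists_preimage lv hact hST hT hp2 hL hle hz' (hcls ▸ hx)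
    (by show z (1, 1) - M.ρ 1 c₀ = 0; rw [map_one]; exact sub_self _) hzL
  have hn0 : (n : ZMod p) ≠ 0 := fun h => hn ((ZMod.natCast_eq_zero_iff n p).mp h)
  refine ⟨((n : ZMod p)⁻¹).val • Coh.Ext1.mk f, ?_⟩
  rw [map_nsmul]
  refine Subtype.ext ?_
  show ((n : ZMod p)⁻¹).val • continuousH2Sπ S M ⟨_, thetaCocycle_mem lv hact hST _⟩ = _
  have h1 : continuousH2Sπ S M ⟨_, thetaCocycle_mem lv hact hST (Coh.Ext1.mk f)⟩ =
      n • continuousH2Sπ S M ⟨z', hz'⟩ := by
    rw [← sub_eq_zero, ← map_nsmul, ← map_sub, continuousH2Sπ_eq_zero_iff]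
    exact theta_eq lv hact hST rfl d
  haveI : NeZero p := ⟨(Fact.out : p.Prime).ne_zero⟩
  rw [h1, hcls, ← mul_nsmul', ← Nat.cast_smul_eq_nsmul (ZMod p), Nat.cast_mul,
    ZMod.natCast_zmod_val, inv_mul_cancel₀ hn0, one_smul]

end FLTAgent.PoitouTate
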